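/-
Riemann–Roch library (item 65), interface file (helper16, architect).

Definitions only: standing hypotheses `RRBase` / `RRHyp`, the numbers `ell D = dim L(D)` and
`idx D = dim H¹(D)`, Weil differentials and canonical divisors (in the sense of Weil).
Everything is phrased with the Prelude's `Place`, `Divisor`, `repartitions`, `repartitionsOf`,
`riemannRochSpace`, `H1`, `genusFF`.  Blueprint: NOTES/RR_blueprint.md.
-/
import Mathlib
import Fermat.Prelude.Def_AlgebraicCurve_Repartitions

set_option autoImplicit false

noncomputable section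

namespace Fermat.Agent.RRlib

open AlgebraicCurve

variable (K F : Type*) [Field K] [Field F] [Algebra K F]

/-- Elementary standing hypotheses (all of them hold for a function field in one variable over an
algebraically closed field; instance in `RRlib/Inst.lean`). -/
class RRBase : Prop where
  /-- every place is rational: its residue field is `K` -/
  residue_surjective : ∀ v : Place K F, Function.Surjective (algebraMap K v.ResidueField)
  /-- a nonzero function has finitely many zeros and poles, and its divisor has degree `0` -/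
  principal : ∀ f : F, f ≠ 0 →
    ∃ D : Divisor K F, (∀ v : Place K F, D v = v.ord f) ∧ Divisor.degree D = 0
  /-- a function without poles is constant -/
  const_of_forall_ord_nonneg : ∀ f : F, (∀ v : Place K F, 0 ≤ v.ord f) →
    f ∈ Set.range (algebraMap K F)
  /-- there is a place -/
  nonempty_place : Nonempty (Place K F)

/-- `ℓ(D) = dim_K L(D)`. -/
def ell {K F : Type*} [Field K] [Field F] [Algebra K F] (D : Divisor K F) : ℕ :=
  Module.finrank K (riemannRochSpace D)

/-- `i(D) = dim_K H¹(D) = dim_K A / (A(D) + F)`. -/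
def idx {K F : Type*} [Field K] [Field F] [Algebra K F] (D : Divisor K F) : ℕ :=
  Module.finrank K (H1 D)

/-- Full standing hypotheses: `RRBase` plus a seed for Riemann's inequality
(`ℓ(mB) ≥ m·deg B − c` for some divisor `B` of positive degree). -/
class RRHyp : Prop extends RRBase K F where
  riemann_seed : ∃ (B : Divisor K F) (c : ℤ), 0 < Divisor.degree B ∧
    ∀ m : ℕ, (m : ℤ) * Divisor.degree B - c ≤ (ell (m • B) : ℤ)

variable {K F}

/-- The divisor of a nonzero function (junk value `0` at `f = 0`). -/
def divOf [RRBase K F] (f : F) : Divisor K F :=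
  letI := Classical.propDecidable
  if h : f ≠ 0 then (RRBase.principal (K := K) f h).choose else 0

theorem divOf_apply [RRBase K F] {f : F} (hf : f ≠ 0) (v : Place K F) :
    divOf (K := K) f v = v.ord f := by
  rw [divOf, dif_pos hf]
  exact (RRBase.principal (K := K) f hf).choose_spec.1 v

theorem divOf_apply' [RRBase K F] (f : F) (v : Place K F) :
    divOf (K := K) f v = v.ord f := by
  rcases eq_or_ne f 0 with rfl | hf
  · simp [divOf]
  · exact divOf_apply hf v

theorem degree_divOf [RRBase K F] (f : F) : Divisor.degree (divOf (K := K) f) = 0 := by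
  rcases eq_or_ne f 0 with rfl | hf
  · simp [divOf]
  · rw [divOf, dif_pos hf]
    exact (RRBase.principal (K := K) f hf).choose_spec.2

/-! ### Weil differentials -/

variable (K F) in
/-- The `K`-space of Weil differentials: `K`-linear functionals on the repartition ring which
vanish on `F` and on `A(D)` for some divisor `D`. -/
def weilDiff : Submodule K (Module.Dual K ↥(repartitions K F)) where
  carrier := {ω | (∀ α ∈ principalRepartitions K F, ω α = 0) ∧
    ∃ D : Divisor K F, ∀ α ∈ repartitionsOf D, ω α = 0}
  zero_mem' := ⟨fun _ _ => rfl, 0, fun _ _ => rfl⟩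
  add_mem' := by
    rintro ω₁ ω₂ ⟨h₁, D₁, hD₁⟩ ⟨h₂, D₂, hD₂⟩
    refine ⟨fun α hα => by simp [h₁ α hα, h₂ α hα], D₁ ⊓ D₂, fun α hα => ?_⟩
    have e₁ := hD₁ α (repartitionsOf_mono inf_le_left hα)
    have e₂ := hD₂ α (repartitionsOf_mono inf_le_right hα)
    simp [e₁, e₂]
  smul_mem' := by
    rintro c ω ⟨h, D, hD⟩
    exact ⟨fun α hα => by simp [h α hα], D, fun α hα => by simp [hD α hα]⟩

/-- `ω` vanishes on `A(D)`. -/
def VanishesOn (ω : Module.Dual K ↥(repartitions K F)) (D : Divisor K F) : Prop :=
  ∀ α ∈ repartitionsOf D, ω α = 0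

/-- `Ω(D)`: the Weil differentials vanishing on `A(D)`. -/
def weilDiffOf (D : Divisor K F) : Submodule K (Module.Dual K ↥(repartitions K F)) where
  carrier := {ω | (∀ α ∈ principalRepartitions K F, ω α = 0) ∧ VanishesOn ω D}
  zero_mem' := ⟨fun _ _ => rfl, fun _ _ => rfl⟩
  add_mem' := by
    rintro ω₁ ω₂ ⟨h₁, hD₁⟩ ⟨h₂, hD₂⟩
    exact ⟨fun α hα => by simp [h₁ α hα, h₂ α hα], fun α hα => by simp [hD₁ α hα, hD₂ α hα]⟩
  smul_mem' := by
    rintro c ω ⟨h, hD⟩
    exact ⟨fun α hα => by simp [h α hα], fun α hα => by simp [hD α hα]⟩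

theorem weilDiffOf_le_weilDiff (D : Divisor K F) : weilDiffOf D ≤ weilDiff K F :=
  fun _ h => ⟨h.1, D, h.2⟩

/-- Multiplication of a functional on repartitions by a function: `(f • ω)(α) = ω(f α)`. -/
def fmul (f : F) (ω : Module.Dual K ↥(repartitions K F)) : Module.Dual K ↥(repartitions K F) where
  toFun α := ω (f • α)
  map_add' α β := by rw [smul_add, map_add]
  map_smul' c α := by
    rw [smul_comm f c α, map_smul]
    rfl

@[simp] theorem fmul_apply (f : F) (ω : Module.Dual K ↥(repartitions K F))
    (α : ↥(repartitions K F)) : fmul f ω α = ω (f • α) := rfl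

/-- `W` is a canonical divisor in the sense of Weil: it is the divisor of a nonzero Weil
differential `ω`, i.e. `ω` vanishes on `A(D)` exactly for `D ≤ W`. -/
def IsCanonicalDivisor (W : Divisor K F) : Prop :=
  ∃ ω ∈ weilDiff K F, ω ≠ 0 ∧ ∀ D : Divisor K F, VanishesOn ω D ↔ D ≤ W

end Fermat.Agent.RRlib

end
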