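/-
Riemann–Roch library (item 65), piece R0: basic facts (helper16).
-/
import Mathlib
import Fermat.Agent.RRlib.Defs

set_option autoImplicit false

noncomputable section

namespace Fermat.Agent.RRlib

open AlgebraicCurve WithZero

variable {K F : Type*} [Field K] [Field F] [Algebra K F]

/-! ### poles of repartitions -/

/-- a nonzero function has finitely many poles -/
theorem finite_poles_const [RRBase K F] (f : F) :
    {v : Place K F | ¬ v.adicValuation f ≤ 1}.Finite := by
  rcases eq_or_ne f 0 with rfl | hf
  · simp
  refine (divOf (K := K) f).support.finite_toSet.subset fun v hv => ?_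
  rw [Finset.mem_coe, Finsupp.mem_support_iff, divOf_apply hf]
  intro h0
  apply hv
  rw [v.adicValuation_le_one_iff]
  exact Or.inr h0.ge

theorem finite_poles_val [RRBase K F] (α : ↥(repartitions K F)) :
    {v : Place K F | ¬ v.adicValuation ((α : Place K F → F) v) ≤ 1}.Finite := by
  obtain ⟨α, hα⟩ := α
  show {v : Place K F | ¬ v.adicValuation (α v) ≤ 1}.Finite
  induction hα using Algebra.adjoin_induction with
  | mem x hx => exact hx
  | algebraMap f => exact finite_poles_const (K := K) f
  | add x y _ _ hx hy =>
    refine (hx.union hy).subset fun v hv => ?_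
    by_contra hcon
    simp only [Set.mem_union, Set.mem_ofPred_eq, not_or, not_not] at hcon
    exact hv ((Valuation.map_add _ _ _).trans (max_le hcon.1 hcon.2))
  | mul x y _ _ hx hy =>
    refine (hx.union hy).subset fun v hv => ?_
    by_contra hcon
    simp only [Set.mem_union, Set.mem_ofPred_eq, not_or, not_not] at hcon
    apply hv
    show v.adicValuation (x v * y v) ≤ 1
    rw [map_mul]
    exact mul_le_one' hcon.1 hcon.2

/-- a repartition has finitely many poles -/
theorem finite_poles [RRBase K F] (α : ↥(repartitions K F)) :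
    {v : Place K F | v.ord ((α : Place K F → F) v) < 0}.Finite := by
  have h := finite_poles_val α
  rwa [show {v : Place K F | ¬v.adicValuation ((α : Place K F → F) v) ≤ 1}
        = {v : Place K F | v.ord ((α : Place K F → F) v) < 0} from
      Set.ext fun v => v.not_adicValuation_le_one_iff] at h

/-- every repartition lies in some `A(D)` -/
theorem exists_mem_repartitionsOf [RRBase K F] (α : ↥(repartitions K F)) :
    ∃ D : Divisor K F, α ∈ repartitionsOf D := by
  classical
  have hfin := finite_poles α
  refine ⟨Finsupp.onFinset hfin.toFinset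
    (fun v => if v.ord ((α : Place K F → F) v) < 0 then - v.ord ((α : Place K F → F) v) else 0)
    (fun v hv => ?_), ?_⟩
  · rw [Set.Finite.mem_toFinset]
    by_contra hcon
    exact hv (if_neg hcon)
  · rw [mem_repartitionsOf_iff]
    intro v
    right
    rw [Finsupp.onFinset_apply]
    split_ifs with h
    · omega
    · omega

/-! ### degrees -/

theorem deg_eq_one [RRBase K F] (v : Place K F) : v.deg = 1 := by
  have hs := RRBase.residue_surjective (K := K) v
  have hbij : Function.Bijective (algebraMap K v.ResidueField) :=
    ⟨(algebraMap K v.ResidueField).injective, hs⟩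
  have e : K ≃ₗ[K] v.ResidueField :=
    LinearEquiv.ofBijective (Algebra.linearMap K v.ResidueField) hbij
  rw [Place.deg, ← e.finrank_eq, Module.finrank_self]

theorem degree_eq_sum [RRBase K F] (D : Divisor K F) :
    Divisor.degree D = D.sum fun _ n => n := by
  induction D using Finsupp.induction with
  | zero => simp
  | single_add v n D hv hn ih =>
    rw [map_add, ih, Divisor.degree_single, deg_eq_one,
      Finsupp.sum_add_index' (fun _ => rfl) (fun _ _ _ => rfl), Finsupp.sum_single_index rfl]
    simp

theorem degree_nonneg [RRBase K F] {D : Divisor K F} (h : 0 ≤ D) : 0 ≤ Divisor.degree D := by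
  rw [degree_eq_sum]
  exact Finset.sum_nonneg fun v _ => h v

theorem degree_mono [RRBase K F] {D D' : Divisor K F} (h : D ≤ D') :
    Divisor.degree D ≤ Divisor.degree D' := by
  have h1 : 0 ≤ D' - D := sub_nonneg.mpr h
  have h2 := degree_nonneg h1
  rw [map_sub] at h2
  linarith

theorem eq_zero_of_nonneg_of_degree_le [RRBase K F] {D : Divisor K F} (h : 0 ≤ D)
    (hd : Divisor.degree D ≤ 0) : D = 0 := by
  rw [degree_eq_sum] at hd
  have h0 : ∀ v ∈ D.support, D v = 0 := by
    have hsum : (D.sum fun _ n => n) = 0 :=
      le_antisymm hd (Finset.sum_nonneg fun v _ => h v)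
    exact (Finset.sum_eq_zero_iff_of_nonneg fun v _ => h v).mp hsum
  ext v
  by_cases hv : v ∈ D.support
  · exact h0 v hv
  · simpa using hv

theorem eq_of_le_of_degree_le [RRBase K F] {D D' : Divisor K F} (h : D ≤ D')
    (hd : Divisor.degree D' ≤ Divisor.degree D) : D = D' := by
  have h1 : 0 ≤ D' - D := sub_nonneg.mpr h
  have h2 : Divisor.degree (D' - D) ≤ 0 := by rw [map_sub]; linarith
  have := eq_zero_of_nonneg_of_degree_le h1 h2
  exact (sub_eq_zero.mp this).symm

theorem degree_single_one [RRBase K F] (v : Place K F) :
    Divisor.degree (Finsupp.single v (1 : ℤ)) = 1 := by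
  rw [Divisor.degree_single, deg_eq_one]; simp

/-! ### `A(D)` -/

/-- `A(D₁ ⊔ D₂) = A(D₁) + A(D₂)` -/
theorem repartitionsOf_sup (D₁ D₂ : Divisor K F) :
    repartitionsOf (D₁ ⊔ D₂) = repartitionsOf D₁ ⊔ repartitionsOf D₂ := by
  classical
  apply le_antisymm
  · intro α hα
    rw [mem_repartitionsOf_iff] at hα
    -- split α according to whether D₂ v ≤ D₁ v
    let β : Place K F → F := fun v => if D₂ v ≤ D₁ v then (α : Place K F → F) v else 0
    let γ : Place K F → F := fun v => if D₂ v ≤ D₁ v then 0 else (α : Place K F → F) v
    have hβ : ∀ v : Place K F, v.adicValuation (β v) ≤ exp (D₁ v) := by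
      intro v
      rw [Place.adicValuation_le_exp_iff]
      by_cases h : D₂ v ≤ D₁ v
      · simp only [β, if_pos h]
        rcases hα v with h0 | h1
        · exact Or.inl h0
        · right
          have : (D₁ ⊔ D₂) v = D₁ v := by
            rw [Finsupp.sup_apply]; exact sup_eq_left.mpr h
          rwa [this] at h1
      · simp [β, if_neg h]
    have hγ : ∀ v : Place K F, v.adicValuation (γ v) ≤ exp (D₂ v) := by
      intro v
      rw [Place.adicValuation_le_exp_iff]
      by_cases h : D₂ v ≤ D₁ v
      · simp [γ, if_pos h]
      · simp only [γ, if_neg h]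
        rcases hα v with h0 | h1
        · exact Or.inl h0
        · right
          have : (D₁ ⊔ D₂) v = D₂ v := by
            rw [Finsupp.sup_apply]; exact sup_eq_right.mpr (le_of_not_ge h)
          rwa [this] at h1
    have hβm : β ∈ repartitions K F := mem_repartitions_of_forall_le_exp D₁ β hβ
    have hγm : γ ∈ repartitions K F := mem_repartitions_of_forall_le_exp D₂ γ hγ
    have hsum : α = (⟨β, hβm⟩ : ↥(repartitions K F)) + ⟨γ, hγm⟩ := by
      apply Subtype.ext
      funext v
      show (α : Place K F → F) v = β v + γ v
      by_cases h : D₂ v ≤ D₁ v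
      · simp [β, γ, if_pos h]
      · simp [β, γ, if_neg h]
    rw [hsum]
    exact Submodule.add_mem_sup (show (⟨β, hβm⟩ : ↥(repartitions K F)) ∈ repartitionsOf D₁ from hβ)
      (show (⟨γ, hγm⟩ : ↥(repartitions K F)) ∈ repartitionsOf D₂ from hγ)
  · exact sup_le (repartitionsOf_mono le_sup_left) (repartitionsOf_mono le_sup_right)

theorem coe_smul_repartitions (f : F) (α : ↥(repartitions K F)) (v : Place K F) :
    ((f • α : ↥(repartitions K F)) : Place K F → F) v = f * (α : Place K F → F) v := rfl

theorem coe_ksmul_repartitions (c : K) (α : ↥(repartitions K F)) (v : Place K F) :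
    ((c • α : ↥(repartitions K F)) : Place K F → F) v = c • (α : Place K F → F) v := rfl

theorem coe_add_repartitions (α β : ↥(repartitions K F)) (v : Place K F) :
    ((α + β : ↥(repartitions K F)) : Place K F → F) v
      = (α : Place K F → F) v + (β : Place K F → F) v := rfl

/-- `f · A(D + (f)) = A(D)` -/
theorem smul_mem_repartitionsOf_iff [RRBase K F] {f : F} (hf : f ≠ 0) (D : Divisor K F)
    (α : ↥(repartitions K F)) :
    f • α ∈ repartitionsOf D ↔ α ∈ repartitionsOf (D + divOf (K := K) f) := by
  rw [mem_repartitionsOf_iff, mem_repartitionsOf_iff]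
  refine forall_congr' fun v => ?_
  rw [coe_smul_repartitions, Finsupp.add_apply, divOf_apply hf]
  rcases eq_or_ne ((α : Place K F → F) v) 0 with h0 | h0
  · simp [h0]
  · rw [v.ord_mul hf h0]
    simp only [mul_eq_zero, hf, h0, or_self, false_or]
    constructor <;> intro h <;> omega

theorem mem_riemannRochSpace_iff_divOf [RRBase K F] {f : F} (hf : f ≠ 0) (D : Divisor K F) :
    f ∈ riemannRochSpace D ↔ 0 ≤ D + divOf (K := K) f := by
  rw [mem_riemannRochSpace_iff, Finsupp.le_def]
  refine forall_congr' fun v => ?_
  rw [Finsupp.add_apply, divOf_apply hf, Finsupp.zero_apply]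
  simp only [hf, false_or]
  constructor <;> intro h <;> omega

/-- the constant repartition attached to a function -/
def constRep (K : Type*) {F : Type*} [Field K] [Field F] [Algebra K F] (f : F) :
    ↥(repartitions K F) :=
  algebraMap F ↥(repartitions K F) f

@[simp] theorem constRep_apply (f : F) (v : Place K F) :
    ((constRep K f : ↥(repartitions K F)) : Place K F → F) v = f := rfl

theorem constRep_mem_principal (f : F) : constRep K f ∈ principalRepartitions K F :=
  mem_principalRepartitions_iff.mpr ⟨f, rfl⟩

theorem exists_constRep_of_mem_principal {α : ↥(repartitions K F)}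
    (h : α ∈ principalRepartitions K F) : ∃ f : F, α = constRep K f := by
  obtain ⟨f, hf⟩ := mem_principalRepartitions_iff.mp h
  exact ⟨f, Subtype.ext hf⟩

theorem constRep_mem_repartitionsOf_iff (f : F) (D : Divisor K F) :
    constRep K f ∈ repartitionsOf D ↔ f ∈ riemannRochSpace D := Iff.rfl

/-- `A(D) ∩ F = L(D)` -/
theorem mem_inf_principal_iff (D : Divisor K F) (α : ↥(repartitions K F)) :
    α ∈ repartitionsOf D ⊓ principalRepartitions K F ↔
      ∃ f ∈ riemannRochSpace D, α = constRep K f := by
  constructor
  · rintro ⟨h1, h2⟩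
    obtain ⟨f, rfl⟩ := exists_constRep_of_mem_principal h2
    exact ⟨f, h1, rfl⟩
  · rintro ⟨f, hf, rfl⟩
    exact ⟨hf, constRep_mem_principal f⟩

end Fermat.Agent.RRlib

end
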