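/-
RR library (item 65), piece R1 (helper20): `dim_K A(D')/A(D) = deg D' − deg D` for `D ≤ D'`.
Blueprint: NOTES/RR_blueprint.md.  Helper lemmas are prefixed `lq_`.
-/
import Mathlib
import Fermat.Agent.RRlib.Defs
import Fermat.Agent.S24lib.FFBasic

set_option autoImplicit false

noncomputable section

namespace Fermat.Agent.RRlib

open AlgebraicCurve Fermat.Agent.S24lib

variable {K F : Type*} [Field K] [Field F] [Algebra K F]

/-- additivity of the dimension of `N''/N` along `N ≤ N' ≤ N''` (images in the quotient) -/
theorem lq_rank_add {M : Type*} [AddCommGroup M] [Module K M] {N N' N'' : Submodule K M}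
    (h1 : N ≤ N') (h2 : N' ≤ N'') :
    Module.rank K ↥(Submodule.map N.mkQ N'') =
      Module.rank K ↥(Submodule.map N'.mkQ N'') + Module.rank K ↥(Submodule.map N.mkQ N') := by
  set q : M ⧸ N →ₗ[K] M ⧸ N' := Submodule.mapQ N N' LinearMap.id (by simpa using h1) with hq
  have hqmk : q ∘ₗ N.mkQ = N'.mkQ := by
    ext x; simp [hq]
  set f : ↥(Submodule.map N.mkQ N'') →ₗ[K] M ⧸ N' := q ∘ₗ (Submodule.map N.mkQ N'').subtype with hf
  have hrange : LinearMap.range f = Submodule.map N'.mkQ N'' := by
    rw [hf, LinearMap.range_comp, Submodule.range_subtype, ← Submodule.map_comp, hqmk]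
  have hker : LinearMap.ker f =
      Submodule.comap (Submodule.map N.mkQ N'').subtype (Submodule.map N.mkQ N') := by
    ext ⟨x, hx⟩
    simp only [LinearMap.mem_ker, Submodule.mem_comap, Submodule.subtype_apply, hf,
      LinearMap.comp_apply]
    obtain ⟨y, hy, rfl⟩ := hx
    have e : q (N.mkQ y) = N'.mkQ y := by rw [← LinearMap.comp_apply, hqmk]
    rw [e]
    constructor
    · intro h0
      have hy' : y ∈ N' := by simpa using h0
      exact ⟨y, hy', rfl⟩
    · rintro ⟨z, hz, hzy⟩
      have hzy' : z - y ∈ N := by
        have := hzy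
        rw [Submodule.mkQ_apply, Submodule.mkQ_apply, Submodule.Quotient.eq] at this
        exact this
      have hy' : y ∈ N' := by
        have : y = z - (z - y) := by abel
        rw [this]
        exact N'.sub_mem hz (h1 hzy')
      simpa using hy'
  have hle : Submodule.map N.mkQ N' ≤ Submodule.map N.mkQ N'' := Submodule.map_mono h2
  have e := (Submodule.comapSubtypeEquivOfLe hle).rank_eq
  have key := LinearMap.rank_range_add_rank_ker f
  rw [hrange, hker, e] at key
  exact key.symm

theorem lq_deg_eq_one [RRBase K F] (v : Place K F) : v.deg = 1 := by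
  have hs := RRBase.residue_surjective (K := K) v
  have hi : Function.Injective (algebraMap K v.ResidueField) := (algebraMap K v.ResidueField).injective
  have e : K ≃ₗ[K] v.ResidueField :=
    LinearEquiv.ofBijective (Algebra.linearMap K v.ResidueField) ⟨hi, hs⟩
  rw [Place.deg, ← e.finrank_eq, Module.finrank_self]

theorem lq_degree_nonneg {E : Divisor K F} (h : 0 ≤ E) : 0 ≤ Divisor.degree E := by
  have : Divisor.degree E = E.sum fun v n => n * (v.deg : ℤ) := by
    simp [Divisor.degree, Finsupp.liftAddHom_apply]
  rw [this]
  refine Finsupp.sum_nonneg fun v _ => ?_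
  have hv : 0 ≤ E v := by simpa using (Finsupp.le_def.mp h v)
  positivity

/-- the repartition supported at one place -/
def lq_single (v : Place K F) (x : F) : ↥(repartitions K F) :=
  letI := Classical.decEq (Place K F)
  ⟨fun w => if w = v then x else 0, mem_repartitions_of_finite_ord <|
    (Set.finite_singleton v).subset fun w hw => by
      simp only [Set.mem_ofPred_eq] at hw
      by_contra hne
      have hne' : w ≠ v := hne
      simp [hne'] at hw⟩

theorem lq_single_apply_self (v : Place K F) (x : F) :
    (lq_single v x : Place K F → F) v = x := by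
  simp [lq_single]

theorem lq_single_apply_ne (v : Place K F) (x : F) {w : Place K F} (h : w ≠ v) :
    (lq_single v x : Place K F → F) w = 0 := by
  simp [lq_single, h]

theorem lq_coe_smul (c : K) (α : ↥(repartitions K F)) (w : Place K F) :
    ((c • α : ↥(repartitions K F)) : Place K F → F) w
      = algebraMap K F c * (α : Place K F → F) w := by
  show c • (α : Place K F → F) w = _
  rw [Algebra.smul_def]

theorem lq_coe_sub (α β : ↥(repartitions K F)) (w : Place K F) :
    ((α - β : ↥(repartitions K F)) : Place K F → F) w
      = (α : Place K F → F) w - (β : Place K F → F) w := rfl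

/-- one step: `A(D + v)/A(D)` is spanned by one element -/
theorem lq_step_exists [RRBase K F] (D : Divisor K F) (v : Place K F) :
    ∃ α₀ : ↥(repartitions K F), α₀ ∈ repartitionsOf (D + Finsupp.single v 1) ∧
      α₀ ∉ repartitionsOf D ∧
      ∀ α ∈ repartitionsOf (D + Finsupp.single v 1), ∃ c : K, α - c • α₀ ∈ repartitionsOf D := by
  classical
  obtain ⟨π, hπ⟩ := ffExistsIrreducible v
  have hπ1 : v.ord (π : F) = 1 := v.ord_coe_irreducible hπ
  have hπ0 : (π : F) ≠ 0 := by
    simpa [ne_eq, ZeroMemClass.coe_eq_zero] using hπ.ne_zero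
  set n : ℤ := D v + 1 with hn
  have hD' : ∀ w, (D + Finsupp.single v (1 : ℤ) : Divisor K F) w = if w = v then n else D w := by
    intro w
    by_cases hw : w = v
    · subst hw; simp [hn]
    · simp [hw]
  have hx0 : (π : F) ^ (-n) ≠ 0 := zpow_ne_zero _ hπ0
  have hxord : v.ord ((π : F) ^ (-n)) = -n := by
    rw [v.ord_zpow, hπ1, mul_one]
  refine ⟨lq_single v ((π : F) ^ (-n)), ?_, ?_, ?_⟩
  · rw [mem_repartitionsOf_iff]
    intro w
    by_cases hw : w = v
    · subst hw
      right
      rw [lq_single_apply_self, hxord, hD', if_pos rfl]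
    · left
      exact lq_single_apply_ne v _ hw
  · rw [mem_repartitionsOf_iff]
    intro h
    rcases h v with h | h
    · rw [lq_single_apply_self] at h
      exact hx0 h
    · rw [lq_single_apply_self, hxord] at h
      omega
  · intro α hα
    rw [mem_repartitionsOf_iff] at hα
    set a : F := (α : Place K F → F) v with ha
    -- b = a π^n is integral at v
    have hb : a * (π : F) ^ n ∈ v.toValuationSubring := by
      rcases hα v with h | h
      · rw [← ha] at h; rw [h, zero_mul]; exact zero_mem _
      · rw [ffMem_iff_ord_nonneg]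
        rw [hD', if_pos rfl, ← ha] at h
        by_cases ha0 : a = 0
        · rw [ha0, zero_mul]; simp
        · rw [v.ord_mul ha0 (zpow_ne_zero _ hπ0), v.ord_zpow, hπ1, mul_one]
          omega
    obtain ⟨c, hc⟩ := RRBase.residue_surjective (K := K) v
      (IsLocalRing.residue v.toValuationSubring ⟨a * (π : F) ^ n, hb⟩)
    refine ⟨c, ?_⟩
    rw [mem_repartitionsOf_iff]
    intro w
    by_cases hw : w = v
    · subst hw
      rw [lq_coe_sub, lq_coe_smul, lq_single_apply_self, ← ha]
      -- a - c π^{-n} = (a π^n - c) π^{-n}
      have hmem : (⟨a * (π : F) ^ n, hb⟩ - algebraMap K w.toValuationSubring c :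
          w.toValuationSubring) ∈ IsLocalRing.maximalIdeal w.toValuationSubring := by
        rw [← Ideal.Quotient.eq_zero_iff_mem]
        have : (Ideal.Quotient.mk (IsLocalRing.maximalIdeal w.toValuationSubring))
            (⟨a * (π : F) ^ n, hb⟩ - algebraMap K w.toValuationSubring c)
            = IsLocalRing.residue w.toValuationSubring ⟨a * (π : F) ^ n, hb⟩
              - algebraMap K w.ResidueField c := by
          rw [map_sub]; rfl
        rw [this, hc]
        exact sub_self _
      have hrew : a - algebraMap K F c * (π : F) ^ (-n)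
          = (a * (π : F) ^ n - algebraMap K F c) * (π : F) ^ (-n) := by
        rw [sub_mul, mul_assoc, ← zpow_add₀ hπ0]
        simp
      by_cases hz : a * (π : F) ^ n - algebraMap K F c = 0
      · left
        rw [hrew, hz, zero_mul]
      · right
        rw [hrew, w.ord_mul hz hx0, hxord]
        have hz' : (⟨a * (π : F) ^ n, hb⟩ - algebraMap K w.toValuationSubring c :
          w.toValuationSubring) ≠ 0 := by
          intro h0
          apply hz
          have := congrArg (Subtype.val) h0
          simpa using this
        have hpos := ffOrd_pos_of_mem_maximalIdeal w hmem hz'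
        have hcoe : ((⟨a * (π : F) ^ n, hb⟩ - algebraMap K w.toValuationSubring c :
          w.toValuationSubring) : F) = a * (π : F) ^ n - algebraMap K F c := by
          simp
        rw [hcoe] at hpos
        omega
    · rw [lq_coe_sub, lq_coe_smul, lq_single_apply_ne v _ hw, mul_zero, sub_zero]
      have := hα w
      rwa [hD', if_neg hw] at this

theorem lq_step_rank [RRBase K F] (D : Divisor K F) (v : Place K F) :
    Module.rank K ↥(Submodule.map (repartitionsOf D).mkQ
      (repartitionsOf (D + Finsupp.single v (1 : ℤ)))) = 1 := by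
  obtain ⟨α₀, h1, h2, h3⟩ := lq_step_exists D v
  rw [rank_submodule_eq_one_iff]
  refine ⟨(repartitionsOf D).mkQ α₀, ⟨α₀, h1, rfl⟩, ?_, ?_⟩
  · intro h0
    apply h2
    simpa using h0
  · rintro x ⟨α, hα, rfl⟩
    obtain ⟨c, hc⟩ := h3 α hα
    rw [Submodule.mem_span_singleton]
    refine ⟨c, ?_⟩
    rw [← map_smul, eq_comm, Submodule.mkQ_apply, Submodule.mkQ_apply, Submodule.Quotient.eq]
    exact hc

theorem lq_degree_single_one [RRBase K F] (v : Place K F) :
    Divisor.degree (Finsupp.single v (1 : ℤ)) = 1 := by
  rw [Divisor.degree_single, lq_deg_eq_one v]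
  simp

theorem lq_degree_le_of_le [RRBase K F] {D D' : Divisor K F} (h : D ≤ D') :
    Divisor.degree D ≤ Divisor.degree D' := by
  have h0 : 0 ≤ D' - D := sub_nonneg.mpr h
  have := lq_degree_nonneg h0
  rw [map_sub] at this
  linarith

theorem lq_rank_aux [RRBase K F] (n : ℕ) : ∀ (D D' : Divisor K F), D ≤ D' →
    Divisor.degree D' - Divisor.degree D = n →
    Module.rank K ↥(Submodule.map (repartitionsOf D).mkQ (repartitionsOf D')) = n := by
  classical
  induction n with
  | zero =>
    intro D D' h hd
    by_cases hDD : D' ≤ D
    · have : D = D' := le_antisymm h hDD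
      subst this
      have hbot : Submodule.map (repartitionsOf D).mkQ (repartitionsOf D) = ⊥ := by
        rw [eq_bot_iff]
        rintro x ⟨α, hα, rfl⟩
        simpa using hα
      rw [hbot]
      simp
    · exfalso
      -- some place has D v < D' v
      have : ∃ v, D v < D' v := by
        by_contra hno
        apply hDD
        rw [Finsupp.le_def]
        intro v
        by_contra hv
        exact hno ⟨v, not_le.mp hv⟩
      obtain ⟨v, hv⟩ := this
      have hle : D + Finsupp.single v (1 : ℤ) ≤ D' := by
        rw [Finsupp.le_def]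
        intro w
        by_cases hw : w = v
        · subst hw; simp; omega
        · simp [hw]; exact Finsupp.le_def.mp h w
      have := lq_degree_le_of_le hle
      rw [map_add, lq_degree_single_one] at this
      simp at hd
      linarith
  | succ n ih =>
    intro D D' h hd
    have : ∃ v, D v < D' v := by
      by_contra hno
      have hDD : D' ≤ D := by
        rw [Finsupp.le_def]
        intro v
        by_contra hv
        exact hno ⟨v, not_le.mp hv⟩
      have : D = D' := le_antisymm h hDD
      subst this
      simp at hd
      omega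
    obtain ⟨v, hv⟩ := this
    set D'' : Divisor K F := D' - Finsupp.single v (1 : ℤ) with hD''
    have hD'eq : D' = D'' + Finsupp.single v (1 : ℤ) := by rw [hD'']; abel
    have h1 : D ≤ D'' := by
      rw [Finsupp.le_def]
      intro w
      by_cases hw : w = v
      · subst hw; simp [hD'']; omega
      · simp [hD'', hw]; exact Finsupp.le_def.mp h w
    have h2 : D'' ≤ D' := by
      rw [Finsupp.le_def]
      intro w
      by_cases hw : w = v
      · subst hw; simp [hD'']
      · simp [hD'', hw]
    have hdeg : Divisor.degree D'' - Divisor.degree D = n := by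
      rw [hD'', map_sub, lq_degree_single_one]
      push_cast at hd
      linarith
    have e1 := ih D D'' h1 hdeg
    have e2 := lq_step_rank D'' v
    rw [← hD'eq] at e2
    rw [lq_rank_add (repartitionsOf_mono h1) (repartitionsOf_mono h2), e1, e2]
    push_cast
    rw [add_comm]

/-- **R1**: `dim_K A(D')/A(D) = deg D' − deg D` for `D ≤ D'`. -/
theorem finrank_repartitionsOf_quot [RRBase K F] {D D' : Divisor K F} (h : D ≤ D') :
    Module.Finite K ↥(Submodule.map (repartitionsOf D).mkQ (repartitionsOf D')) ∧
    (Module.finrank K ↥(Submodule.map (repartitionsOf D).mkQ (repartitionsOf D')) : ℤ)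
      = Divisor.degree D' - Divisor.degree D := by
  have hnn : 0 ≤ Divisor.degree D' - Divisor.degree D := by
    have := lq_degree_le_of_le h
    linarith
  obtain ⟨n, hn⟩ := Int.eq_ofNat_of_zero_le hnn
  have hr := lq_rank_aux n D D' h hn
  refine ⟨Module.finite_of_rank_eq_nat hr, ?_⟩
  rw [Module.finrank_eq_of_rank_eq hr, hn]

end Fermat.Agent.RRlib

end
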