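/-
Riemann–Roch library (item 65), piece R2 (helper25): finiteness of `L(D)` and the elementary
facts about `ℓ(D) = dim_K L(D)`.  Blueprint: NOTES/RR_blueprint.md.
Helper lemmas are prefixed `lf_`.
-/
import Mathlib
import Fermat.Agent.RRlib.Basic
import Fermat.Agent.RRlib.LocalQuot

set_option autoImplicit false

noncomputable section

namespace Fermat.Agent.RRlib

open AlgebraicCurve

variable {K F : Type*} [Field K] [Field F] [Algebra K F]

/-! ### monotonicity, vanishing in negative degree -/

theorem riemannRochSpace_mono {D D' : Divisor K F} (h : D ≤ D') :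
    riemannRochSpace D ≤ riemannRochSpace D' := fun _ hf v =>
  (hf v).trans (WithZero.exp_le_exp.mpr (Finsupp.le_def.mp h v))

theorem riemannRochSpace_eq_bot_of_degree_neg [RRBase K F] {D : Divisor K F}
    (h : Divisor.degree D < 0) : riemannRochSpace D = ⊥ := by
  rw [eq_bot_iff]
  intro f hf
  rw [Submodule.mem_bot]
  by_contra hne
  have h1 := (mem_riemannRochSpace_iff_divOf hne D).mp hf
  have h2 := degree_nonneg h1
  rw [map_add, degree_divOf] at h2
  linarith

/-! ### the map `L(D') → A(D')/A(D)` -/

/-- the `K`-linear map `F → A`, `f ↦` the constant repartition -/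
def lf_constRepLin (K : Type*) {F : Type*} [Field K] [Field F] [Algebra K F] :
    F →ₗ[K] ↥(repartitions K F) :=
  (Algebra.linearMap F ↥(repartitions K F)).restrictScalars K

theorem lf_constRepLin_apply (f : F) : lf_constRepLin K f = constRep K f := rfl

/-- `L(D') → A(D')/A(D)`, `f ↦` the class of the constant repartition `f` -/
def lf_toQuot (D D' : Divisor K F) :
    ↥(riemannRochSpace D') →ₗ[K]
      ↥(Submodule.map (repartitionsOf D).mkQ (repartitionsOf D')) :=
  LinearMap.codRestrict _
    ((repartitionsOf D).mkQ ∘ₗ lf_constRepLin K ∘ₗ (riemannRochSpace D').subtype)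
    (fun g => Submodule.mem_map_of_mem
      (show constRep K (g : F) ∈ repartitionsOf D' from g.2))

theorem lf_ker_toQuot (D D' : Divisor K F) :
    LinearMap.ker (lf_toQuot D D') =
      Submodule.comap (riemannRochSpace D').subtype (riemannRochSpace D) := by
  ext g
  rw [LinearMap.mem_ker, Submodule.mem_comap, Submodule.subtype_apply, ← Subtype.coe_inj,
    lf_toQuot, LinearMap.codRestrict_apply, LinearMap.comp_apply, LinearMap.comp_apply,
    Submodule.subtype_apply, Submodule.mkQ_apply, ZeroMemClass.coe_zero,
    Submodule.Quotient.mk_eq_zero, lf_constRepLin_apply, constRep_mem_repartitionsOf_iff]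

/-- a divisor `D₀ ≤ D` of degree `deg D − n` -/
theorem lf_exists_le_degree [RRBase K F] (D : Divisor K F) (n : ℕ) :
    ∃ D₀ : Divisor K F, D₀ ≤ D ∧ Divisor.degree D₀ = Divisor.degree D - n := by
  obtain ⟨v⟩ := RRBase.nonempty_place (K := K) (F := F)
  refine ⟨D - n • Finsupp.single v (1 : ℤ), ?_, ?_⟩
  · rw [sub_le_self_iff, Finsupp.le_def]
    intro w
    rw [Finsupp.zero_apply, Finsupp.smul_apply]
    refine nsmul_nonneg ?_ n
    classical
    rw [Finsupp.single_apply]
    split_ifs <;> simp
  · rw [map_sub, map_nsmul, degree_single_one]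
    simp

theorem lf_exists_le_degree_neg [RRBase K F] (D : Divisor K F) :
    ∃ D₀ : Divisor K F, D₀ ≤ D ∧ Divisor.degree D₀ < 0 := by
  obtain ⟨D₀, h1, h2⟩ := lf_exists_le_degree D ((Divisor.degree D).toNat + 1)
  refine ⟨D₀, h1, ?_⟩
  rw [h2]
  have := Int.self_le_toNat (Divisor.degree D)
  push_cast
  linarith

/-! ### finiteness -/

theorem finite_riemannRochSpace [RRBase K F] (D : Divisor K F) :
    Module.Finite K (riemannRochSpace D) := by
  obtain ⟨D₀, h1, h2⟩ := lf_exists_le_degree_neg D
  haveI := (finrank_repartitionsOf_quot h1).1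
  have hker : LinearMap.ker (lf_toQuot D₀ D) = ⊥ := by
    rw [lf_ker_toQuot, riemannRochSpace_eq_bot_of_degree_neg h2, Submodule.comap_bot]
    exact Submodule.ker_subtype _
  exact Module.Finite.of_injective (lf_toQuot D₀ D) (LinearMap.ker_eq_bot.mp hker)

theorem ell_mono [RRBase K F] {D D' : Divisor K F} (h : D ≤ D') : ell D ≤ ell D' := by
  haveI := finite_riemannRochSpace D'
  exact LinearMap.finrank_le_finrank_of_injective
    (Submodule.inclusion_injective (riemannRochSpace_mono h))

theorem ell_le_ell_add [RRBase K F] {D D' : Divisor K F} (h : D ≤ D') :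
    (ell D' : ℤ) ≤ ell D + (Divisor.degree D' - Divisor.degree D) := by
  haveI := finite_riemannRochSpace D'
  haveI := finite_riemannRochSpace D
  obtain ⟨hfin, hrank⟩ := finrank_repartitionsOf_quot h
  haveI := hfin
  have key := LinearMap.finrank_range_add_finrank_ker (lf_toQuot D D')
  have h1 : Module.finrank K ↥(LinearMap.range (lf_toQuot D D')) ≤
      Module.finrank K ↥(Submodule.map (repartitionsOf D).mkQ (repartitionsOf D')) :=
    Submodule.finrank_le _
  have h2 : Module.finrank K ↥(LinearMap.ker (lf_toQuot D D')) = ell D := by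
    rw [lf_ker_toQuot]
    exact (Submodule.comapSubtypeEquivOfLe (riemannRochSpace_mono h)).finrank_eq
  rw [← hrank]
  have key' : (ell D' : ℤ) =
      Module.finrank K ↥(LinearMap.range (lf_toQuot D D')) +
        Module.finrank K ↥(LinearMap.ker (lf_toQuot D D')) := by
    rw [ell, ← key]; push_cast; rfl
  rw [key', h2]
  have : (Module.finrank K ↥(LinearMap.range (lf_toQuot D D')) : ℤ) ≤
      Module.finrank K ↥(Submodule.map (repartitionsOf D).mkQ (repartitionsOf D')) := by
    exact_mod_cast h1
  linarith

theorem ell_eq_zero_of_degree_neg [RRBase K F] {D : Divisor K F}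
    (h : Divisor.degree D < 0) : ell D = 0 := by
  rw [ell, riemannRochSpace_eq_bot_of_degree_neg h]
  exact finrank_bot K F

theorem ell_le_degree_add_one [RRBase K F] {D : Divisor K F} (h : 0 ≤ Divisor.degree D) :
    (ell D : ℤ) ≤ Divisor.degree D + 1 := by
  obtain ⟨D₀, h1, h2⟩ := lf_exists_le_degree D ((Divisor.degree D).toNat + 1)
  have h3 : Divisor.degree D₀ = -1 := by
    rw [h2]
    push_cast
    rw [Int.toNat_of_nonneg h]
    ring
  have h4 := ell_le_ell_add h1
  have h5 : ell D₀ = 0 := ell_eq_zero_of_degree_neg (by rw [h3]; norm_num)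
  rw [h5, h3] at h4
  push_cast at h4
  linarith

theorem one_mem_riemannRochSpace_zero : (1 : F) ∈ riemannRochSpace (0 : Divisor K F) := by
  intro v
  simp

theorem ell_zero [RRBase K F] : ell (0 : Divisor K F) = 1 := by
  haveI := finite_riemannRochSpace (0 : Divisor K F)
  apply le_antisymm
  · have := ell_le_degree_add_one (K := K) (F := F) (D := 0) (by simp)
    rw [map_zero] at this
    exact_mod_cast this
  · have hpos : 0 < Module.finrank K ↥(riemannRochSpace (0 : Divisor K F)) := by
      rw [Module.finrank_pos_iff_exists_ne_zero]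
      exact ⟨⟨1, one_mem_riemannRochSpace_zero⟩, fun h0 => one_ne_zero (congrArg Subtype.val h0)⟩
    exact hpos

/-! ### invariance under linear equivalence -/

theorem mul_mem_riemannRochSpace_iff [RRBase K F] {f : F} (hf : f ≠ 0) (D : Divisor K F)
    (g : F) :
    f * g ∈ riemannRochSpace D ↔ g ∈ riemannRochSpace (D + divOf (K := K) f) :=
  smul_mem_repartitionsOf_iff hf D (constRep K g)

theorem map_mulLeft_riemannRochSpace [RRBase K F] (D : Divisor K F) {f : F} (hf : f ≠ 0) :
    (riemannRochSpace (D + divOf (K := K) f)).map (LinearMap.mulLeft K f) =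
      riemannRochSpace D := by
  ext g
  rw [Submodule.mem_map]
  constructor
  · rintro ⟨h, hh, rfl⟩
    exact (mul_mem_riemannRochSpace_iff hf D h).mpr hh
  · intro hg
    refine ⟨f⁻¹ * g, (mul_mem_riemannRochSpace_iff hf D _).mp ?_, ?_⟩
    · rwa [mul_inv_cancel_left₀ hf]
    · simp [mul_inv_cancel_left₀ hf]

theorem ell_add_divOf [RRBase K F] (D : Divisor K F) {f : F} (hf : f ≠ 0) :
    ell (D + divOf (K := K) f) = ell D := by
  have hinj : Function.Injective (LinearMap.mulLeft K f) := fun a b hab =>
    mul_left_cancel₀ hf (by simpa using hab)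
  have e := (Submodule.equivMapOfInjective (LinearMap.mulLeft K f) hinj
    (riemannRochSpace (D + divOf (K := K) f))).finrank_eq
  rw [ell, ell, e, map_mulLeft_riemannRochSpace D hf]

end Fermat.Agent.RRlib

end
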