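/-
RR library (item 65), instance in ANY characteristic (helper12; port of helper20's `Inst.lean`):
`RRHyp K F` for a function field in one variable over an algebraically closed field, given a
separating element (`FFSep K x`: `x` transcendental, `F / K(x)` finite separable).
Helper lemmas are prefixed `ins_`.
-/
import Mathlib
import Fermat.Agent.RRlib.Defs
import Fermat.Agent.RRlib.Basic
import Fermat.Agent.FFlib.FSPrincipal
import Fermat.Agent.RRlib.LFinite

set_option autoImplicit false

noncomputable section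

namespace Fermat.Agent.RRlib

open AlgebraicCurve Fermat.Agent.S24lib Fermat.Agent.FFlib IntermediateField Polynomial
open scoped IntermediateField.algebraAdjoinAdjoin

variable {K F : Type*} [Field K] [Field F] [Algebra K F]

/-- powers of a transcendental element are linearly independent over the constants -/
theorem ins_linearIndependent_pow {x : F} (hx : Transcendental K x) :
    LinearIndependent K (fun k : ℕ => (AdjoinSimple.gen K x) ^ k) := by
  have hinj : Function.Injective (aeval (R := K) (AdjoinSimple.gen K x)) := by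
    rw [← transcendental_iff_injective]
    intro halg
    apply hx
    have h : IsAlgebraic K (algebraMap K⟮x⟯ F (AdjoinSimple.gen K x)) :=
      (isAlgebraic_algebraMap_iff (algebraMap K⟮x⟯ F).injective).mpr halg
    exact h
  have h1 := (Polynomial.basisMonomials K).linearIndependent
  have h2 := h1.map' (aeval (R := K) (AdjoinSimple.gen K x)).toLinearMap
    (LinearMap.ker_eq_bot.mpr hinj)
  have e : (fun k : ℕ => (AdjoinSimple.gen K x) ^ k)
      = (aeval (R := K) (AdjoinSimple.gen K x)).toLinearMap ∘ (Polynomial.basisMonomials K) := by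
    ext k
    simp
  rw [e]
  exact h2

/-- integral basis -/
theorem ins_exists_basis (x : F) [FFSep K x] :
    ∃ (s : Finset F) (b : Module.Basis s K⟮x⟯ F), ∀ i, (b i) ∈ fsS K x :=
  FiniteDimensional.exists_is_basis_integral (fsA K x) K⟮x⟯ F

variable [IsAlgClosed K]

omit [IsAlgClosed K] in
/-- membership of `x^k u` in `L((m + c)B)`, `B` the pole divisor of `x` -/
theorem ins_mem_L (x : F) [FFSep K x] (s : Finset (Place K F))
    (hs : ∀ v, v ∈ s ↔ v.ord x < 0) (B : Divisor K F)
    (hBs : ∀ v ∈ s, B v = -(v.ord x)) (hBn : ∀ v, v ∉ s → B v = 0)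
    {u : F} (hu : u ∈ fsS K x) (c₀ : ℕ) (hc₀ : ∀ v ∈ s, -(c₀ : ℤ) ≤ v.ord u)
    (m k : ℕ) (hk : k ≤ m) :
    x ^ k * u ∈ riemannRochSpace (((m + c₀ : ℕ) : ℤ) • B) := by
  rw [mem_riemannRochSpace_iff]
  intro v
  by_cases h0 : x ^ k * u = 0
  · exact Or.inl h0
  right
  have hx0 : x ≠ 0 := fun h => by
    have : Transcendental K x := FFSep.trans
    exact this (h ▸ isAlgebraic_zero)
  have hu0 : u ≠ 0 := fun h => h0 (by rw [h, mul_zero])
  rw [Finsupp.smul_apply, smul_eq_mul]
  by_cases hv : v ∈ s
  · rw [hBs v hv]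
    have hneg := (hs v).mp hv
    have hc := hc₀ v hv
    rw [v.ord_mul (pow_ne_zero _ hx0) hu0]
    have hpow : v.ord (x ^ k) = k * v.ord x := by
      have := v.ord_zpow x (k : ℤ)
      rwa [zpow_natCast] at this
    rw [hpow]
    push_cast
    have hk' : (k : ℤ) ≤ m := by exact_mod_cast hk
    nlinarith
  · rw [hBn v hv, mul_zero, neg_zero]
    have hnn : 0 ≤ v.ord x := by
      by_contra h
      exact hv ((hs v).mpr (not_le.mp h))
    have hmem : x ^ k * u ∈ fsS K x :=
      mul_mem (pow_mem fsx_mem_S k) hu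
    exact ffOrd_nonneg_of_mem v (fsS_le v hnn _ hmem)

/-- `RRBase` from `FFSep` (any characteristic). -/
theorem rrBase_of_ffSep (x : F) [h : FFSep K x] : RRBase K F where
  residue_surjective v := ffResidue_surjective v h.trans
  principal f _ := fsExists_principal (K := K) (x := x) f
  const_of_forall_ord_nonneg f hf := fsConst_of_forall_ord_nonneg (x := x) f hf
  nonempty_place := fsNonempty_place (K := K) (x := x)

theorem ins_seed (x : F) [FFSep K x] :
    ∃ (B : Divisor K F) (c : ℤ), 0 < Divisor.degree B ∧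
      ∀ m : ℕ, (m : ℤ) * Divisor.degree B - c ≤ (ell (m • B) : ℤ) := by
  classical
  have : RRBase K F := rrBase_of_ffSep x
  obtain ⟨s, hs, hsum⟩ := fsExists_poles (K := K) (x := x)
  obtain ⟨sb, b, hb⟩ := ins_exists_basis (K := K) x
  set n : ℕ := Module.finrank K⟮x⟯ F with hn
  have hncard : Fintype.card sb = n := (Module.finrank_eq_card_basis b).symm
  have hnpos : 0 < n := Module.finrank_pos
  -- the pole divisor
  set B : Divisor K F := Finsupp.onFinset s (fun v => if v ∈ s then -(v.ord x) else 0)
    (fun v hv => by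
      by_contra h
      simp [h] at hv) with hBdef
  have hB : ∀ v, B v = if v ∈ s then -(v.ord x) else 0 := fun v => rfl
  have hBsupp : B.support ⊆ s := by
    intro v hv
    rw [Finsupp.mem_support_iff, hB] at hv
    by_contra h
    simp [h] at hv
  have hBdeg : Divisor.degree B = n := by
    rw [fsDegree_eq_sum (x := x) B s hBsupp]
    have : ∑ v ∈ s, B v = ∑ v ∈ s, -(v.ord x) :=
      Finset.sum_congr rfl fun v hv => by rw [hB, if_pos hv]
    rw [this, Finset.sum_neg_distrib, hsum, neg_neg]
  -- the bound for the poles of the basis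
  set c₀ : ℕ := ∑ i : sb, ∑ v ∈ s, (v.ord (b i)).natAbs with hc₀def
  have hc₀ : ∀ i : sb, ∀ v ∈ s, -(c₀ : ℤ) ≤ v.ord (b i) := by
    intro i v hv
    have h1 : (v.ord (b i)).natAbs ≤ ∑ v ∈ s, (v.ord (b i)).natAbs :=
      Finset.single_le_sum (f := fun v => (v.ord (b i)).natAbs) (fun _ _ => Nat.zero_le _) hv
    have h2 : ∑ v ∈ s, (v.ord (b i)).natAbs ≤ c₀ :=
      Finset.single_le_sum (f := fun i : sb => ∑ v ∈ s, (v.ord (b i)).natAbs)
        (fun _ _ => Nat.zero_le _) (Finset.mem_univ i)
    have h3 : ((v.ord (b i)).natAbs : ℤ) ≤ c₀ := by exact_mod_cast h1.trans h2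
    omega
  -- the key lower bound
  have key : ∀ m : ℕ, (m + 1) * n ≤ ell (((m + c₀ : ℕ) : ℤ) • B) := by
    intro m
    have hfin := finite_riemannRochSpace (K := K) (((m + c₀ : ℕ) : ℤ) • B)
    have hli1 : LinearIndependent K (fun k : Fin (m + 1) => (AdjoinSimple.gen K x) ^ (k : ℕ)) :=
      (ins_linearIndependent_pow (K := K) FFSep.trans).comp _ Fin.val_injective
    have hli := linearIndependent_smul hli1 b.linearIndependent
    have hmem : ∀ p : Fin (m + 1) × sb,
        ((AdjoinSimple.gen K x) ^ (p.1 : ℕ)) • b p.2 ∈ riemannRochSpace (((m + c₀ : ℕ) : ℤ) • B) := by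
      intro p
      have e : ((AdjoinSimple.gen K x) ^ (p.1 : ℕ)) • b p.2 = x ^ (p.1 : ℕ) * b p.2 := by
        rw [Algebra.smul_def]
        simp
      rw [e]
      exact ins_mem_L x s hs B (fun v hv => by rw [hB, if_pos hv])
        (fun v hv => by rw [hB, if_neg hv]) (hb p.2) c₀ (hc₀ p.2) m p.1
        (Nat.lt_succ_iff.mp p.1.2)
    have hli' : LinearIndependent K (fun p : Fin (m + 1) × sb =>
        (⟨((AdjoinSimple.gen K x) ^ (p.1 : ℕ)) • b p.2, hmem p⟩ :
          ↥(riemannRochSpace (((m + c₀ : ℕ) : ℤ) • B)))) := by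
      apply LinearIndependent.of_comp (riemannRochSpace (((m + c₀ : ℕ) : ℤ) • B)).subtype
      exact hli
    have := hli'.fintype_card_le_finrank
    rw [Fintype.card_prod, Fintype.card_fin, hncard] at this
    exact this
  refine ⟨B, (n : ℤ) * c₀, by rw [hBdeg]; exact_mod_cast hnpos, fun m => ?_⟩
  rw [hBdeg]
  by_cases hm : c₀ ≤ m
  · obtain ⟨m', rfl⟩ := Nat.exists_eq_add_of_le' hm
    have h := key m'
    have e : ((m' + c₀ : ℕ) • B) = (((m' + c₀ : ℕ) : ℤ) • B) := by
      rw [natCast_zsmul]
    rw [e]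
    have h' : (((m' + 1) * n : ℕ) : ℤ) ≤ ell (((m' + c₀ : ℕ) : ℤ) • B) := by exact_mod_cast h
    push_cast at h' ⊢
    nlinarith
  · have hlt : (m : ℤ) < c₀ := by exact_mod_cast not_le.mp hm
    have h0 : (0 : ℤ) ≤ ell (m • B) := Int.natCast_nonneg _
    have hn0 : (0 : ℤ) ≤ n := Int.natCast_nonneg _
    nlinarith

/-- **I0**: the standing hypotheses of the Riemann–Roch library hold for a function field in one
variable over an algebraically closed field (any characteristic) with a separating element. -/
theorem rrHyp_of_ffSep (x : F) [FFSep K x] : RRHyp K F :=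
  { rrBase_of_ffSep x with riemann_seed := ins_seed x }

end Fermat.Agent.RRlib

end
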