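/-
Riemann–Roch library (item 65), piece R4 (helper8):
for `D ≤ D'` the image of `A(D') + F` in `H¹(D)` has dimension
`(deg D' − ℓ(D')) − (deg D − ℓ(D))`; hence `deg − ℓ` is monotone.
-/
import Mathlib
import Fermat.Agent.RRlib.Basic
import Fermat.Agent.RRlib.LocalQuot
import Fermat.Agent.RRlib.LFinite

set_option autoImplicit false

noncomputable section

namespace Fermat.Agent.RRlib

open AlgebraicCurve

variable {K F : Type*} [Field K] [Field F] [Algebra K F]

/-- linear algebra: rank–nullity for the image of a finite-dimensional subspace -/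
theorem es_finrank_map_add {V W : Type*} [AddCommGroup V] [Module K V] [AddCommGroup W]
    [Module K W] (φ : V →ₗ[K] W) (S : Submodule K V) [Module.Finite K S] :
    Module.finrank K ↥(S.map φ) + Module.finrank K ↥(S ⊓ LinearMap.ker φ)
      = Module.finrank K S := by
  have h := LinearMap.finrank_range_add_finrank_ker (φ.domRestrict S)
  rw [LinearMap.range_domRestrict, LinearMap.ker_domRestrict] at h
  have e : ↥(Submodule.comap S.subtype (LinearMap.ker φ)) ≃ₗ[K] ↥(S ⊓ LinearMap.ker φ) := by
    have e1 := Submodule.comapSubtypeEquivOfLe (p := S ⊓ LinearMap.ker φ) (q := S) inf_le_left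
    have e2 : Submodule.comap S.subtype (S ⊓ LinearMap.ker φ)
        = Submodule.comap S.subtype (LinearMap.ker φ) := by
      ext x
      simp
    exact (LinearEquiv.ofEq _ _ e2.symm).trans e1
  rw [e.finrank_eq] at h
  exact h

/-- the `K`-linear map `F → A`, `f ↦` constant repartition -/
def es_const (K F : Type*) [Field K] [Field F] [Algebra K F] :
    F →ₗ[K] ↥(repartitions K F) :=
  (Algebra.linearMap F ↥(repartitions K F)).restrictScalars K

theorem es_const_apply (f : F) : es_const K F f = constRep K f := rfl

/-- the map `L(D') → A / A(D)` -/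
def es_psi (D D' : Divisor K F) : ↥(riemannRochSpace D') →ₗ[K]
    (↥(repartitions K F) ⧸ repartitionsOf D) :=
  ((repartitionsOf D).mkQ.comp (es_const K F)).domRestrict (riemannRochSpace D')

theorem es_ker_psi {D D' : Divisor K F} :
    LinearMap.ker (es_psi D D') = Submodule.comap (riemannRochSpace D').subtype
      (riemannRochSpace D) := by
  ext f
  rw [LinearMap.mem_ker, Submodule.mem_comap]
  show (repartitionsOf D).mkQ (constRep K (f : F)) = 0 ↔ (f : F) ∈ riemannRochSpace D
  rw [Submodule.mkQ_apply, Submodule.Quotient.mk_eq_zero, constRep_mem_repartitionsOf_iff]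

theorem es_finrank_range_psi [RRBase K F] {D D' : Divisor K F} (h : D ≤ D') :
    Module.finrank K ↥(LinearMap.range (es_psi D D')) + ell D = ell D' := by
  have := finite_riemannRochSpace (K := K) D'
  have h1 := LinearMap.finrank_range_add_finrank_ker (es_psi D D')
  rw [es_ker_psi] at h1
  have e := Submodule.comapSubtypeEquivOfLe (riemannRochSpace_mono h)
  rw [e.finrank_eq] at h1
  exact h1

/-- `q(A(D')) ∩ ker(A/A(D) → H¹(D)) = ` image of `L(D')` -/
theorem es_inf_ker {D D' : Divisor K F} (h : D ≤ D')
    (hle : repartitionsOf D ≤ LinearMap.ker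
      (repartitionsOf D ⊔ principalRepartitions K F).mkQ) :
    Submodule.map (repartitionsOf D).mkQ (repartitionsOf D') ⊓
        LinearMap.ker ((repartitionsOf D).liftQ
          (repartitionsOf D ⊔ principalRepartitions K F).mkQ hle)
      = LinearMap.range (es_psi D D') := by
  apply le_antisymm
  · rintro x ⟨hx1, hx2⟩
    obtain ⟨a, ha, rfl⟩ := hx1
    rw [SetLike.mem_coe, LinearMap.mem_ker] at hx2
    have ha2 : a ∈ repartitionsOf D ⊔ principalRepartitions K F := by
      have : (repartitionsOf D ⊔ principalRepartitions K F).mkQ a = 0 := hx2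
      rwa [Submodule.mkQ_apply, Submodule.Quotient.mk_eq_zero] at this
    obtain ⟨d, hd, p, hp, rfl⟩ := Submodule.mem_sup.mp ha2
    obtain ⟨f, rfl⟩ := exists_constRep_of_mem_principal hp
    have hf : constRep K f ∈ repartitionsOf D' := by
      have := Submodule.sub_mem _ ha (repartitionsOf_mono h hd)
      rwa [add_sub_cancel_left] at this
    refine ⟨⟨f, (constRep_mem_repartitionsOf_iff f D').mp hf⟩, ?_⟩
    show (repartitionsOf D).mkQ (constRep K f) = (repartitionsOf D).mkQ (d + constRep K f)
    rw [map_add, Submodule.mkQ_apply, Submodule.mkQ_apply,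
      (Submodule.Quotient.mk_eq_zero _).mpr hd, zero_add]
  · rintro x ⟨f, rfl⟩
    refine ⟨⟨constRep K (f : F), (constRep_mem_repartitionsOf_iff _ D').mpr f.2, rfl⟩, ?_⟩
    rw [SetLike.mem_coe, LinearMap.mem_ker]
    show (repartitionsOf D ⊔ principalRepartitions K F).mkQ (constRep K (f : F)) = 0
    rw [Submodule.mkQ_apply, Submodule.Quotient.mk_eq_zero]
    exact Submodule.mem_sup_right (constRep_mem_principal _)

/-- the image of `A(D') + F` in `H¹(D)` is the image of `q(A(D'))` -/
theorem es_map_sup {D D' : Divisor K F}
    (hle : repartitionsOf D ≤ LinearMap.ker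
      (repartitionsOf D ⊔ principalRepartitions K F).mkQ) :
    Submodule.map (repartitionsOf D ⊔ principalRepartitions K F).mkQ
        (repartitionsOf D' ⊔ principalRepartitions K F)
      = Submodule.map ((repartitionsOf D).liftQ
          (repartitionsOf D ⊔ principalRepartitions K F).mkQ hle)
          (Submodule.map (repartitionsOf D).mkQ (repartitionsOf D')) := by
  rw [← Submodule.map_comp, Submodule.liftQ_mkQ, Submodule.map_sup]
  have : Submodule.map (repartitionsOf D ⊔ principalRepartitions K F).mkQ
      (principalRepartitions K F) = ⊥ := by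
    rw [eq_bot_iff]
    rintro x ⟨p, hp, rfl⟩
    rw [Submodule.mem_bot, Submodule.mkQ_apply, Submodule.Quotient.mk_eq_zero]
    exact Submodule.mem_sup_right hp
  rw [this, sup_bot_eq]

/-- the image of `A(D') + F` in `H¹(D)` (= the kernel of `H¹(D) → H¹(D')`) -/
theorem finrank_sup_principal_quot [RRBase K F] {D D' : Divisor K F} (h : D ≤ D') :
    Module.Finite K ↥(Submodule.map (repartitionsOf D ⊔ principalRepartitions K F).mkQ
        (repartitionsOf D' ⊔ principalRepartitions K F)) ∧
    (Module.finrank K ↥(Submodule.map (repartitionsOf D ⊔ principalRepartitions K F).mkQ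
        (repartitionsOf D' ⊔ principalRepartitions K F)) : ℤ)
      = (Divisor.degree D' - ell D') - (Divisor.degree D - ell D) := by
  have hle : repartitionsOf D ≤ LinearMap.ker
      (repartitionsOf D ⊔ principalRepartitions K F).mkQ := by
    rw [Submodule.ker_mkQ]
    exact le_sup_left
  obtain ⟨hfin, hrank⟩ := finrank_repartitionsOf_quot (K := K) h
  have := hfin
  rw [es_map_sup hle]
  refine ⟨inferInstance, ?_⟩
  have h1 := es_finrank_map_add ((repartitionsOf D).liftQ
    (repartitionsOf D ⊔ principalRepartitions K F).mkQ hle)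
    (Submodule.map (repartitionsOf D).mkQ (repartitionsOf D'))
  rw [es_inf_ker h hle] at h1
  have h2 := es_finrank_range_psi (K := K) h
  have h1' : (Module.finrank K ↥(Submodule.map ((repartitionsOf D).liftQ
      (repartitionsOf D ⊔ principalRepartitions K F).mkQ hle)
      (Submodule.map (repartitionsOf D).mkQ (repartitionsOf D'))) : ℤ)
      + (Module.finrank K ↥(LinearMap.range (es_psi D D')) : ℤ)
      = (Module.finrank K ↥(Submodule.map (repartitionsOf D).mkQ (repartitionsOf D')) : ℤ) := by
    exact_mod_cast h1
  have h2' : (Module.finrank K ↥(LinearMap.range (es_psi D D')) : ℤ) + (ell D : ℤ)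
      = (ell D' : ℤ) := by
    exact_mod_cast h2
  linarith

/-- `deg − ℓ` is monotone -/
theorem degree_sub_ell_mono [RRBase K F] {D D' : Divisor K F} (h : D ≤ D') :
    Divisor.degree D - ell D ≤ Divisor.degree D' - ell D' := by
  have h1 := (finrank_sup_principal_quot (K := K) h).2
  have h2 : (0 : ℤ) ≤ (Module.finrank K ↥(Submodule.map
      (repartitionsOf D ⊔ principalRepartitions K F).mkQ
      (repartitionsOf D' ⊔ principalRepartitions K F)) : ℤ) := Int.natCast_nonneg _
  linarith

end Fermat.Agent.RRlib

end
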