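/-
Riemann–Roch library (item 65), piece R5 (helper8): Riemann's theorem.
`deg − ℓ` is bounded above, `H¹(D)` is finite-dimensional, and
`ℓ(D) − i(D) = deg D + 1 − g`.
-/
import Mathlib
import Fermat.Agent.RRlib.Basic
import Fermat.Agent.RRlib.LFinite
import Fermat.Agent.RRlib.ExactSeq

set_option autoImplicit false

noncomputable section

namespace Fermat.Agent.RRlib

open AlgebraicCurve

variable {K F : Type*} [Field K] [Field F] [Algebra K F]

/-- a space `L(E)` of positive dimension contains a nonzero function -/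
theorem h1_exists_ne_zero {E : Divisor K F} (h : 0 < ell E) :
    ∃ f : F, f ≠ 0 ∧ f ∈ riemannRochSpace E := by
  by_contra hcon
  push Not at hcon
  have hbot : riemannRochSpace E = ⊥ :=
    (Submodule.eq_bot_iff _).mpr fun f hf => by
      by_contra hne
      exact hcon f hne hf
  rw [ell, hbot, finrank_bot] at h
  exact lt_irrefl _ h

/-- `deg − ℓ` is invariant under adding a principal divisor -/
theorem h1_degree_sub_ell_add_divOf [RRBase K F] (D : Divisor K F) {f : F} (hf : f ≠ 0) :
    Divisor.degree (D + divOf (K := K) f) - ell (D + divOf (K := K) f)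
      = Divisor.degree D - ell D := by
  rw [map_add, degree_divOf, add_zero, ell_add_divOf D hf]

/-- if `ℓ(E − D) > 0` then `deg D − ℓ(D) ≤ deg E − ℓ(E)` -/
theorem h1_le_of_ell_pos [RRBase K F] {D E : Divisor K F} (h : 0 < ell (E - D)) :
    Divisor.degree D - ell D ≤ Divisor.degree E - ell E := by
  obtain ⟨f, hf, hfE⟩ := h1_exists_ne_zero h
  rw [mem_riemannRochSpace_iff_divOf hf] at hfE
  have hle : D ≤ E + divOf (K := K) f := by
    have h1 : D + 0 ≤ D + (E - D + divOf (K := K) f) := by gcongr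
    calc D = D + 0 := (add_zero D).symm
      _ ≤ D + (E - D + divOf (K := K) f) := h1
      _ = E + divOf (K := K) f := by abel
  have := degree_sub_ell_mono (K := K) hle
  rwa [h1_degree_sub_ell_add_divOf E hf] at this

theorem exists_riemann_bound [RRHyp K F] :
    ∃ γ : ℤ, ∀ D : Divisor K F, Divisor.degree D - ell D ≤ γ := by
  obtain ⟨B, c, hB, hseed⟩ := RRHyp.riemann_seed (K := K) (F := F)
  refine ⟨c, fun D => ?_⟩
  have hDp : 0 ≤ Divisor.degree (D ⊔ 0) := degree_nonneg le_sup_right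
  -- choose `m` with `m · deg B > c + deg D⁺`
  set m : ℕ := (c + Divisor.degree (D ⊔ 0)).toNat + 1 with hm
  have hm1 : c + Divisor.degree (D ⊔ 0) < (m : ℤ) * Divisor.degree B := by
    have h1 : c + Divisor.degree (D ⊔ 0) < (m : ℤ) := by
      rw [hm]
      push_cast
      have := Int.self_le_toNat (c + Divisor.degree (D ⊔ 0))
      omega
    have h2 : (m : ℤ) ≤ (m : ℤ) * Divisor.degree B := by
      have hm0 : (0 : ℤ) ≤ (m : ℤ) := Int.natCast_nonneg _
      nlinarith
    linarith
  have hdegm : Divisor.degree (m • B) = (m : ℤ) * Divisor.degree B := by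
    rw [map_nsmul, nsmul_eq_mul]
  -- `ℓ(mB − D⁺) > 0`
  have hE : m • B - (D ⊔ 0) ≤ m • B := sub_le_self _ le_sup_right
  have h3 := ell_le_ell_add (K := K) hE
  have h4 := hseed m
  have hpos : 0 < ell (m • B - (D ⊔ 0)) := by
    have : (0 : ℤ) < (ell (m • B - (D ⊔ 0)) : ℤ) := by
      rw [map_sub, hdegm] at h3
      linarith
    exact_mod_cast this
  -- so `D⁺ ≤ mB + (f)`
  have h5 := h1_le_of_ell_pos (K := K) hpos
  have h6 := degree_sub_ell_mono (K := K) (le_sup_left : D ≤ D ⊔ 0)
  rw [hdegm] at h5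
  linarith

/-- a divisor at which `deg − ℓ` is maximal -/
theorem h1_exists_max [RRHyp K F] :
    ∃ E₀ : Divisor K F, ∀ D : Divisor K F,
      Divisor.degree D - ell D ≤ Divisor.degree E₀ - ell E₀ := by
  obtain ⟨γ, hγ⟩ := exists_riemann_bound (K := K) (F := F)
  obtain ⟨ub, ⟨E₀, hE₀⟩, hub⟩ := Int.exists_greatest_of_bdd
    (P := fun z => ∃ E : Divisor K F, Divisor.degree E - ell E = z)
    ⟨γ, fun z ⟨E, hE⟩ => hE ▸ hγ E⟩ ⟨_, 0, rfl⟩
  exact ⟨E₀, fun D => hE₀ ▸ hub _ ⟨D, rfl⟩⟩

/-- key step: above a maximising divisor, the image of `A(D') + F` is all of `H¹(D)` -/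
theorem h1_map_eq_top [RRHyp K F] {E₀ : Divisor K F}
    (hE₀ : ∀ D : Divisor K F, Divisor.degree D - ell D ≤ Divisor.degree E₀ - ell E₀)
    (D : Divisor K F) :
    Submodule.map (repartitionsOf D ⊔ principalRepartitions K F).mkQ
      (repartitionsOf (D ⊔ E₀) ⊔ principalRepartitions K F) = ⊤ := by
  rw [eq_top_iff]
  rintro x -
  obtain ⟨α, rfl⟩ := Submodule.mkQ_surjective _ x
  obtain ⟨D'', hα⟩ := exists_mem_repartitionsOf (K := K) α
  -- `α ∈ A(D₂)` with `D₂ = D ⊔ E₀ ⊔ D''`
  set D₁ := D ⊔ E₀ with hD₁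
  set D₂ := D₁ ⊔ D'' with hD₂
  have h12 : D₁ ≤ D₂ := le_sup_left
  have hDD₁ : D ≤ D₁ := le_sup_left
  have hDD₂ : D ≤ D₂ := hDD₁.trans h12
  have hmem : (repartitionsOf D ⊔ principalRepartitions K F).mkQ α ∈
      Submodule.map (repartitionsOf D ⊔ principalRepartitions K F).mkQ
        (repartitionsOf D₂ ⊔ principalRepartitions K F) :=
    ⟨α, Submodule.mem_sup_left (repartitionsOf_mono le_sup_right hα), rfl⟩
  -- the two images have the same dimension
  obtain ⟨hfin1, hr1⟩ := finrank_sup_principal_quot (K := K) hDD₁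
  obtain ⟨hfin2, hr2⟩ := finrank_sup_principal_quot (K := K) hDD₂
  have hv1 : Divisor.degree D₁ - ell D₁ = Divisor.degree E₀ - ell E₀ :=
    le_antisymm (hE₀ D₁) (degree_sub_ell_mono (K := K) (le_sup_right : E₀ ≤ D ⊔ E₀))
  have hv2 : Divisor.degree D₂ - ell D₂ = Divisor.degree E₀ - ell E₀ :=
    le_antisymm (hE₀ D₂) (hv1 ▸ degree_sub_ell_mono (K := K) h12)
  have hle : Submodule.map (repartitionsOf D ⊔ principalRepartitions K F).mkQ
        (repartitionsOf D₁ ⊔ principalRepartitions K F) ≤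
      Submodule.map (repartitionsOf D ⊔ principalRepartitions K F).mkQ
        (repartitionsOf D₂ ⊔ principalRepartitions K F) :=
    Submodule.map_mono (sup_le_sup_right (repartitionsOf_mono h12) _)
  have hrank : Module.finrank K ↥(Submodule.map
        (repartitionsOf D ⊔ principalRepartitions K F).mkQ
        (repartitionsOf D₁ ⊔ principalRepartitions K F)) =
      Module.finrank K ↥(Submodule.map (repartitionsOf D ⊔ principalRepartitions K F).mkQ
        (repartitionsOf D₂ ⊔ principalRepartitions K F)) := by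
    have : (Module.finrank K ↥(Submodule.map
        (repartitionsOf D ⊔ principalRepartitions K F).mkQ
        (repartitionsOf D₁ ⊔ principalRepartitions K F)) : ℤ) =
      (Module.finrank K ↥(Submodule.map (repartitionsOf D ⊔ principalRepartitions K F).mkQ
        (repartitionsOf D₂ ⊔ principalRepartitions K F)) : ℤ) := by
      rw [hr1, hr2, hv1, hv2]
    exact_mod_cast this
  have := hfin2
  have heq := Submodule.eq_of_le_of_finrank_eq hle hrank
  rw [heq]
  exact hmem

theorem h1_finite_and_idx [RRHyp K F] {E₀ : Divisor K F}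
    (hE₀ : ∀ D : Divisor K F, Divisor.degree D - ell D ≤ Divisor.degree E₀ - ell E₀)
    (D : Divisor K F) :
    Module.Finite K (H1 D) ∧
      (idx D : ℤ) = (Divisor.degree E₀ - ell E₀) - (Divisor.degree D - ell D) := by
  have htop := h1_map_eq_top hE₀ D
  have hDD₁ : D ≤ D ⊔ E₀ := le_sup_left
  obtain ⟨hfin1, hr1⟩ := finrank_sup_principal_quot (K := K) hDD₁
  have hv1 : Divisor.degree (D ⊔ E₀) - ell (D ⊔ E₀) = Divisor.degree E₀ - ell E₀ :=
    le_antisymm (hE₀ _) (degree_sub_ell_mono (K := K) (le_sup_right : E₀ ≤ D ⊔ E₀))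
  rw [htop] at hfin1 hr1
  have hfin : Module.Finite K (H1 D) := by
    have e : (↥(⊤ : Submodule K (H1 D))) ≃ₗ[K] H1 D := Submodule.topEquiv
    exact Module.Finite.equiv e
  refine ⟨hfin, ?_⟩
  have e : (↥(⊤ : Submodule K (H1 D))) ≃ₗ[K] H1 D := Submodule.topEquiv
  rw [idx, ← e.finrank_eq, hr1, hv1]

theorem finite_H1 [RRHyp K F] (D : Divisor K F) : Module.Finite K (H1 D) := by
  obtain ⟨E₀, hE₀⟩ := h1_exists_max (K := K) (F := F)
  exact (h1_finite_and_idx hE₀ D).1

/-- the maximum of `deg − ℓ` is `g − 1` -/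
theorem h1_max_eq [RRHyp K F] {E₀ : Divisor K F}
    (hE₀ : ∀ D : Divisor K F, Divisor.degree D - ell D ≤ Divisor.degree E₀ - ell E₀) :
    Divisor.degree E₀ - ell E₀ = (genusFF K F : ℤ) - 1 := by
  have h := (h1_finite_and_idx hE₀ (0 : Divisor K F)).2
  have h0 : idx (0 : Divisor K F) = genusFF K F := rfl
  rw [h0, map_zero, ell_zero (K := K) (F := F)] at h
  push_cast at h
  linarith

/-- Riemann–Roch, first form -/
theorem ell_sub_idx [RRHyp K F] (D : Divisor K F) :
    (ell D : ℤ) - idx D = Divisor.degree D + 1 - genusFF K F := by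
  obtain ⟨E₀, hE₀⟩ := h1_exists_max (K := K) (F := F)
  have h := (h1_finite_and_idx hE₀ D).2
  have h1 := h1_max_eq hE₀
  linarith

/-- Riemann's inequality -/
theorem riemann_inequality [RRHyp K F] (D : Divisor K F) :
    Divisor.degree D + 1 - genusFF K F ≤ ell D := by
  have h := ell_sub_idx (K := K) D
  have h0 : (0 : ℤ) ≤ (idx D : ℤ) := Int.natCast_nonneg _
  linarith

theorem idx_antitone [RRHyp K F] {D D' : Divisor K F} (h : D ≤ D') : idx D' ≤ idx D := by
  have h1 := ell_sub_idx (K := K) D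
  have h2 := ell_sub_idx (K := K) D'
  have h3 := degree_sub_ell_mono (K := K) h
  have : (idx D' : ℤ) ≤ (idx D : ℤ) := by linarith
  exact_mod_cast this

theorem idx_add_divOf [RRHyp K F] (D : Divisor K F) {f : F} (hf : f ≠ 0) :
    idx (D + divOf (K := K) f) = idx D := by
  have h1 := ell_sub_idx (K := K) D
  have h2 := ell_sub_idx (K := K) (D + divOf (K := K) f)
  have h3 := h1_degree_sub_ell_add_divOf (K := K) D hf
  have : (idx (D + divOf (K := K) f) : ℤ) = (idx D : ℤ) := by linarith
  exact_mod_cast this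

theorem exists_forall_idx_eq_zero [RRHyp K F] :
    ∃ c : ℤ, ∀ D : Divisor K F, c ≤ Divisor.degree D → idx D = 0 := by
  obtain ⟨E₀, hE₀⟩ := h1_exists_max (K := K) (F := F)
  have hmax := h1_max_eq hE₀
  refine ⟨Divisor.degree E₀ + genusFF K F, fun D hD => ?_⟩
  have hpos : 0 < ell (D - E₀) := by
    have h1 := riemann_inequality (K := K) (D - E₀)
    rw [map_sub] at h1
    have : (0 : ℤ) < (ell (D - E₀) : ℤ) := by linarith
    exact_mod_cast this
  have h2 := h1_le_of_ell_pos (K := K) hpos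
  have h3 := hE₀ D
  have h4 := ell_sub_idx (K := K) D
  have : (idx D : ℤ) = 0 := by linarith
  exact_mod_cast this

end Fermat.Agent.RRlib

end
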