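/-
Riemann–Roch library (item 65), Part III interface: Tate's trace of finite-potent endomorphisms
and Tate's abstract residue (J. Tate, "Residues of differentials on curves", 1968).
Definitions only (helper16, architect).  Blueprint: NOTES/RR_blueprint.md, Part III.
-/
import Mathlib

set_option autoImplicit false

noncomputable section

namespace Fermat.Agent.RRlib

variable {K V : Type*} [Field K] [AddCommGroup V] [Module K V]

/-- `θ` is finite-potent: some power of `θ` has finite-dimensional range. -/
def IsFinPot (θ : Module.End K V) : Prop :=
  ∃ n : ℕ, FiniteDimensional K (LinearMap.range (θ ^ n))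

theorem range_pow_mapsTo (θ : Module.End K V) (n : ℕ) :
    ∀ x ∈ LinearMap.range (θ ^ n), θ x ∈ LinearMap.range (θ ^ n) := by
  rintro x ⟨y, rfl⟩
  refine ⟨θ y, ?_⟩
  rw [← Module.End.mul_apply, ← Module.End.mul_apply, ← pow_succ, ← pow_succ']

/-- Tate's trace of a finite-potent endomorphism (junk value `0` if `θ` is not finite-potent):
the trace of `θ` on the finite-dimensional stable subspace `θⁿ V`. -/
def fpTrace (θ : Module.End K V) : K :=
  letI := Classical.propDecidable
  if h : IsFinPot θ then
    LinearMap.trace K (LinearMap.range (θ ^ h.choose)) (θ.restrict (range_pow_mapsTo θ h.choose))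
  else 0

/-- `X` is almost contained in `Y`: `X ≤ Y + W` with `W` finite-dimensional. -/
def AlmostLE (X Y : Submodule K V) : Prop :=
  ∃ W : Submodule K V, FiniteDimensional K W ∧ X ≤ Y ⊔ W

/-- `θ` almost preserves `A`. -/
def NearStab (A : Submodule K V) (θ : Module.End K V) : Prop :=
  AlmostLE (A.map θ) A

/-- Tate's ideal `E₀(A) = E₁ ∩ E₂`: `θ V` is almost contained in `A` and `θ A` is
finite-dimensional. -/
def InE0 (A : Submodule K V) (θ : Module.End K V) : Prop :=
  AlmostLE (LinearMap.range θ) A ∧ FiniteDimensional K (A.map θ)

/-- a projection onto `A` (chosen) -/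
def someProj (A : Submodule K V) : Module.End K V :=
  A.subtype ∘ₗ Submodule.projectionOnto A _ (A.exists_isCompl.choose_spec)

theorem someProj_isProj (A : Submodule K V) : LinearMap.IsProj A (someProj A) where
  map_mem x := by simp [someProj]
  map_id x hx := by
    show (A.subtype ∘ₗ Submodule.projectionOnto A _ _) x = x
    rw [LinearMap.comp_apply]
    have := Submodule.projectionOnto_apply_left (A.exists_isCompl.choose_spec) ⟨x, hx⟩
    rw [this]
    rfl

/-- **Tate's residue** of the pair `(φ, ψ)` of commuting endomorphisms almost preserving `A`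
("`res_A (φ dψ)`"): the trace of the finite-potent endomorphism `[π φ, ψ]`, `π` a projection
onto `A`. -/
def tateRes (A : Submodule K V) (φ ψ : Module.End K V) : K :=
  fpTrace (someProj A * φ * ψ - ψ * (someProj A * φ))

end Fermat.Agent.RRlib

end
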