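/-
Riemann–Roch library (item 65), Part III interface for curves: the local residue pairing
`resAt v f g = res_v (f dg)` (Tate's residue on `V = F`, `A = O_v`) and the multiplication
operators on the repartition ring.  Definitions only (helper16, architect).
-/
import Mathlib
import Fermat.Agent.RRlib.Defs
import Fermat.Agent.RRlib.TateDefs

set_option autoImplicit false

noncomputable section

namespace Fermat.Agent.RRlib

open AlgebraicCurve

variable {K F : Type*} [Field K] [Field F] [Algebra K F]

/-- the valuation ring of `v` as a `K`-subspace of `F` -/
def placeSub (v : Place K F) : Submodule K F where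
  carrier := v.toValuationSubring
  zero_mem' := zero_mem _
  add_mem' := add_mem
  smul_mem' c x hx := by
    rw [Algebra.smul_def]
    exact mul_mem (v.algebraMap_mem' c) hx

@[simp] theorem mem_placeSub {v : Place K F} {f : F} :
    f ∈ placeSub v ↔ f ∈ v.toValuationSubring := Iff.rfl

/-- multiplication by `f`, as a `K`-linear endomorphism of `F` -/
def mulF (K : Type*) {F : Type*} [Field K] [Field F] [Algebra K F] (f : F) : Module.End K F :=
  LinearMap.mulLeft K f

@[simp] theorem mulF_apply (f x : F) : mulF K f x = f * x := rfl

/-- the local residue pairing `res_v (f dg)` -/
def resAt (v : Place K F) (f g : F) : K := tateRes (placeSub v) (mulF K f) (mulF K g)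

/-- multiplication by a repartition, as a `K`-linear endomorphism of the repartition ring -/
def mulA (α : ↥(repartitions K F)) : Module.End K ↥(repartitions K F) :=
  LinearMap.mulLeft K α

@[simp] theorem mulA_apply (α β : ↥(repartitions K F)) : mulA α β = α * β := rfl

end Fermat.Agent.RRlib

end
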