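/-
Riemann–Roch library (item 65), piece TA: Tate's trace of finite-potent endomorphisms (helper16).
-/
import Mathlib
import Fermat.Agent.RRlib.TateDefs

set_option autoImplicit false

noncomputable section

namespace Fermat.Agent.RRlib

open LinearMap

variable {K V : Type*} [Field K] [AddCommGroup V] [Module K V]

/-! ### finite-dimensional preliminaries -/

/-- If `θ` maps the stable subspace `U` into the stable subspace `U' ≤ U`, the traces of `θ` on `U`
and on `U'` agree. -/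
theorem tt_trace_restrict_step {θ : Module.End K V} {U U' : Submodule K V}
    [FiniteDimensional K U] (hU : ∀ x ∈ U, θ x ∈ U) (hU' : ∀ x ∈ U', θ x ∈ U') (hle : U' ≤ U)
    (hmap : ∀ x ∈ U, θ x ∈ U') :
    LinearMap.trace K U (θ.restrict hU) = LinearMap.trace K U' (θ.restrict hU') := by
  have : FiniteDimensional K U' := Submodule.finiteDimensional_of_le hle
  have h := LinearMap.trace_comp_comm' (R := K) (θ.restrict hmap : U →ₗ[K] U')
    (Submodule.inclusion hle)
  have e1 : (Submodule.inclusion hle) ∘ₗ (θ.restrict hmap : U →ₗ[K] U') = θ.restrict hU := by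
    ext x; rfl
  have e2 : (θ.restrict hmap : U →ₗ[K] U') ∘ₗ (Submodule.inclusion hle) = θ.restrict hU' := by
    ext x; rfl
  rw [e1, e2] at h
  exact h

theorem tt_map_pow_stable {θ : Module.End K V} {U : Submodule K V} (hU : ∀ x ∈ U, θ x ∈ U)
    (k : ℕ) : ∀ x ∈ U, (θ ^ k) x ∈ U := by
  induction k with
  | zero => intro x hx; simpa using hx
  | succ k ih =>
    intro x hx
    rw [pow_succ', Module.End.mul_apply]
    exact hU _ (ih x hx)

/-- If `θᵏ U ≤ U' ≤ U` (all `θ`-stable), the traces of `θ` on `U` and on `U'` agree. -/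
theorem tt_trace_restrict_chain {θ : Module.End K V} (k : ℕ) :
    ∀ {U U' : Submodule K V} [FiniteDimensional K U] (hU : ∀ x ∈ U, θ x ∈ U)
      (hU' : ∀ x ∈ U', θ x ∈ U') (_ : U' ≤ U) (_ : ∀ x ∈ U, (θ ^ k) x ∈ U'),
      LinearMap.trace K U (θ.restrict hU) = LinearMap.trace K U' (θ.restrict hU') := by
  induction k with
  | zero =>
    intro U U' _ hU hU' hle hk
    have : U = U' := le_antisymm (fun x hx => by simpa using hk x hx) hle
    subst this
    rfl
  | succ k ih =>
    intro U U' _ hU hU' hle hk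
    -- the intermediate subspace U₁ = U' + θ U
    set U₁ : Submodule K V := U' ⊔ U.map θ with hU₁
    have hU₁le : U₁ ≤ U := by
      refine sup_le hle ?_
      rintro _ ⟨x, hx, rfl⟩
      exact hU x hx
    have : FiniteDimensional K U₁ := Submodule.finiteDimensional_of_le hU₁le
    have hmap : ∀ x ∈ U, θ x ∈ U₁ := fun x hx =>
      Submodule.mem_sup_right (Submodule.mem_map_of_mem hx)
    have hU₁st : ∀ x ∈ U₁, θ x ∈ U₁ := fun x hx => hmap x (hU₁le hx)
    have h1 := tt_trace_restrict_step hU hU₁st hU₁le hmap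
    have hk₁ : ∀ x ∈ U₁, (θ ^ k) x ∈ U' := by
      intro x hx
      rw [hU₁] at hx
      obtain ⟨a, ha, b, hb, rfl⟩ := Submodule.mem_sup.mp hx
      obtain ⟨c, hc, rfl⟩ := hb
      rw [map_add]
      refine add_mem (tt_map_pow_stable hU' k a ha) ?_
      have := hk c hc
      rwa [pow_succ, Module.End.mul_apply] at this
    rw [h1]
    exact ih hU₁st hU' le_sup_left hk₁

theorem tt_range_pow_le {θ : Module.End K V} {m n : ℕ} (h : m ≤ n) :
    LinearMap.range (θ ^ n) ≤ LinearMap.range (θ ^ m) := by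
  obtain ⟨d, rfl⟩ := Nat.exists_eq_add_of_le h
  rintro _ ⟨y, rfl⟩
  refine ⟨(θ ^ d) y, ?_⟩
  rw [← Module.End.mul_apply, ← pow_add]

/-! ### the key lemma -/

theorem isFinPot_of_range_le {θ : Module.End K V} (U : Submodule K V)
    [FiniteDimensional K U] {n : ℕ} (hn : LinearMap.range (θ ^ n) ≤ U) : IsFinPot θ :=
  ⟨n, Submodule.finiteDimensional_of_le hn⟩

/-- KEY LEMMA: the trace can be computed on any finite-dimensional `θ`-stable subspace containing
some `θⁿ V`. -/
theorem fpTrace_eq_trace_restrict {θ : Module.End K V} (U : Submodule K V)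
    [FiniteDimensional K U] (hU : ∀ x ∈ U, θ x ∈ U) {n : ℕ}
    (hn : LinearMap.range (θ ^ n) ≤ U) :
    fpTrace θ = LinearMap.trace K U (θ.restrict hU) := by
  have hfp : IsFinPot θ := isFinPot_of_range_le U hn
  rw [fpTrace, dif_pos hfp]
  set m := hfp.choose with hm
  have hfd : FiniteDimensional K (LinearMap.range (θ ^ m)) := hfp.choose_spec
  -- common subspace U' = range θ^(m+n)
  have hle₀ : LinearMap.range (θ ^ (m + n)) ≤ LinearMap.range (θ ^ m) :=
    tt_range_pow_le (Nat.le_add_right m n)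
  have hle₁ : LinearMap.range (θ ^ (m + n)) ≤ U :=
    (tt_range_pow_le (Nat.le_add_left n m)).trans hn
  have h0 := tt_trace_restrict_chain (θ := θ) n (range_pow_mapsTo θ m)
    (range_pow_mapsTo θ (m + n)) hle₀ (by
      rintro _ ⟨y, rfl⟩
      refine ⟨y, ?_⟩
      rw [← Module.End.mul_apply, ← pow_add, add_comm])
  have h1 := tt_trace_restrict_chain (θ := θ) (m + n) hU
    (range_pow_mapsTo θ (m + n)) hle₁ (fun x _ => ⟨x, rfl⟩)
  rw [h0, h1]

theorem fpTrace_of_finiteDimensional_range {θ : Module.End K V}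
    [FiniteDimensional K (LinearMap.range θ)] :
    fpTrace θ = LinearMap.trace K (LinearMap.range θ)
      (θ.restrict (fun x _ => LinearMap.mem_range_self θ x)) :=
  fpTrace_eq_trace_restrict (LinearMap.range θ) _ (n := 1) (by rw [pow_one])

theorem isFinPot_of_finiteDimensional_range {θ : Module.End K V}
    (h : FiniteDimensional K (LinearMap.range θ)) : IsFinPot θ :=
  ⟨1, by rwa [pow_one]⟩

theorem fpTrace_eq_zero_of_isNilpotent {θ : Module.End K V} (h : IsNilpotent θ) :
    fpTrace θ = 0 := by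
  obtain ⟨k, hk⟩ := h
  have hn : LinearMap.range (θ ^ k) ≤ (⊥ : Submodule K V) := by
    rw [hk]; simp
  rw [fpTrace_eq_trace_restrict (⊥ : Submodule K V) (fun x hx => by
    rw [Submodule.mem_bot] at hx ⊢; rw [hx, map_zero]) hn]
  have : (θ.restrict (fun x hx => by
    rw [Submodule.mem_bot] at hx ⊢; rw [hx, map_zero]) :
      (⊥ : Submodule K V) →ₗ[K] (⊥ : Submodule K V)) = 0 := by
    ext x
  rw [this, map_zero]

theorem fpTrace_zero : fpTrace (0 : Module.End K V) = 0 :=
  fpTrace_eq_zero_of_isNilpotent ⟨1, by simp⟩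

theorem tt_smul_pow_range {θ : Module.End K V} {c : K} (hc : c ≠ 0) (n : ℕ) :
    LinearMap.range ((c • θ) ^ n) = LinearMap.range (θ ^ n) := by
  rw [smul_pow]
  apply le_antisymm
  · rintro _ ⟨y, rfl⟩
    exact ⟨c ^ n • y, by simp⟩
  · rintro _ ⟨y, rfl⟩
    refine ⟨(c ^ n)⁻¹ • y, ?_⟩
    simp only [LinearMap.smul_apply, map_smul]
    rw [smul_smul, inv_mul_cancel₀ (pow_ne_zero n hc), one_smul]

theorem isFinPot_smul_iff {θ : Module.End K V} {c : K} (hc : c ≠ 0) :
    IsFinPot (c • θ) ↔ IsFinPot θ := by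
  constructor
  · rintro ⟨n, hn⟩
    exact ⟨n, by rwa [tt_smul_pow_range hc] at hn⟩
  · rintro ⟨n, hn⟩
    exact ⟨n, by rwa [tt_smul_pow_range hc]⟩

theorem fpTrace_smul (c : K) (θ : Module.End K V) : fpTrace (c • θ) = c * fpTrace θ := by
  rcases eq_or_ne c 0 with rfl | hc
  · simp [fpTrace_zero]
  by_cases h : IsFinPot θ
  · obtain ⟨n, hn⟩ := h
    have := hn
    have hst := range_pow_mapsTo θ n
    have hst' : ∀ x ∈ LinearMap.range (θ ^ n), (c • θ) x ∈ LinearMap.range (θ ^ n) :=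
      fun x hx => Submodule.smul_mem _ c (hst x hx)
    rw [fpTrace_eq_trace_restrict (LinearMap.range (θ ^ n)) hst' (n := n)
        (by rw [tt_smul_pow_range hc]),
      fpTrace_eq_trace_restrict (LinearMap.range (θ ^ n)) hst (n := n) le_rfl]
    have : (c • θ).restrict hst' = c • θ.restrict hst := by
      ext x; rfl
    rw [this, map_smul, smul_eq_mul]
  · have h' : ¬ IsFinPot (c • θ) := fun h' => h ((isFinPot_smul_iff hc).mp h')
    rw [fpTrace, dif_neg h', fpTrace, dif_neg h, mul_zero]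

theorem fpTrace_neg (θ : Module.End K V) : fpTrace (-θ) = -fpTrace θ := by
  have := fpTrace_smul (-1 : K) θ
  simpa using this

/-- additivity when all products of two of the operators have finite rank -/
theorem fpTrace_add {θ₁ θ₂ : Module.End K V}
    (h11 : FiniteDimensional K (LinearMap.range (θ₁ * θ₁)))
    (h12 : FiniteDimensional K (LinearMap.range (θ₁ * θ₂)))
    (h21 : FiniteDimensional K (LinearMap.range (θ₂ * θ₁)))
    (h22 : FiniteDimensional K (LinearMap.range (θ₂ * θ₂))) :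
    fpTrace (θ₁ + θ₂) = fpTrace θ₁ + fpTrace θ₂ := by
  set U : Submodule K V := LinearMap.range (θ₁ * θ₁) ⊔ LinearMap.range (θ₁ * θ₂) ⊔
    LinearMap.range (θ₂ * θ₁) ⊔ LinearMap.range (θ₂ * θ₂) with hUdef
  have : FiniteDimensional K U := by
    rw [hUdef]
    infer_instance
  have m11 : LinearMap.range (θ₁ * θ₁) ≤ U :=
    le_sup_of_le_left (le_sup_of_le_left le_sup_left)
  have m12 : LinearMap.range (θ₁ * θ₂) ≤ U :=
    le_sup_of_le_left (le_sup_of_le_left le_sup_right)
  have m21 : LinearMap.range (θ₂ * θ₁) ≤ U := le_sup_of_le_left le_sup_right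
  have m22 : LinearMap.range (θ₂ * θ₂) ≤ U := le_sup_right
  -- θ₁ U ⊆ range (θ₁ * _)
  have key : ∀ (a b c : Module.End K V), ∀ x ∈ LinearMap.range (b * c),
      a x ∈ LinearMap.range (a * b) := by
    rintro a b c _ ⟨y, rfl⟩
    exact ⟨c y, rfl⟩
  have st : ∀ a : Module.End K V, LinearMap.range (a * θ₁) ≤ U →
      LinearMap.range (a * θ₂) ≤ U → ∀ x ∈ U, a x ∈ U := by
    intro a ha1 ha2 x hx
    rw [hUdef] at hx
    obtain ⟨x123, hx123, x4, hx4, rfl⟩ := Submodule.mem_sup.mp hx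
    obtain ⟨x12, hx12, x3, hx3, rfl⟩ := Submodule.mem_sup.mp hx123
    obtain ⟨x1, hx1, x2, hx2, rfl⟩ := Submodule.mem_sup.mp hx12
    simp only [map_add]
    exact add_mem (add_mem (add_mem (ha1 (key a θ₁ θ₁ x1 hx1)) (ha1 (key a θ₁ θ₂ x2 hx2)))
      (ha2 (key a θ₂ θ₁ x3 hx3))) (ha2 (key a θ₂ θ₂ x4 hx4))
  have st1 : ∀ x ∈ U, θ₁ x ∈ U := st θ₁ m11 m12
  have st2 : ∀ x ∈ U, θ₂ x ∈ U := st θ₂ m21 m22
  have st12 : ∀ x ∈ U, (θ₁ + θ₂) x ∈ U := fun x hx => add_mem (st1 x hx) (st2 x hx)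
  have r1 : LinearMap.range (θ₁ ^ 2) ≤ U := by rw [pow_two]; exact m11
  have r2 : LinearMap.range (θ₂ ^ 2) ≤ U := by rw [pow_two]; exact m22
  have r12 : LinearMap.range ((θ₁ + θ₂) ^ 2) ≤ U := by
    rintro _ ⟨y, rfl⟩
    rw [pow_two, add_mul, mul_add, mul_add]
    simp only [LinearMap.add_apply]
    exact add_mem (add_mem (m11 ⟨y, rfl⟩) (m12 ⟨y, rfl⟩))
      (add_mem (m21 ⟨y, rfl⟩) (m22 ⟨y, rfl⟩))
  rw [fpTrace_eq_trace_restrict U st12 r12, fpTrace_eq_trace_restrict U st1 r1,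
    fpTrace_eq_trace_restrict U st2 r2, ← map_add]
  congr 1

/-- Tate's (T5), between two spaces -/
theorem fpTrace_comp_comm {V' : Type*} [AddCommGroup V'] [Module K V']
    (φ : V' →ₗ[K] V) (ψ : V →ₗ[K] V') (h : IsFinPot (φ ∘ₗ ψ)) :
    fpTrace (ψ ∘ₗ φ) = fpTrace (φ ∘ₗ ψ) := by
  obtain ⟨n, hn⟩ := h
  have := hn
  set θ : Module.End K V := φ ∘ₗ ψ with hθ
  set θ' : Module.End K V' := ψ ∘ₗ φ with hθ'
  set W : Submodule K V := LinearMap.range (θ ^ n) with hW
  set W' : Submodule K V' := W.map ψ with hW'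
  have : FiniteDimensional K W' := by
    rw [hW']; infer_instance
  have hWst : ∀ x ∈ W, θ x ∈ W := range_pow_mapsTo θ n
  -- intertwining relations
  have hint : ∀ k : ℕ, ∀ x, ψ ((θ ^ k) x) = (θ' ^ k) (ψ x) := by
    intro k
    induction k with
    | zero => intro x; simp
    | succ k ih =>
      intro x
      rw [pow_succ', Module.End.mul_apply, pow_succ', Module.End.mul_apply, ← ih]
      rfl
  have hφW' : ∀ y ∈ W', φ y ∈ W := by
    rintro _ ⟨x, hx, rfl⟩
    exact hWst x hx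
  have hψW : ∀ x ∈ W, ψ x ∈ W' := fun x hx => Submodule.mem_map_of_mem hx
  have hW'st : ∀ y ∈ W', θ' y ∈ W' := fun y hy => hψW _ (hφW' y hy)
  have hrange' : LinearMap.range (θ' ^ (n + 1)) ≤ W' := by
    rintro _ ⟨y, rfl⟩
    rw [pow_succ, Module.End.mul_apply]
    have : (θ' ^ n) (θ' y) = ψ ((θ ^ n) (φ y)) := by
      rw [hint n (φ y)]
      rfl
    rw [this]
    exact hψW _ ⟨φ y, rfl⟩
  rw [fpTrace_eq_trace_restrict W' hW'st hrange', fpTrace_eq_trace_restrict W hWst (n := n) le_rfl]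
  have h := LinearMap.trace_comp_comm' (R := K) (φ.restrict hφW' : W' →ₗ[K] W)
    (ψ.restrict hψW : W →ₗ[K] W')
  have e1 : (ψ.restrict hψW : W →ₗ[K] W') ∘ₗ (φ.restrict hφW' : W' →ₗ[K] W)
      = θ'.restrict hW'st := by
    ext x; rfl
  have e2 : (φ.restrict hφW' : W' →ₗ[K] W) ∘ₗ (ψ.restrict hψW : W →ₗ[K] W')
      = θ.restrict hWst := by
    ext x; rfl
  rw [e1, e2] at h
  exact h

/-- Tate's (T5) -/
theorem fpTrace_mul_comm {φ ψ : Module.End K V} (h : IsFinPot (φ * ψ)) :
    fpTrace (ψ * φ) = fpTrace (φ * ψ) :=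
  fpTrace_comp_comm φ ψ h

/-- trace of a finite-rank idempotent -/
theorem fpTrace_of_isProj {U : Submodule K V} [FiniteDimensional K U] {π : Module.End K V}
    (h : LinearMap.IsProj U π) : fpTrace π = (Module.finrank K U : K) := by
  have hst : ∀ x ∈ U, π x ∈ U := fun x _ => h.map_mem x
  rw [fpTrace_eq_trace_restrict U hst (n := 1) (by
    rw [pow_one]; rintro _ ⟨y, rfl⟩; exact h.map_mem y)]
  have : π.restrict hst = (1 : Module.End K U) := by
    ext x
    exact h.map_id x x.2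
  rw [this, LinearMap.trace_one]

end Fermat.Agent.RRlib

end
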