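/-
Riemann–Roch library (item 65), Part III piece TB1: calculus of "almost contained", Tate's
ideals `E` (`NearStab`) and `E₀` (`InE0`), additivity of the trace on `E₀`, the commutator
`[π φ, ψ]` lies in `E₀` (helper27).  Blueprint: NOTES/RR_blueprint.md, Part III.
-/
import Mathlib
import Fermat.Agent.RRlib.TateDefs
import Fermat.Agent.RRlib.TateTrace

set_option autoImplicit false

noncomputable section

namespace Fermat.Agent.RRlib

variable {K V : Type*} [Field K] [AddCommGroup V] [Module K V]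

/-! ### almost containment -/

theorem AlmostLE.refl (X : Submodule K V) : AlmostLE X X :=
  ⟨⊥, inferInstance, le_sup_left⟩

theorem AlmostLE.of_le {X Y : Submodule K V} (h : X ≤ Y) : AlmostLE X Y :=
  ⟨⊥, inferInstance, h.trans le_sup_left⟩

theorem AlmostLE.trans {X Y Z : Submodule K V} (h₁ : AlmostLE X Y) (h₂ : AlmostLE Y Z) :
    AlmostLE X Z := by
  obtain ⟨W₁, hW₁, h₁⟩ := h₁
  obtain ⟨W₂, hW₂, h₂⟩ := h₂
  refine ⟨W₂ ⊔ W₁, inferInstance, h₁.trans ?_⟩
  rw [← sup_assoc]
  exact sup_le_sup_right h₂ W₁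

theorem AlmostLE.map {X Y : Submodule K V} (h : AlmostLE X Y) (θ : Module.End K V) :
    AlmostLE (X.map θ) (Y.map θ) := by
  obtain ⟨W, hW, h⟩ := h
  refine ⟨W.map θ, inferInstance, ?_⟩
  rw [← Submodule.map_sup]
  exact Submodule.map_mono h

/-- version of `AlmostLE.map` for a linear map between two spaces -/
theorem AlmostLE.map' {V' : Type*} [AddCommGroup V'] [Module K V'] {X Y : Submodule K V}
    (h : AlmostLE X Y) (θ : V →ₗ[K] V') : AlmostLE (X.map θ) (Y.map θ) := by
  obtain ⟨W, hW, h⟩ := h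
  refine ⟨W.map θ, inferInstance, ?_⟩
  rw [← Submodule.map_sup]
  exact Submodule.map_mono h

theorem AlmostLE.sup {X Y Z : Submodule K V} (h₁ : AlmostLE X Z) (h₂ : AlmostLE Y Z) :
    AlmostLE (X ⊔ Y) Z := by
  obtain ⟨W₁, hW₁, h₁⟩ := h₁
  obtain ⟨W₂, hW₂, h₂⟩ := h₂
  refine ⟨W₁ ⊔ W₂, inferInstance, sup_le (h₁.trans ?_) (h₂.trans ?_)⟩
  · exact sup_le_sup_left le_sup_left Z
  · exact sup_le_sup_left le_sup_right Z

theorem AlmostLE.mono_left {X X' Y : Submodule K V} (h : AlmostLE X Y) (hX : X' ≤ X) :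
    AlmostLE X' Y :=
  (AlmostLE.of_le hX).trans h

theorem AlmostLE.mono_right {X Y Y' : Submodule K V} (h : AlmostLE X Y) (hY : Y ≤ Y') :
    AlmostLE X Y' :=
  h.trans (AlmostLE.of_le hY)

theorem almostLE_bot_iff {X : Submodule K V} : AlmostLE X ⊥ ↔ FiniteDimensional K X := by
  constructor
  · rintro ⟨W, hW, h⟩
    rw [bot_sup_eq] at h
    exact Submodule.finiteDimensional_of_le h
  · intro h
    exact ⟨X, h, le_sup_right⟩

theorem AlmostLE.of_finiteDimensional {X : Submodule K V} (h : FiniteDimensional K X)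
    (Y : Submodule K V) : AlmostLE X Y :=
  ⟨X, h, le_sup_right⟩

/-- if `X ≺ Y` and `θ Y` is finite-dimensional then `θ X` is finite-dimensional -/
theorem AlmostLE.finiteDimensional_map {X Y : Submodule K V} (h : AlmostLE X Y)
    {θ : Module.End K V} (hY : FiniteDimensional K (Y.map θ)) :
    FiniteDimensional K (X.map θ) :=
  almostLE_bot_iff.mp ((h.map θ).trans (almostLE_bot_iff.mpr hY))

theorem te_map_mul (A : Submodule K V) (φ ψ : Module.End K V) :
    A.map (φ * ψ) = (A.map ψ).map φ := by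
  rw [Module.End.mul_eq_comp, Submodule.map_comp]

theorem te_range_mul (φ ψ : Module.End K V) :
    LinearMap.range (φ * ψ) = (LinearMap.range ψ).map φ := by
  rw [Module.End.mul_eq_comp, LinearMap.range_comp]

theorem te_range_mul_le (φ ψ : Module.End K V) :
    LinearMap.range (φ * ψ) ≤ LinearMap.range φ := by
  rw [Module.End.mul_eq_comp]
  exact LinearMap.range_comp_le_range ψ φ

theorem te_map_add_le (A : Submodule K V) (φ ψ : Module.End K V) :
    A.map (φ + ψ) ≤ A.map φ ⊔ A.map ψ := by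
  rintro _ ⟨a, ha, rfl⟩
  exact Submodule.add_mem_sup (Submodule.mem_map_of_mem ha) (Submodule.mem_map_of_mem ha)

theorem te_range_add_le (φ ψ : Module.End K V) :
    LinearMap.range (φ + ψ) ≤ LinearMap.range φ ⊔ LinearMap.range ψ := by
  rintro _ ⟨a, rfl⟩
  exact Submodule.add_mem_sup (LinearMap.mem_range_self φ a) (LinearMap.mem_range_self ψ a)

theorem te_map_sub_le (A : Submodule K V) (φ ψ : Module.End K V) :
    A.map (φ - ψ) ≤ A.map φ ⊔ A.map ψ := by
  rintro _ ⟨a, ha, rfl⟩
  exact Submodule.sub_mem_sup (Submodule.mem_map_of_mem ha) (Submodule.mem_map_of_mem ha)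

theorem te_range_sub_le (φ ψ : Module.End K V) :
    LinearMap.range (φ - ψ) ≤ LinearMap.range φ ⊔ LinearMap.range ψ := by
  rintro _ ⟨a, rfl⟩
  exact Submodule.sub_mem_sup (LinearMap.mem_range_self φ a) (LinearMap.mem_range_self ψ a)

theorem te_map_smul_le (A : Submodule K V) (c : K) (φ : Module.End K V) :
    A.map (c • φ) ≤ A.map φ := by
  rintro _ ⟨a, ha, rfl⟩
  exact Submodule.smul_mem _ c (Submodule.mem_map_of_mem ha)

theorem te_range_smul_le (c : K) (φ : Module.End K V) :
    LinearMap.range (c • φ) ≤ LinearMap.range φ := by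
  rintro _ ⟨a, rfl⟩
  exact Submodule.smul_mem _ c (LinearMap.mem_range_self φ a)

theorem te_map_neg (A : Submodule K V) (φ : Module.End K V) :
    A.map (-φ) = A.map φ := by
  apply le_antisymm
  · rintro _ ⟨a, ha, rfl⟩
    exact ⟨-a, neg_mem ha, by simp⟩
  · rintro _ ⟨a, ha, rfl⟩
    exact ⟨-a, neg_mem ha, by simp⟩

theorem te_range_neg (φ : Module.End K V) :
    LinearMap.range (-φ) = LinearMap.range φ := by
  apply le_antisymm
  · rintro _ ⟨a, rfl⟩
    exact ⟨-a, by simp⟩
  · rintro _ ⟨a, rfl⟩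
    exact ⟨-a, by simp⟩

/-! ### the algebra `E` -/

theorem NearStab.one (A : Submodule K V) : NearStab A (1 : Module.End K V) := by
  unfold NearStab
  rw [show (1 : Module.End K V) = LinearMap.id from rfl, Submodule.map_id]
  exact AlmostLE.refl A

theorem NearStab.zero (A : Submodule K V) : NearStab A (0 : Module.End K V) := by
  unfold NearStab
  refine AlmostLE.of_le ?_
  rintro _ ⟨a, -, rfl⟩
  simp

theorem NearStab.of_mapsTo {A : Submodule K V} {φ : Module.End K V} (h : ∀ a ∈ A, φ a ∈ A) :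
    NearStab A φ := by
  refine AlmostLE.of_le ?_
  rintro _ ⟨a, ha, rfl⟩
  exact h a ha

theorem NearStab.mul {A : Submodule K V} {φ ψ : Module.End K V} (hφ : NearStab A φ)
    (hψ : NearStab A ψ) : NearStab A (φ * ψ) := by
  unfold NearStab at *
  rw [te_map_mul]
  exact (hψ.map φ).trans hφ

theorem NearStab.add {A : Submodule K V} {φ ψ : Module.End K V} (hφ : NearStab A φ)
    (hψ : NearStab A ψ) : NearStab A (φ + ψ) :=
  (AlmostLE.sup hφ hψ).mono_left (te_map_add_le A φ ψ)

theorem NearStab.smul {A : Submodule K V} {φ : Module.End K V} (c : K) (hφ : NearStab A φ) :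
    NearStab A (c • φ) :=
  AlmostLE.mono_left hφ (te_map_smul_le A c φ)

theorem NearStab.neg {A : Submodule K V} {φ : Module.End K V} (hφ : NearStab A φ) :
    NearStab A (-φ) := by
  unfold NearStab at *
  rwa [te_map_neg]

theorem NearStab.sub {A : Submodule K V} {φ ψ : Module.End K V} (hφ : NearStab A φ)
    (hψ : NearStab A ψ) : NearStab A (φ - ψ) :=
  (AlmostLE.sup hφ hψ).mono_left (te_map_sub_le A φ ψ)

theorem NearStab.congr {A A' : Submodule K V} (h₁ : AlmostLE A A') (h₂ : AlmostLE A' A)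
    {φ : Module.End K V} (hφ : NearStab A φ) : NearStab A' φ :=
  ((h₂.map φ).trans hφ).trans h₁

/-- a projection onto `A` almost preserves `A` -/
theorem NearStab.of_isProj {A : Submodule K V} {π : Module.End K V}
    (hπ : LinearMap.IsProj A π) : NearStab A π :=
  NearStab.of_mapsTo fun a _ => hπ.map_mem a

/-! ### the ideal `E₀` -/

theorem InE0.add {A : Submodule K V} {θ η : Module.End K V} (h₁ : InE0 A θ) (h₂ : InE0 A η) :
    InE0 A (θ + η) := by
  refine ⟨(AlmostLE.sup h₁.1 h₂.1).mono_left (te_range_add_le θ η), ?_⟩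
  have := h₁.2
  have := h₂.2
  exact Submodule.finiteDimensional_of_le (te_map_add_le A θ η)

theorem InE0.neg {A : Submodule K V} {θ : Module.End K V} (h₁ : InE0 A θ) : InE0 A (-θ) := by
  unfold InE0 at *
  rw [te_range_neg, te_map_neg]
  exact h₁

theorem InE0.sub {A : Submodule K V} {θ η : Module.End K V} (h₁ : InE0 A θ) (h₂ : InE0 A η) :
    InE0 A (θ - η) := by
  rw [sub_eq_add_neg]
  exact h₁.add h₂.neg

theorem InE0.smul {A : Submodule K V} {θ : Module.End K V} (c : K) (h₁ : InE0 A θ) :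
    InE0 A (c • θ) := by
  refine ⟨AlmostLE.mono_left h₁.1 (te_range_smul_le c θ), ?_⟩
  have := h₁.2
  exact Submodule.finiteDimensional_of_le (te_map_smul_le A c θ)

theorem InE0.zero (A : Submodule K V) : InE0 A (0 : Module.End K V) := by
  refine ⟨AlmostLE.of_le ?_, ?_⟩
  · rintro _ ⟨a, rfl⟩
    simp
  · have : A.map (0 : Module.End K V) ≤ ⊥ := by
      rintro _ ⟨a, -, rfl⟩
      simp
    exact Submodule.finiteDimensional_of_le this

theorem InE0.mul_left {A : Submodule K V} {θ η : Module.End K V} (h₁ : InE0 A θ)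
    (h₂ : NearStab A η) : InE0 A (η * θ) := by
  refine ⟨?_, ?_⟩
  · rw [te_range_mul]
    exact (h₁.1.map η).trans h₂
  · rw [te_map_mul]
    have := h₁.2
    infer_instance

theorem InE0.mul_right {A : Submodule K V} {θ η : Module.End K V} (h₁ : InE0 A θ)
    (h₂ : NearStab A η) : InE0 A (θ * η) := by
  refine ⟨AlmostLE.mono_left h₁.1 (te_range_mul_le θ η), ?_⟩
  rw [te_map_mul]
  exact AlmostLE.finiteDimensional_map h₂ h₁.2

theorem InE0.congr {A A' : Submodule K V} (h₁ : AlmostLE A A') (h₂ : AlmostLE A' A)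
    {θ : Module.End K V} (hθ : InE0 A θ) : InE0 A' θ :=
  ⟨hθ.1.trans h₁, AlmostLE.finiteDimensional_map h₂ hθ.2⟩

theorem InE0.of_finiteDimensional_range {A : Submodule K V} {θ : Module.End K V}
    (h : FiniteDimensional K (LinearMap.range θ)) : InE0 A θ := by
  refine ⟨AlmostLE.of_finiteDimensional h A, ?_⟩
  exact Submodule.finiteDimensional_of_le (LinearMap.map_le_range)

theorem InE0.finiteDimensional_range_mul {A : Submodule K V} {θ η : Module.End K V}
    (h₁ : InE0 A θ) (h₂ : InE0 A η) : FiniteDimensional K (LinearMap.range (θ * η)) := by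
  rw [te_range_mul]
  exact AlmostLE.finiteDimensional_map h₂.1 h₁.2

theorem InE0.nearStab {A : Submodule K V} {θ : Module.End K V} (h : InE0 A θ) :
    NearStab A θ :=
  AlmostLE.of_finiteDimensional h.2 A

theorem InE0.isFinPot {A : Submodule K V} {θ : Module.End K V} (h : InE0 A θ) : IsFinPot θ := by
  refine ⟨2, ?_⟩
  rw [pow_two]
  exact h.finiteDimensional_range_mul h

/-! ### the trace on `E₀` -/

/-- the trace is additive on `E₀` -/
theorem fpTrace_add_of_inE0 {A : Submodule K V} {θ η : Module.End K V} (h₁ : InE0 A θ)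
    (h₂ : InE0 A η) : fpTrace (θ + η) = fpTrace θ + fpTrace η :=
  fpTrace_add (h₁.finiteDimensional_range_mul h₁) (h₁.finiteDimensional_range_mul h₂)
    (h₂.finiteDimensional_range_mul h₁) (h₂.finiteDimensional_range_mul h₂)

theorem fpTrace_sub_of_inE0 {A : Submodule K V} {θ η : Module.End K V} (h₁ : InE0 A θ)
    (h₂ : InE0 A η) : fpTrace (θ - η) = fpTrace θ - fpTrace η := by
  rw [sub_eq_add_neg, fpTrace_add_of_inE0 h₁ h₂.neg, fpTrace_neg, sub_eq_add_neg]

/-- `Tr [θ, η] = 0` for `θ ∈ E₀`, `η ∈ E` -/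
theorem fpTrace_mul_comm_of_inE0 {A : Submodule K V} {θ η : Module.End K V} (h₁ : InE0 A θ)
    (h₂ : NearStab A η) : fpTrace (θ * η) = fpTrace (η * θ) :=
  fpTrace_mul_comm (h₁.mul_left h₂).isFinPot

/-- `Tr (θ η − η θ) = 0` for `θ ∈ E₀`, `η ∈ E` -/
theorem fpTrace_commutator_of_inE0 {A : Submodule K V} {θ η : Module.End K V} (h₁ : InE0 A θ)
    (h₂ : NearStab A η) : fpTrace (θ * η - η * θ) = 0 := by
  rw [fpTrace_sub_of_inE0 (h₁.mul_right h₂) (h₁.mul_left h₂), fpTrace_mul_comm_of_inE0 h₁ h₂,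
    sub_self]

/-! ### projections -/

theorem te_isProj_range {A : Submodule K V} {π : Module.End K V} (hπ : LinearMap.IsProj A π) :
    LinearMap.range π = A := by
  apply le_antisymm
  · rintro _ ⟨x, rfl⟩
    exact hπ.map_mem x
  · intro a ha
    exact ⟨a, hπ.map_id a ha⟩

/-- `(1 − π) X` is finite-dimensional if `X ≺ A` and `π` is a projection onto `A` -/
theorem te_finiteDimensional_map_one_sub {A X : Submodule K V} {π : Module.End K V}
    (hπ : LinearMap.IsProj A π) (hX : AlmostLE X A) :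
    FiniteDimensional K (X.map (1 - π)) := by
  refine AlmostLE.finiteDimensional_map hX ?_
  have : A.map (1 - π) ≤ ⊥ := by
    rintro _ ⟨a, ha, rfl⟩
    rw [LinearMap.sub_apply, Module.End.one_apply, hπ.map_id a ha, sub_self]
    exact Submodule.zero_mem _
  exact Submodule.finiteDimensional_of_le this

/-- the difference of two projections onto commensurable subspaces lies in `E₀` -/
theorem inE0_sub_of_isProj {A A' : Submodule K V} (h₁ : AlmostLE A A') (h₂ : AlmostLE A' A)
    {π π' : Module.End K V} (hπ : LinearMap.IsProj A π) (hπ' : LinearMap.IsProj A' π') :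
    InE0 A (π - π') := by
  refine ⟨?_, ?_⟩
  · refine AlmostLE.mono_left ?_ (te_range_sub_le π π')
    rw [te_isProj_range hπ, te_isProj_range hπ']
    exact AlmostLE.sup (AlmostLE.refl A) h₂
  · have hfd := te_finiteDimensional_map_one_sub hπ' h₁
    have hle : A.map (π - π') ≤ A.map (1 - π') := by
      rintro _ ⟨a, ha, rfl⟩
      refine ⟨a, ha, ?_⟩
      rw [LinearMap.sub_apply, LinearMap.sub_apply, Module.End.one_apply, hπ.map_id a ha]
    exact Submodule.finiteDimensional_of_le hle

/-- `[π, ψ] ∈ E₀(A)` for `ψ ∈ E` -/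
theorem inE0_proj_commutator {A : Submodule K V} {π ψ : Module.End K V}
    (hπ : LinearMap.IsProj A π) (hψ : NearStab A ψ) : InE0 A (π * ψ - ψ * π) := by
  refine ⟨?_, ?_⟩
  · refine AlmostLE.mono_left ?_ (te_range_sub_le _ _)
    refine AlmostLE.sup (AlmostLE.of_le ?_) ?_
    · exact (te_range_mul_le π ψ).trans (te_isProj_range hπ).le
    · rw [te_range_mul, te_isProj_range hπ]
      exact hψ
  · have hfd := te_finiteDimensional_map_one_sub hπ hψ
    have hle : A.map (π * ψ - ψ * π) ≤ (A.map ψ).map (1 - π) := by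
      rintro _ ⟨a, ha, rfl⟩
      refine ⟨-ψ a, neg_mem (Submodule.mem_map_of_mem ha), ?_⟩
      rw [LinearMap.sub_apply, LinearMap.sub_apply, Module.End.one_apply, Module.End.mul_apply,
        Module.End.mul_apply, hπ.map_id a ha, map_neg]
      abel
    exact Submodule.finiteDimensional_of_le hle

/-- `[π φ, ψ] ∈ E₀(A)` -/
theorem inE0_commutator {A : Submodule K V} {π φ ψ : Module.End K V}
    (hπ : LinearMap.IsProj A π) (hφ : NearStab A φ) (hψ : NearStab A ψ) (hc : Commute φ ψ) :
    InE0 A (π * φ * ψ - ψ * (π * φ)) := by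
  -- `[π φ, ψ] = [π, ψ] φ`  (as `φ ψ = ψ φ`)
  have h : π * φ * ψ - ψ * (π * φ) = (π * ψ - ψ * π) * φ := by
    rw [sub_mul, mul_assoc π φ ψ, hc.eq, mul_assoc, mul_assoc]
  rw [h]
  exact (inE0_proj_commutator hπ hψ).mul_right hφ

end Fermat.Agent.RRlib

end
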