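/-
Riemann–Roch library (item 65), Part III piece TB2, (B0)–(B3): Tate's abstract residue
`tateRes A φ ψ = Tr [π φ, ψ]`: independence of the projection and of `A` up to commensurability,
bilinearity, Leibniz rule, vanishing when `A` is preserved (helper27).
Blueprint: NOTES/RR_blueprint.md, Part III.
-/
import Mathlib
import Fermat.Agent.RRlib.TateDefs
import Fermat.Agent.RRlib.TateTrace
import Fermat.Agent.RRlib.TateE0

set_option autoImplicit false

noncomputable section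

namespace Fermat.Agent.RRlib

variable {K V : Type*} [Field K] [AddCommGroup V] [Module K V]

/-- the commutator `[π φ, ψ]` whose trace is the residue -/
def resOp (π φ ψ : Module.End K V) : Module.End K V := π * φ * ψ - ψ * (π * φ)

theorem resOp_def (π φ ψ : Module.End K V) : resOp π φ ψ = π * φ * ψ - ψ * (π * φ) := rfl

theorem tateRes_eq_fpTrace_resOp (A : Submodule K V) (φ ψ : Module.End K V) :
    tateRes A φ ψ = fpTrace (resOp (someProj A) φ ψ) := rfl

theorem inE0_resOp {A : Submodule K V} {π φ ψ : Module.End K V}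
    (hπ : LinearMap.IsProj A π) (hφ : NearStab A φ) (hψ : NearStab A ψ) (hc : Commute φ ψ) :
    InE0 A (resOp π φ ψ) :=
  inE0_commutator hπ hφ hψ hc

/-- `[δ φ, ψ]` has trace `0` and lies in `E₀` if `δ ∈ E₀` -/
theorem inE0_resOp_of_inE0 {A : Submodule K V} {δ φ ψ : Module.End K V}
    (hδ : InE0 A δ) (hφ : NearStab A φ) (hψ : NearStab A ψ) :
    InE0 A (resOp δ φ ψ) :=
  ((hδ.mul_right hφ).mul_right hψ).sub ((hδ.mul_right hφ).mul_left hψ)

theorem fpTrace_resOp_of_inE0 {A : Submodule K V} {δ φ ψ : Module.End K V}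
    (hδ : InE0 A δ) (hφ : NearStab A φ) (hψ : NearStab A ψ) :
    fpTrace (resOp δ φ ψ) = 0 :=
  fpTrace_commutator_of_inE0 (hδ.mul_right hφ) hψ

theorem resOp_sub_left (π π' φ ψ : Module.End K V) :
    resOp (π - π') φ ψ = resOp π φ ψ - resOp π' φ ψ := by
  simp only [resOp, sub_mul, mul_sub]
  abel

/-- the trace of `[π φ, ψ]` does not depend on the projection `π` onto (a subspace commensurable
with) `A` -/
theorem fpTrace_resOp_eq {A A' : Submodule K V} (h₁ : AlmostLE A A') (h₂ : AlmostLE A' A)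
    {π π' φ ψ : Module.End K V} (hπ : LinearMap.IsProj A π) (hπ' : LinearMap.IsProj A' π')
    (hφ : NearStab A φ) (hψ : NearStab A ψ) (hc : Commute φ ψ) :
    fpTrace (resOp π φ ψ) = fpTrace (resOp π' φ ψ) := by
  have hδ : InE0 A (π - π') := inE0_sub_of_isProj h₁ h₂ hπ hπ'
  have h' : InE0 A (resOp π' φ ψ) :=
    InE0.congr h₂ h₁ (inE0_resOp hπ' (hφ.congr h₁ h₂) (hψ.congr h₁ h₂) hc)
  have hd : InE0 A (resOp (π - π') φ ψ) := inE0_resOp_of_inE0 hδ hφ hψ
  have hsum : resOp π φ ψ = resOp π' φ ψ + resOp (π - π') φ ψ := by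
    rw [resOp_sub_left]
    abel
  rw [hsum, fpTrace_add_of_inE0 h' hd, fpTrace_resOp_of_inE0 hδ hφ hψ, add_zero]

/-- (B0) independence of the projection, and of `A` up to commensurability -/
theorem tateRes_eq {A A' : Submodule K V} (h₁ : AlmostLE A A') (h₂ : AlmostLE A' A)
    {π' φ ψ : Module.End K V} (hπ' : LinearMap.IsProj A' π') (hφ : NearStab A φ)
    (hψ : NearStab A ψ) (hc : Commute φ ψ) :
    tateRes A φ ψ = fpTrace (π' * φ * ψ - ψ * (π' * φ)) :=
  fpTrace_resOp_eq h₁ h₂ (someProj_isProj A) hπ' hφ hψ hc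

theorem tateRes_congr {A A' : Submodule K V} (h₁ : AlmostLE A A') (h₂ : AlmostLE A' A)
    {φ ψ : Module.End K V} (hφ : NearStab A φ) (hψ : NearStab A ψ) (hc : Commute φ ψ) :
    tateRes A φ ψ = tateRes A' φ ψ :=
  tateRes_eq h₁ h₂ (someProj_isProj A') hφ hψ hc

/-- the residue computed with any projection onto `A` -/
theorem tateRes_eq_of_isProj {A : Submodule K V} {π φ ψ : Module.End K V}
    (hπ : LinearMap.IsProj A π) (hφ : NearStab A φ) (hψ : NearStab A ψ) (hc : Commute φ ψ) :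
    tateRes A φ ψ = fpTrace (π * φ * ψ - ψ * (π * φ)) :=
  tateRes_eq (AlmostLE.refl A) (AlmostLE.refl A) hπ hφ hψ hc

/-! ### (B1) bilinearity -/

theorem resOp_add_mid (π φ₁ φ₂ ψ : Module.End K V) :
    resOp π (φ₁ + φ₂) ψ = resOp π φ₁ ψ + resOp π φ₂ ψ := by
  simp only [resOp, mul_add, add_mul]
  abel

theorem resOp_smul_mid (c : K) (π φ ψ : Module.End K V) :
    resOp π (c • φ) ψ = c • resOp π φ ψ := by
  simp only [resOp, mul_smul_comm, smul_mul_assoc, smul_sub]

theorem resOp_add_right (π φ ψ₁ ψ₂ : Module.End K V) :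
    resOp π φ (ψ₁ + ψ₂) = resOp π φ ψ₁ + resOp π φ ψ₂ := by
  simp only [resOp, mul_add, add_mul]
  abel

theorem resOp_smul_right (c : K) (π φ ψ : Module.End K V) :
    resOp π φ (c • ψ) = c • resOp π φ ψ := by
  simp only [resOp, mul_smul_comm, smul_mul_assoc, smul_sub]

theorem tateRes_add_left {A : Submodule K V} {φ₁ φ₂ ψ : Module.End K V} (h₁ : NearStab A φ₁)
    (h₂ : NearStab A φ₂) (hψ : NearStab A ψ) (hc₁ : Commute φ₁ ψ) (hc₂ : Commute φ₂ ψ) :
    tateRes A (φ₁ + φ₂) ψ = tateRes A φ₁ ψ + tateRes A φ₂ ψ := by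
  rw [tateRes_eq_fpTrace_resOp, resOp_add_mid]
  exact fpTrace_add_of_inE0 (inE0_resOp (someProj_isProj A) h₁ hψ hc₁)
    (inE0_resOp (someProj_isProj A) h₂ hψ hc₂)

set_option linter.unusedVariables false in
theorem tateRes_smul_left {A : Submodule K V} (c : K) {φ ψ : Module.End K V} (h₁ : NearStab A φ)
    (hψ : NearStab A ψ) (hc : Commute φ ψ) :
    tateRes A (c • φ) ψ = c * tateRes A φ ψ := by
  rw [tateRes_eq_fpTrace_resOp, resOp_smul_mid, fpTrace_smul]
  rfl

theorem tateRes_add_right {A : Submodule K V} {φ ψ₁ ψ₂ : Module.End K V} (hφ : NearStab A φ)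
    (h₁ : NearStab A ψ₁) (h₂ : NearStab A ψ₂) (hc₁ : Commute φ ψ₁) (hc₂ : Commute φ ψ₂) :
    tateRes A φ (ψ₁ + ψ₂) = tateRes A φ ψ₁ + tateRes A φ ψ₂ := by
  rw [tateRes_eq_fpTrace_resOp, resOp_add_right]
  exact fpTrace_add_of_inE0 (inE0_resOp (someProj_isProj A) hφ h₁ hc₁)
    (inE0_resOp (someProj_isProj A) hφ h₂ hc₂)

set_option linter.unusedVariables false in
theorem tateRes_smul_right {A : Submodule K V} (c : K) {φ ψ : Module.End K V} (h₁ : NearStab A φ)
    (hψ : NearStab A ψ) (hc : Commute φ ψ) :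
    tateRes A φ (c • ψ) = c * tateRes A φ ψ := by
  rw [tateRes_eq_fpTrace_resOp, resOp_smul_right, fpTrace_smul]
  rfl

/-! ### (B2) Leibniz -/

/-- `[π φ, ψ χ] = [π (φ ψ), χ] + [π (φ χ), ψ] + [[χ, π] φ, ψ]` if `φ χ = χ φ` -/
theorem resOp_mul_right (π φ ψ χ : Module.End K V) (h₂ : Commute φ χ) :
    resOp π φ (ψ * χ) = resOp π (φ * ψ) χ + (resOp π (φ * χ) ψ + resOp (χ * π - π * χ) φ ψ) := by
  have e1 : π * φ * χ * ψ = π * χ * φ * ψ := by rw [mul_assoc π φ χ, h₂.eq, ← mul_assoc]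
  have e2 : ψ * π * φ * χ = ψ * π * χ * φ := by rw [mul_assoc (ψ * π) φ χ, h₂.eq, ← mul_assoc]
  simp only [resOp, sub_mul, mul_sub, ← mul_assoc]
  rw [e1, e2]
  abel

/-- (B2) Leibniz rule: `res (φ d(ψχ)) = res (φψ dχ) + res (φχ dψ)` -/
theorem tateRes_mul_right {A : Submodule K V} {φ ψ χ : Module.End K V} (hφ : NearStab A φ)
    (hψ : NearStab A ψ) (hχ : NearStab A χ) (h₁ : Commute φ ψ) (h₂ : Commute φ χ)
    (h₃ : Commute ψ χ) :
    tateRes A φ (ψ * χ) = tateRes A (φ * ψ) χ + tateRes A (φ * χ) ψ := by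
  have hπ := someProj_isProj A
  have hδ : InE0 A (χ * someProj A - someProj A * χ) := by
    have := (inE0_proj_commutator hπ hχ).neg
    rwa [neg_sub] at this
  have c1 : Commute (φ * ψ) χ := h₂.mul_left h₃
  have c2 : Commute (φ * χ) ψ := h₁.mul_left h₃.symm
  have e1 : InE0 A (resOp (someProj A) (φ * ψ) χ) := inE0_resOp hπ (hφ.mul hψ) hχ c1
  have e2 : InE0 A (resOp (someProj A) (φ * χ) ψ) := inE0_resOp hπ (hφ.mul hχ) hψ c2
  have e3 : InE0 A (resOp (χ * someProj A - someProj A * χ) φ ψ) :=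
    inE0_resOp_of_inE0 hδ hφ hψ
  rw [tateRes_eq_fpTrace_resOp, tateRes_eq_fpTrace_resOp, tateRes_eq_fpTrace_resOp,
    resOp_mul_right _ _ _ _ h₂, fpTrace_add_of_inE0 e1 (e2.add e3), fpTrace_add_of_inE0 e2 e3,
    fpTrace_resOp_of_inE0 hδ hφ hψ, add_zero]

/-! ### (B3) vanishing -/

/-- (B3) the residue vanishes if both operators preserve `A` -/
theorem tateRes_eq_zero_of_mapsTo {A : Submodule K V} {φ ψ : Module.End K V}
    (hφ : ∀ a ∈ A, φ a ∈ A) (hψ : ∀ a ∈ A, ψ a ∈ A) (hc : Commute φ ψ) :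
    tateRes A φ ψ = 0 := by
  have hπ := someProj_isProj A
  set π := someProj A with hπdef
  rw [tateRes_eq_fpTrace_resOp]
  apply fpTrace_eq_zero_of_isNilpotent
  refine ⟨2, ?_⟩
  -- `θ V ⊆ A` and `θ A = 0`
  have hmem : ∀ x : V, resOp π φ ψ x ∈ A := by
    intro x
    rw [resOp_def, LinearMap.sub_apply, Module.End.mul_apply, Module.End.mul_apply,
      Module.End.mul_apply, Module.End.mul_apply]
    exact sub_mem (hπ.map_mem _) (hψ _ (hπ.map_mem _))
  have hzero : ∀ a ∈ A, resOp π φ ψ a = 0 := by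
    intro a ha
    rw [resOp_def, LinearMap.sub_apply, Module.End.mul_apply, Module.End.mul_apply,
      Module.End.mul_apply, Module.End.mul_apply, hπ.map_id _ (hφ _ (hψ a ha)),
      hπ.map_id _ (hφ a ha), ← Module.End.mul_apply φ ψ, hc.eq, Module.End.mul_apply, sub_self]
  apply LinearMap.ext
  intro x
  rw [pow_two, Module.End.mul_apply, LinearMap.zero_apply]
  exact hzero _ (hmem x)

end Fermat.Agent.RRlib

end
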