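/-
Riemann–Roch library (item 65), piece TB2 (B5): localisation of Tate's residue on a direct
summand (helper18).
-/
import Mathlib
import Fermat.Agent.RRlib.TateDefs
import Fermat.Agent.RRlib.TateTrace
import Fermat.Agent.RRlib.TateE0
import Fermat.Agent.RRlib.TateRes

set_option autoImplicit false
set_option linter.unusedVariables false

noncomputable section

namespace Fermat.Agent.RRlib

variable {K V : Type*} [Field K] [AddCommGroup V] [Module K V]

/-- (B5) localisation on a direct summand: `i : V' → V`, `p : V → V'`, `p ∘ i = id`,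
intertwining `(φ', ψ')` with `(φ, ψ)`, `i A' ⊆ A`, `p A ⊆ A'`.  Then
`res^V_A ((i p) φ, ψ) = res^{V'}_{A'} (φ', ψ')`. -/
theorem tateRes_summand {V' : Type*} [AddCommGroup V'] [Module K V']
    {A : Submodule K V} {A' : Submodule K V'} (i : V' →ₗ[K] V) (p : V →ₗ[K] V')
    (hpi : p ∘ₗ i = LinearMap.id) {φ ψ : Module.End K V} {φ' ψ' : Module.End K V'}
    (hiφ : φ ∘ₗ i = i ∘ₗ φ') (hiψ : ψ ∘ₗ i = i ∘ₗ ψ') (hpφ : p ∘ₗ φ = φ' ∘ₗ p)
    (hpψ : p ∘ₗ ψ = ψ' ∘ₗ p) (hiA : ∀ a ∈ A', i a ∈ A) (hpA : ∀ a ∈ A, p a ∈ A')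
    (hφ : NearStab A φ) (hψ : NearStab A ψ) (hc : Commute φ ψ) :
    tateRes A ((i ∘ₗ p) * φ) ψ = tateRes A' φ' ψ' := by
  -- pointwise forms of the hypotheses
  have hpi' : ∀ x, p (i x) = x := fun x => by
    have := congrArg (fun f : V' →ₗ[K] V' => f x) hpi
    simpa using this
  have hiφ' : ∀ x, φ (i x) = i (φ' x) := fun x => by
    have := congrArg (fun f : V' →ₗ[K] V => f x) hiφ
    simpa using this
  have hiψ' : ∀ x, ψ (i x) = i (ψ' x) := fun x => by
    have := congrArg (fun f : V' →ₗ[K] V => f x) hiψ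
    simpa using this
  have hpφ' : ∀ x, p (φ x) = φ' (p x) := fun x => by
    have := congrArg (fun f : V →ₗ[K] V' => f x) hpφ
    simpa using this
  have hpψ' : ∀ x, p (ψ x) = ψ' (p x) := fun x => by
    have := congrArg (fun f : V →ₗ[K] V' => f x) hpψ
    simpa using this
  set e : Module.End K V := i ∘ₗ p with he
  have he_apply : ∀ x, e x = i (p x) := fun x => rfl
  have hπ' := someProj_isProj A'
  set π' := someProj A' with hπ'def
  have hq := someProj_isProj (A ⊓ LinearMap.ker p)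
  set q := someProj (A ⊓ LinearMap.ker p) with hqdef
  -- the adapted projection onto `A`
  set P : Module.End K V := i ∘ₗ π' ∘ₗ p + q * (1 - e) with hP
  have hP_apply : ∀ x, P x = i (π' (p x)) + q (x - i (p x)) := fun x => rfl
  have hPproj : LinearMap.IsProj A P := by
    constructor
    · intro x
      rw [hP_apply]
      exact A.add_mem (hiA _ (hπ'.map_mem _)) (hq.map_mem _).1
    · intro a ha
      rw [hP_apply, hπ'.map_id _ (hpA a ha)]
      have hmem : a - i (p a) ∈ A ⊓ LinearMap.ker p := by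
        refine ⟨A.sub_mem ha (hiA _ (hpA a ha)), ?_⟩
        show p (a - i (p a)) = 0
        rw [map_sub, hpi', sub_self]
      rw [hq.map_id _ hmem]
      abel
  -- `e` preserves `A` and commutes with `ψ`
  have heA : NearStab A e := by
    apply AlmostLE.of_le
    rintro _ ⟨a, ha, rfl⟩
    exact hiA _ (hpA a ha)
  have heφ : NearStab A (e * φ) := heA.mul hφ
  have heψ : e * ψ = ψ * e := by
    ext x
    simp only [Module.End.mul_apply, he_apply]
    rw [hpψ', hiψ']
  have hcomm : Commute (e * φ) ψ := by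
    show e * φ * ψ = ψ * (e * φ)
    rw [mul_assoc, hc.eq, ← mul_assoc, heψ, mul_assoc]
  rw [tateRes_eq (AlmostLE.refl A) (AlmostLE.refl A) hPproj heφ hψ hcomm]
  -- the commutator is `i ∘ θ' ∘ p`
  set θ' : Module.End K V' := π' * φ' * ψ' - ψ' * (π' * φ') with hθ'
  have hkey : P * (e * φ) * ψ - ψ * (P * (e * φ)) = i ∘ₗ (θ' ∘ₗ p) := by
    ext x
    simp only [LinearMap.sub_apply, Module.End.mul_apply, LinearMap.comp_apply, hP_apply,
      he_apply, hθ', hpi', sub_self, map_zero, add_zero, map_sub]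
    rw [hpφ', hpψ', hiψ', hpφ']
  have hE0 : InE0 A (P * (e * φ) * ψ - ψ * (P * (e * φ))) :=
    inE0_commutator hPproj heφ hψ hcomm
  have hfp : IsFinPot (i ∘ₗ (θ' ∘ₗ p)) := by
    rw [← hkey]; exact hE0.isFinPot
  rw [hkey, ← fpTrace_comp_comm i (θ' ∘ₗ p) hfp]
  have : (θ' ∘ₗ p) ∘ₗ i = θ' := by
    rw [LinearMap.comp_assoc, hpi, LinearMap.comp_id]
  rw [this]
  rfl

end Fermat.Agent.RRlib

end
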