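/-
Riemann–Roch library (item 65), piece TB2 (B4): `res (ψ⁻¹ dψ) = dim A / ψ A` (helper18).
-/
import Mathlib
import Fermat.Agent.RRlib.TateDefs
import Fermat.Agent.RRlib.TateTrace

set_option autoImplicit false
set_option linter.unusedVariables false

noncomputable section

namespace Fermat.Agent.RRlib

variable {K V : Type*} [Field K] [AddCommGroup V] [Module K V]

theorem trb_fd_range_mul_left {θ : Module.End K V} (η : Module.End K V)
    (h : FiniteDimensional K (LinearMap.range θ)) :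
    FiniteDimensional K (LinearMap.range (θ * η)) := by
  refine Submodule.finiteDimensional_of_le (S₂ := LinearMap.range θ) ?_
  rintro _ ⟨y, rfl⟩
  exact ⟨η y, rfl⟩

theorem trb_fd_range_mul_right {θ : Module.End K V} (η : Module.End K V)
    (h : FiniteDimensional K (LinearMap.range θ)) :
    FiniteDimensional K (LinearMap.range (η * θ)) := by
  have e : LinearMap.range (η * θ) = (LinearMap.range θ).map η := by
    ext x
    constructor
    · rintro ⟨y, rfl⟩
      exact ⟨θ y, ⟨y, rfl⟩, rfl⟩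
    · rintro ⟨_, ⟨y, rfl⟩, rfl⟩
      exact ⟨y, rfl⟩
  rw [e]
  infer_instance

theorem trb_fd_range_of_le {θ : Module.End K V} (U : Submodule K V) [FiniteDimensional K U]
    (h : ∀ x, θ x ∈ U) : FiniteDimensional K (LinearMap.range θ) := by
  refine Submodule.finiteDimensional_of_le (S₂ := U) ?_
  rintro _ ⟨y, rfl⟩
  exact h y

/-- two projections onto the same subspace differ by an operator of square zero -/
theorem trb_sq_zero_of_isProj {A : Submodule K V} {π₀ π₁ : Module.End K V}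
    (h₀ : LinearMap.IsProj A π₀) (h₁ : LinearMap.IsProj A π₁) :
    (π₀ - π₁) * (π₀ - π₁) = 0 := by
  ext x
  simp only [Module.End.mul_apply, LinearMap.sub_apply, map_sub, LinearMap.zero_apply]
  rw [h₀.map_id _ (h₀.map_mem x), h₀.map_id _ (h₁.map_mem x), h₁.map_id _ (h₀.map_mem x),
    h₁.map_id _ (h₁.map_mem x)]
  abel

theorem trb_isNilpotent_of_isProj {A : Submodule K V} {π₀ π₁ : Module.End K V}
    (h₀ : LinearMap.IsProj A π₀) (h₁ : LinearMap.IsProj A π₁) : IsNilpotent (π₀ - π₁) :=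
  ⟨2, by rw [pow_two]; exact trb_sq_zero_of_isProj h₀ h₁⟩

/-- (B4) `res (ψ⁻¹ dψ) = dim A / ψ A` if `ψ A ⊆ A` -/
theorem tateRes_inv_self {A : Submodule K V} {ψ ψi : Module.End K V} (h₁ : ψ * ψi = 1)
    (h₂ : ψi * ψ = 1) (hψ : ∀ a ∈ A, ψ a ∈ A) (hfin : AlmostLE A (A.map ψ)) :
    Module.Finite K (A ⧸ (A.map ψ).submoduleOf A) ∧
    tateRes A ψi ψ = (Module.finrank K (A ⧸ (A.map ψ).submoduleOf A) : K) := by
  have hπ := someProj_isProj A
  set π := someProj A with hπdef
  have hq := someProj_isProj (A.map ψ)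
  set q := someProj (A.map ψ) with hqdef
  have hA₁ : A.map ψ ≤ A := by
    rintro _ ⟨a, ha, rfl⟩
    exact hψ a ha
  have hψi : ∀ x, ψi (ψ x) = x := fun x => by
    rw [← Module.End.mul_apply, h₂]; rfl
  -- the complement `D`
  set D : Submodule K V := A ⊓ LinearMap.ker q with hD
  obtain ⟨W, hWfd, hW⟩ := hfin
  have hDle : D ≤ W.map (1 - q) := by
    rintro d ⟨hdA, hdq⟩
    obtain ⟨a₁, ha₁, w, hw, rfl⟩ := Submodule.mem_sup.mp (hW hdA)
    refine ⟨w, hw, ?_⟩
    have h1 : q (a₁ + w) = 0 := hdq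
    rw [map_add, hq.map_id a₁ ha₁] at h1
    simp only [LinearMap.sub_apply, Module.End.one_apply]
    rw [eq_sub_of_add_eq h1]
    abel
  have hDfd : FiniteDimensional K D := Submodule.finiteDimensional_of_le hDle
  -- `D ≃ A / ψ A`
  set f : ↥D →ₗ[K] (↥A ⧸ (A.map ψ).submoduleOf A) :=
    ((A.map ψ).submoduleOf A).mkQ ∘ₗ (Submodule.inclusion (inf_le_left : D ≤ A)) with hf
  have hfinj : Function.Injective f := by
    rw [← LinearMap.ker_eq_bot, LinearMap.ker_eq_bot']
    rintro ⟨d, hdA, hdq⟩ hd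
    rw [hf, LinearMap.comp_apply, Submodule.mkQ_apply, Submodule.Quotient.mk_eq_zero] at hd
    have hd1 : d ∈ A.map ψ := hd
    have hd2 : q d = 0 := hdq
    rw [hq.map_id d hd1] at hd2
    exact Subtype.ext hd2
  have hfsurj : Function.Surjective f := by
    intro y
    obtain ⟨⟨a, ha⟩, rfl⟩ := Submodule.mkQ_surjective _ y
    have hqa : q a ∈ A.map ψ := hq.map_mem a
    have hmem : a - q a ∈ D := by
      refine ⟨A.sub_mem ha (hA₁ hqa), ?_⟩
      show q (a - q a) = 0
      rw [map_sub, hq.map_id _ hqa, sub_self]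
    refine ⟨⟨a - q a, hmem⟩, ?_⟩
    rw [hf, LinearMap.comp_apply, Submodule.mkQ_apply, Submodule.mkQ_apply,
      Submodule.Quotient.eq]
    show (a - q a) - a ∈ A.map ψ
    have : (a - q a) - a = -(q a) := by abel
    rw [this]
    exact (A.map ψ).neg_mem hqa
  set e : ↥D ≃ₗ[K] (↥A ⧸ (A.map ψ).submoduleOf A) := LinearEquiv.ofBijective f ⟨hfinj, hfsurj⟩
  have hfinQ : Module.Finite K (↥A ⧸ (A.map ψ).submoduleOf A) := Module.Finite.equiv e
  refine ⟨hfinQ, ?_⟩
  rw [← e.finrank_eq]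
  -- the two pieces
  set θ₁ : Module.End K V := π - q * π with hθ₁
  set θ₂ : Module.End K V := q * π - ψ * π * ψi with hθ₂
  have hθ₁proj : LinearMap.IsProj D θ₁ := by
    constructor
    · intro x
      have hqπ : q (π x) ∈ A.map ψ := hq.map_mem _
      refine ⟨?_, ?_⟩
      · simp only [hθ₁, LinearMap.sub_apply, Module.End.mul_apply]
        exact A.sub_mem (hπ.map_mem x) (hA₁ hqπ)
      · show q (θ₁ x) = 0
        simp only [hθ₁, LinearMap.sub_apply, Module.End.mul_apply, map_sub]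
        rw [hq.map_id _ hqπ, sub_self]
    · rintro x ⟨hxA, hxq⟩
      simp only [hθ₁, LinearMap.sub_apply, Module.End.mul_apply]
      rw [hπ.map_id x hxA]
      have : q x = 0 := hxq
      rw [this, sub_zero]
  have hπ₀ : LinearMap.IsProj (A.map ψ) (q * π) := by
    constructor
    · intro x; exact hq.map_mem _
    · intro x hx
      rw [Module.End.mul_apply, hπ.map_id x (hA₁ hx), hq.map_id x hx]
  have hπ₁ : LinearMap.IsProj (A.map ψ) (ψ * π * ψi) := by
    constructor
    · intro x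
      exact ⟨π (ψi x), hπ.map_mem _, rfl⟩
    · rintro _ ⟨a, ha, rfl⟩
      simp only [Module.End.mul_apply]
      rw [hψi, hπ.map_id a ha]
  have hθ₂nil : IsNilpotent θ₂ := trb_isNilpotent_of_isProj hπ₀ hπ₁
  have hθ₂sq : θ₂ * θ₂ = 0 := trb_sq_zero_of_isProj hπ₀ hπ₁
  have hθ₁fd : FiniteDimensional K (LinearMap.range θ₁) :=
    trb_fd_range_of_le D (fun x => hθ₁proj.map_mem x)
  have hcomm : someProj A * ψi * ψ - ψ * (someProj A * ψi) = θ₁ + θ₂ := by
    rw [mul_assoc, h₂, mul_one, ← mul_assoc]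
    simp only [hθ₁, hθ₂]
    abel
  unfold tateRes
  rw [hcomm, fpTrace_add (trb_fd_range_mul_left θ₁ hθ₁fd) (trb_fd_range_mul_left θ₂ hθ₁fd)
    (trb_fd_range_mul_right θ₂ hθ₁fd) (by rw [hθ₂sq, LinearMap.range_zero]; infer_instance),
    fpTrace_eq_zero_of_isNilpotent hθ₂nil, add_zero, fpTrace_of_isProj hθ₁proj]

end Fermat.Agent.RRlib

end
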