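/-
Riemann–Roch library (item 65), piece TB2 (B6): Tate's abstract residue theorem (helper18).
-/
import Mathlib
import Fermat.Agent.RRlib.TateDefs
import Fermat.Agent.RRlib.TateTrace
import Fermat.Agent.RRlib.TateResB4
import Fermat.Agent.RRlib.TateE0
import Fermat.Agent.RRlib.TateRes

set_option autoImplicit false
set_option linter.unusedVariables false

noncomputable section

namespace Fermat.Agent.RRlib

variable {K V : Type*} [Field K] [AddCommGroup V] [Module K V]

/-- a complement of `A` inside `B` when `A ⊔ B = ⊤` -/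
theorem trb_exists_isCompl_le {A B : Submodule K V} (h : A ⊔ B = ⊤) :
    ∃ C : Submodule K V, C ≤ B ∧ IsCompl A C := by
  obtain ⟨⟨C, hCB⟩, hC⟩ := exists_isCompl (⟨A ⊓ B, Set.mem_Iic.mpr inf_le_right⟩ : Set.Iic B)
  have hCB' : C ≤ B := hCB
  have hdisj : (A ⊓ B) ⊓ C = ⊥ := by
    have := hC.inf_eq_bot
    exact congrArg Subtype.val this
  have hsup : (A ⊓ B) ⊔ C = B := by
    have := hC.sup_eq_top
    exact congrArg Subtype.val this
  refine ⟨C, hCB', ?_⟩
  constructor
  · rw [disjoint_iff]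
    have : A ⊓ C = (A ⊓ B) ⊓ C := by
      rw [inf_assoc, inf_eq_right.mpr hCB']
    rw [this, hdisj]
  · rw [codisjoint_iff, eq_top_iff, ← h]
    refine sup_le le_sup_left ?_
    calc B = (A ⊓ B) ⊔ C := hsup.symm
      _ ≤ A ⊔ C := sup_le_sup_right inf_le_left C

/-- the trace of a commutator with a finite-rank operator vanishes -/
theorem trb_fpTrace_commutator_finrank {P φ ψ : Module.End K V}
    (hP : FiniteDimensional K (LinearMap.range P)) :
    fpTrace (P * φ * ψ - ψ * (P * φ)) = 0 := by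
  have hX : FiniteDimensional K (LinearMap.range (P * φ * ψ)) := by
    rw [mul_assoc]; exact trb_fd_range_mul_left _ hP
  have hPφ : FiniteDimensional K (LinearMap.range (P * φ)) := trb_fd_range_mul_left _ hP
  have hY : FiniteDimensional K (LinearMap.range (-(ψ * (P * φ)))) := by
    rw [LinearMap.range_neg]
    exact trb_fd_range_mul_right _ hPφ
  rw [sub_eq_add_neg, fpTrace_add (trb_fd_range_mul_left _ hX) (trb_fd_range_mul_left _ hX)
    (trb_fd_range_mul_left _ hY) (trb_fd_range_mul_left _ hY), fpTrace_neg,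
    fpTrace_mul_comm (φ := P * φ) (ψ := ψ) (isFinPot_of_finiteDimensional_range hX)]
  ring

/-- (B6) the abstract residue theorem: if `B` is preserved by `φ` and `ψ`, `A ∩ B` is
finite-dimensional and `A + B` has finite codimension, then `res_A (φ dψ) = 0`. -/
theorem tateRes_eq_zero_of_compl {A B : Submodule K V} {φ ψ : Module.End K V}
    (hφ : NearStab A φ) (hψ : NearStab A ψ) (hc : Commute φ ψ)
    (hφB : ∀ b ∈ B, φ b ∈ B) (hψB : ∀ b ∈ B, ψ b ∈ B)
    (hinf : FiniteDimensional K ↥(A ⊓ B)) (hsup : AlmostLE ⊤ (A ⊔ B)) :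
    tateRes A φ ψ = 0 := by
  obtain ⟨W₀, hW₀fd, hW₀⟩ := hsup
  -- a finite-dimensional complement `W` of `A ⊔ B`
  obtain ⟨W, hW⟩ := (A ⊔ B).exists_isCompl
  have hWfd : FiniteDimensional K W := by
    have hle : W ≤ W₀.map (W.projection (A ⊔ B) hW.symm) := by
      intro w hw
      have hw' : w ∈ (A ⊔ B) ⊔ W₀ := hW₀ Submodule.mem_top
      obtain ⟨x, hx, w₀, hw₀, rfl⟩ := Submodule.mem_sup.mp hw'
      refine ⟨w₀, hw₀, ?_⟩
      have h1 : W.projection (A ⊔ B) hW.symm (x + w₀) = x + w₀ :=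
        Submodule.projection_apply_of_mem_left hW.symm hw
      have h2 : W.projection (A ⊔ B) hW.symm x = 0 :=
        (Submodule.projection_apply_eq_zero_iff hW.symm).mpr hx
      rw [map_add, h2, zero_add] at h1
      exact h1
    exact Submodule.finiteDimensional_of_le hle
  set A' : Submodule K V := A ⊔ W with hA'
  have hAA' : AlmostLE A A' := AlmostLE.of_le le_sup_left
  have hA'A : AlmostLE A' A := ⟨W, hWfd, le_refl _⟩
  have htop : A' ⊔ B = ⊤ := by
    rw [hA', sup_right_comm]
    exact hW.sup_eq_top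
  have hL : A' ⊓ B = A ⊓ B := by
    apply le_antisymm
    · rintro x ⟨hxA', hxB⟩
      obtain ⟨a, ha, w, hw, rfl⟩ := Submodule.mem_sup.mp hxA'
      have hw0 : w ∈ (A ⊔ B) ⊓ W := by
        refine ⟨?_, hw⟩
        have : w = (a + w) - a := by abel
        rw [this]
        exact Submodule.sub_mem _ (Submodule.mem_sup_right hxB) (Submodule.mem_sup_left ha)
      rw [hW.inf_eq_bot, Submodule.mem_bot] at hw0
      subst hw0
      rw [add_zero] at hxB ⊢
      exact ⟨ha, hxB⟩
    · exact inf_le_inf_right B le_sup_left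
  have hLfd : FiniteDimensional K ↥(A' ⊓ B) := by rw [hL]; exact hinf
  -- the projections
  obtain ⟨C, hCB, hC⟩ := trb_exists_isCompl_le htop
  obtain ⟨A'', hA''A, hA''⟩ := trb_exists_isCompl_le (A := B) (B := A') (by rw [sup_comm]; exact htop)
  set P₁ : Module.End K V := A'.projection C hC with hP₁
  set P₂ : Module.End K V := B.projection A'' hA'' with hP₂
  have hP₁proj : LinearMap.IsProj A' P₁ :=
    ⟨fun x => Submodule.projection_apply_mem hC x,
      fun x hx => Submodule.projection_apply_of_mem_left hC hx⟩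
  have hP₂proj : LinearMap.IsProj B P₂ :=
    ⟨fun x => Submodule.projection_apply_mem hA'' x,
      fun x hx => Submodule.projection_apply_of_mem_left hA'' hx⟩
  set P₃ : Module.End K V := P₁ + P₂ - 1 with hP₃
  have hP₃mem : ∀ x, P₃ x ∈ A' ⊓ B := by
    intro x
    constructor
    · have e : P₃ x = P₁ x - (x - P₂ x) := by
        simp only [hP₃, LinearMap.sub_apply, LinearMap.add_apply, Module.End.one_apply]; abel
      rw [e]
      exact A'.sub_mem (hP₁proj.map_mem x) (hA''A (Submodule.sub_projection_mem hA'' x))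
    · have e : P₃ x = P₂ x - (x - P₁ x) := by
        simp only [hP₃, LinearMap.sub_apply, LinearMap.add_apply, Module.End.one_apply]; abel
      rw [e]
      exact B.sub_mem (hP₂proj.map_mem x) (hCB (Submodule.sub_projection_mem hC x))
  have hP₃fd : FiniteDimensional K (LinearMap.range P₃) :=
    trb_fd_range_of_le (A' ⊓ B) hP₃mem
  set θ₁ : Module.End K V := P₁ * φ * ψ - ψ * (P₁ * φ) with hθ₁
  set θ₂ : Module.End K V := P₂ * φ * ψ - ψ * (P₂ * φ) with hθ₂
  set θ₃ : Module.End K V := P₃ * φ * ψ - ψ * (P₃ * φ) with hθ₃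
  have hsum : θ₁ = θ₃ + -θ₂ := by
    have hc' : φ * ψ = ψ * φ := hc.eq
    simp only [hθ₁, hθ₂, hθ₃, hP₃]
    simp only [sub_mul, add_mul, mul_sub, mul_add, one_mul]
    rw [hc']
    abel
  -- `θ₂² = 0`
  have hθ₂B : ∀ x, θ₂ x ∈ B := by
    intro x
    simp only [hθ₂, LinearMap.sub_apply, Module.End.mul_apply]
    exact B.sub_mem (hP₂proj.map_mem _) (hψB _ (hP₂proj.map_mem _))
  have hθ₂kill : ∀ b ∈ B, θ₂ b = 0 := by
    intro b hb
    simp only [hθ₂, LinearMap.sub_apply, Module.End.mul_apply]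
    rw [hP₂proj.map_id _ (hφB _ (hψB b hb)), hP₂proj.map_id _ (hφB b hb)]
    have : φ (ψ b) = ψ (φ b) := by
      have := congrArg (fun f : Module.End K V => f b) hc.eq
      simpa [Module.End.mul_apply] using this
    rw [this, sub_self]
  have hθ₂sq : θ₂ * θ₂ = 0 := by
    ext x
    rw [Module.End.mul_apply, hθ₂kill _ (hθ₂B x)]
    rfl
  have hθ₂nil : IsNilpotent (-θ₂) := ⟨2, by rw [pow_two, neg_mul_neg]; exact hθ₂sq⟩
  have hθ₃fd : FiniteDimensional K (LinearMap.range θ₃) := by
    have hX : FiniteDimensional K (LinearMap.range (P₃ * φ * ψ)) := by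
      rw [mul_assoc]; exact trb_fd_range_mul_left _ hP₃fd
    have hY : FiniteDimensional K (LinearMap.range (ψ * (P₃ * φ))) :=
      trb_fd_range_mul_right _ (trb_fd_range_mul_left _ hP₃fd)
    refine Submodule.finiteDimensional_of_le
      (S₂ := LinearMap.range (P₃ * φ * ψ) ⊔ LinearMap.range (ψ * (P₃ * φ))) ?_
    rintro _ ⟨y, rfl⟩
    simp only [hθ₃, LinearMap.sub_apply]
    exact Submodule.sub_mem _ (Submodule.mem_sup_left ⟨y, rfl⟩) (Submodule.mem_sup_right ⟨y, rfl⟩)
  rw [tateRes_eq hAA' hA'A hP₁proj hφ hψ hc]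
  change fpTrace θ₁ = 0
  rw [hsum, fpTrace_add (trb_fd_range_mul_left _ hθ₃fd) (trb_fd_range_mul_left _ hθ₃fd)
    (trb_fd_range_mul_right _ hθ₃fd) (by
      rw [neg_mul_neg, hθ₂sq, LinearMap.range_zero]; infer_instance),
    fpTrace_eq_zero_of_isNilpotent hθ₂nil, add_zero]
  exact trb_fpTrace_commutator_finrank hP₃fd

end Fermat.Agent.RRlib

end
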