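/-
Riemann–Roch library (item 65), piece TC2: the global residue on the repartition ring, its
localisation, and the residue theorem (helper16).
-/
import Mathlib
import Fermat.Agent.RRlib.Basic
import Fermat.Agent.RRlib.LocalQuot
import Fermat.Agent.RRlib.LFinite
import Fermat.Agent.RRlib.H1Finite
import Fermat.Agent.RRlib.TateTrace
import Fermat.Agent.RRlib.TateE0
import Fermat.Agent.RRlib.TateRes
import Fermat.Agent.RRlib.TateResB5
import Fermat.Agent.RRlib.TateResB6
import Fermat.Agent.RRlib.TateCurveDefs

set_option autoImplicit false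

noncomputable section

namespace Fermat.Agent.RRlib

open AlgebraicCurve WithZero

/-! ### generic linear algebra -/

section Generic

variable {K V : Type*} [Field K] [AddCommGroup V] [Module K V]

/-- if the image of `X` in `V / Y` is finite-dimensional then `X` is almost contained in `Y` -/
theorem tg_almostLE_of_finite_map_mkQ (X Y : Submodule K V)
    (h : Module.Finite K ↥(X.map Y.mkQ)) : AlmostLE X Y := by
  classical
  have hfg : (X.map Y.mkQ).FG := Module.Finite.iff_fg.mp h
  obtain ⟨t, ht⟩ := hfg
  have hmem : ∀ q ∈ t, ∃ x : V, x ∈ X ∧ Y.mkQ x = q := by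
    intro q hq
    have : q ∈ X.map Y.mkQ := by
      rw [← ht]; exact Submodule.subset_span hq
    obtain ⟨x, hx, rfl⟩ := this
    exact ⟨x, hx, rfl⟩
  choose! lift hliftX hlift using hmem
  refine ⟨Submodule.span K (lift '' (t : Set (V ⧸ Y))), ?_, ?_⟩
  · exact FiniteDimensional.span_of_finite K ((Finset.finite_toSet t).image lift)
  · have h1 : X.map Y.mkQ ≤ (Submodule.span K (lift '' (t : Set (V ⧸ Y)))).map Y.mkQ := by
      rw [← ht, Submodule.span_le]
      intro q hq
      exact ⟨lift q, Submodule.subset_span ⟨q, hq, rfl⟩, hlift q hq⟩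
    calc X ≤ Submodule.comap Y.mkQ (X.map Y.mkQ) := Submodule.le_comap_map _ _
      _ ≤ Submodule.comap Y.mkQ
            ((Submodule.span K (lift '' (t : Set (V ⧸ Y)))).map Y.mkQ) :=
          Submodule.comap_mono h1
      _ = Y ⊔ Submodule.span K (lift '' (t : Set (V ⧸ Y))) := Submodule.comap_map_mkQ _ _

/-- orthogonality: `res (φ dψ) = 0` if `φ ψ = 0` -/
theorem tg_tateRes_eq_zero_of_mul_eq_zero (A : Submodule K V) {φ ψ : Module.End K V}
    (h : φ * ψ = 0) : tateRes A φ ψ = 0 := by
  have h0 : someProj A * φ * ψ = 0 := by rw [mul_assoc, h, mul_zero]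
  have hfp : IsFinPot ((someProj A * φ) * ψ) := by
    rw [h0]
    exact ⟨1, by rw [pow_one, LinearMap.range_zero]; infer_instance⟩
  have hc := fpTrace_mul_comm hfp
  rw [h0, fpTrace_zero] at hc
  rw [tateRes, h0, zero_sub, fpTrace_neg, hc, neg_zero]

end Generic

variable {K F : Type*} [Field K] [Field F] [Algebra K F]

/-! ### the multiplication operators -/

theorem mulA_mul (α β : ↥(repartitions K F)) : mulA (α * β) = mulA α * mulA β := by
  ext γ
  simp [mulA]

theorem mulA_add (α β : ↥(repartitions K F)) : mulA (α + β) = mulA α + mulA β := by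
  ext γ
  simp [mulA, add_mul]

theorem mulA_commute (α β : ↥(repartitions K F)) : Commute (mulA α) (mulA β) := by
  show mulA α * mulA β = mulA β * mulA α
  rw [← mulA_mul, ← mulA_mul, mul_comm]

theorem mulA_zero : mulA (0 : ↥(repartitions K F)) = 0 := by
  ext γ
  simp [mulA]

theorem tg_coe_mul (α β : ↥(repartitions K F)) (v : Place K F) :
    ((α * β : ↥(repartitions K F)) : Place K F → F) v
      = (α : Place K F → F) v * (β : Place K F → F) v := rfl

theorem tg_mem_zero_iff (α : ↥(repartitions K F)) :
    α ∈ repartitionsOf (0 : Divisor K F) ↔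
      ∀ v : Place K F, (α : Place K F → F) v ∈ v.toValuationSubring := by
  constructor
  · intro h v
    have := h v
    simp only [Finsupp.coe_zero, Pi.zero_apply, exp_zero] at this
    rcases v.adicValuation_le_one_iff.mp this with h0 | h0
    · rw [h0]; exact zero_mem _
    · exact Fermat.Agent.S24lib.ffMem_of_ord_nonneg v h0
  · intro h v
    simp only [Finsupp.coe_zero, Pi.zero_apply, exp_zero]
    exact v.adicValuation_le_one_of_mem (h v)

theorem tg_mulA_mapsTo {α : ↥(repartitions K F)}
    (hα : ∀ v : Place K F, (α : Place K F → F) v ∈ v.toValuationSubring) :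
    ∀ β ∈ repartitionsOf (0 : Divisor K F), mulA α β ∈ repartitionsOf (0 : Divisor K F) := by
  intro β hβ
  rw [tg_mem_zero_iff] at hβ ⊢
  intro v
  rw [mulA_apply, tg_coe_mul]
  exact mul_mem (hα v) (hβ v)

theorem nearStab_mulA [RRBase K F] (α : ↥(repartitions K F)) :
    NearStab (repartitionsOf (0 : Divisor K F)) (mulA α) := by
  obtain ⟨D, hD⟩ := exists_mem_repartitionsOf (K := K) α
  have h0 : (0 : Divisor K F) ≤ D ⊔ 0 := le_sup_right
  have hfin := (finrank_repartitionsOf_quot (K := K) h0).1
  obtain ⟨W, hW, hle⟩ := tg_almostLE_of_finite_map_mkQ _ _ hfin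
  refine ⟨W, hW, le_trans ?_ hle⟩
  rintro _ ⟨β, hβ, rfl⟩
  intro v
  have hα := hD v
  have hβ' := hβ v
  simp only [Finsupp.coe_zero, Pi.zero_apply, exp_zero] at hβ'
  show v.adicValuation ((α : Place K F → F) v * (β : Place K F → F) v) ≤ exp ((D ⊔ 0) v)
  rw [map_mul]
  calc v.adicValuation ((α : Place K F → F) v) * v.adicValuation ((β : Place K F → F) v)
      ≤ exp (D v) * 1 := mul_le_mul' hα hβ'
    _ = exp (D v) := mul_one _
    _ ≤ exp ((D ⊔ 0) v) := by
        rw [exp_le_exp, Finsupp.sup_apply]
        exact le_sup_left

/-! ### the global residue of two functions vanishes -/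

theorem tg_finite_inf [RRBase K F] :
    FiniteDimensional K ↥(repartitionsOf (0 : Divisor K F) ⊓ principalRepartitions K F) := by
  have h1 : repartitionsOf (0 : Divisor K F) ⊓ principalRepartitions K F
      = (riemannRochSpace (0 : Divisor K F)).map (lf_constRepLin K) := by
    ext α
    rw [mem_inf_principal_iff, Submodule.mem_map]
    constructor
    · rintro ⟨f, hf, rfl⟩
      exact ⟨f, hf, rfl⟩
    · rintro ⟨f, hf, rfl⟩
      exact ⟨f, hf, rfl⟩
  rw [h1]
  have := finite_riemannRochSpace (K := K) (0 : Divisor K F)
  infer_instance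

theorem tg_almost_top [RRHyp K F] :
    AlmostLE (⊤ : Submodule K ↥(repartitions K F))
      (repartitionsOf (0 : Divisor K F) ⊔ principalRepartitions K F) := by
  apply tg_almostLE_of_finite_map_mkQ
  have : Module.Finite K (H1 (0 : Divisor K F)) := finite_H1 0
  exact Module.Finite.of_injective (Submodule.subtype _) (Submodule.subtype_injective _)

/-- the global residue of two functions vanishes (Tate's (B6) with `B = F`) -/
theorem tateRes_const_const [RRHyp K F] (h g : F) :
    tateRes (repartitionsOf (0 : Divisor K F)) (mulA (constRep K h)) (mulA (constRep K g)) = 0 := by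
  refine tateRes_eq_zero_of_compl (B := principalRepartitions K F) (nearStab_mulA _)
    (nearStab_mulA _) (mulA_commute _ _) ?_ ?_ tg_finite_inf tg_almost_top
  · intro b hb
    obtain ⟨f, rfl⟩ := exists_constRep_of_mem_principal hb
    rw [mulA_apply]
    exact mem_principalRepartitions_iff.mpr ⟨h * f, rfl⟩
  · intro b hb
    obtain ⟨f, rfl⟩ := exists_constRep_of_mem_principal hb
    rw [mulA_apply]
    exact mem_principalRepartitions_iff.mpr ⟨g * f, rfl⟩

/-! ### localisation -/

/-- evaluation at a place, as a `K`-linear map -/
def tg_eval (v : Place K F) : ↥(repartitions K F) →ₗ[K] F where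
  toFun α := (α : Place K F → F) v
  map_add' _ _ := rfl
  map_smul' _ _ := rfl

/-- extension by zero, as a `K`-linear map -/
def tg_ext (v : Place K F) : F →ₗ[K] ↥(repartitions K F) where
  toFun f := lq_single v f
  map_add' f g := by
    apply Subtype.ext
    funext w
    by_cases h : w = v
    · subst h
      simp [coe_add_repartitions, lq_single_apply_self]
    · simp [coe_add_repartitions, lq_single_apply_ne _ _ h]
  map_smul' c f := by
    apply Subtype.ext
    funext w
    by_cases h : w = v
    · subst h
      simp [coe_ksmul_repartitions, lq_single_apply_self]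
    · simp [coe_ksmul_repartitions, lq_single_apply_ne _ _ h]

theorem tg_eval_ext (v : Place K F) : tg_eval v ∘ₗ tg_ext v = LinearMap.id := by
  ext f
  exact lq_single_apply_self v f

theorem tg_ext_eval (v : Place K F) :
    tg_ext v ∘ₗ tg_eval v = mulA (lq_single v (1 : F)) := by
  ext γ w
  show (lq_single v ((γ : Place K F → F) v) : Place K F → F) w
    = (lq_single v (1 : F) : Place K F → F) w * (γ : Place K F → F) w
  by_cases h : w = v
  · subst h
    simp [lq_single_apply_self]
  · simp [lq_single_apply_ne _ _ h]

theorem tg_single_mul (v : Place K F) (x : F) (α : ↥(repartitions K F)) :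
    lq_single v x * α = lq_single v (x * (α : Place K F → F) v) := by
  apply Subtype.ext
  funext w
  rw [tg_coe_mul]
  by_cases h : w = v
  · subst h
    simp [lq_single_apply_self]
  · simp [lq_single_apply_ne _ _ h]

/-- the local piece of the global residue -/
theorem tg_tateRes_single [RRBase K F] (v : Place K F) (α β : ↥(repartitions K F)) :
    tateRes (repartitionsOf (0 : Divisor K F)) (mulA (lq_single v (1 : F) * α))
        (mulA (lq_single v (1 : F) * β))
      = resAt v ((α : Place K F → F) v) ((β : Place K F → F) v) := by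
  have key := tateRes_summand (A := repartitionsOf (0 : Divisor K F)) (A' := placeSub v)
    (tg_ext v) (tg_eval v) (tg_eval_ext v)
    (φ := mulA (lq_single v (1 : F) * α)) (ψ := mulA (lq_single v (1 : F) * β))
    (φ' := mulF K ((α : Place K F → F) v)) (ψ' := mulF K ((β : Place K F → F) v))
    (by
      ext f w
      show ((lq_single v (1 : F) * α) * lq_single v f : ↥(repartitions K F)).1 w
        = (lq_single v ((α : Place K F → F) v * f) : Place K F → F) w
      by_cases h : w = v
      · subst h
        simp [tg_coe_mul, lq_single_apply_self]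
      · simp [tg_coe_mul, lq_single_apply_ne _ _ h])
    (by
      ext f w
      show ((lq_single v (1 : F) * β) * lq_single v f : ↥(repartitions K F)).1 w
        = (lq_single v ((β : Place K F → F) v * f) : Place K F → F) w
      by_cases h : w = v
      · subst h
        simp [tg_coe_mul, lq_single_apply_self]
      · simp [tg_coe_mul, lq_single_apply_ne _ _ h])
    (by
      ext γ
      show ((lq_single v (1 : F) * α) * γ : ↥(repartitions K F)).1 v
        = (α : Place K F → F) v * (γ : Place K F → F) v
      simp [tg_coe_mul, lq_single_apply_self])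
    (by
      ext γ
      show ((lq_single v (1 : F) * β) * γ : ↥(repartitions K F)).1 v
        = (β : Place K F → F) v * (γ : Place K F → F) v
      simp [tg_coe_mul, lq_single_apply_self])
    (by
      intro a ha
      rw [tg_mem_zero_iff]
      intro w
      show (lq_single v a : Place K F → F) w ∈ w.toValuationSubring
      by_cases h : w = v
      · subst h
        rw [lq_single_apply_self]
        exact ha
      · rw [lq_single_apply_ne _ _ h]
        exact zero_mem _)
    (by
      intro a ha
      rw [tg_mem_zero_iff] at ha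
      exact ha v)
    (nearStab_mulA _) (nearStab_mulA _) (mulA_commute _ _)
  rw [tg_ext_eval, ← mulA_mul, ← mul_assoc] at key
  have hidem : lq_single v (1 : F) * lq_single v (1 : F) = lq_single v (1 : F) := by
    rw [tg_single_mul, lq_single_apply_self, mul_one]
  rw [hidem] at key
  exact key

/-- the global residue is the sum of the local residues (two repartitions) -/
theorem tateRes_mulA_eq_sum [RRBase K F] (S : Finset (Place K F)) :
    ∀ (α β : ↥(repartitions K F)),
      (∀ v, v ∉ S → (α : Place K F → F) v ∈ v.toValuationSubring ∧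
        (β : Place K F → F) v ∈ v.toValuationSubring) →
      tateRes (repartitionsOf (0 : Divisor K F)) (mulA α) (mulA β)
        = ∑ v ∈ S, resAt v ((α : Place K F → F) v) ((β : Place K F → F) v) := by
  classical
  induction S using Finset.induction_on with
  | empty =>
    intro α β h
    rw [Finset.sum_empty]
    exact tateRes_eq_zero_of_mapsTo (tg_mulA_mapsTo fun v => (h v (Finset.notMem_empty v)).1)
      (tg_mulA_mapsTo fun v => (h v (Finset.notMem_empty v)).2) (mulA_commute _ _)
  | insert v₀ S hv₀ ih =>
    intro α β h
    set δ : ↥(repartitions K F) := lq_single v₀ (1 : F) with hδ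
    have hδδ : δ * δ = δ := by
      rw [hδ, tg_single_mul, lq_single_apply_self, mul_one]
    have hα : α = δ * α + (1 - δ) * α := by ring
    have hβ : β = δ * β + (1 - δ) * β := by ring
    have horth1 : mulA (δ * α) * mulA ((1 - δ) * β) = 0 := by
      rw [← mulA_mul]
      have : δ * α * ((1 - δ) * β) = (δ - δ * δ) * (α * β) := by ring
      rw [this, hδδ, sub_self, zero_mul, mulA_zero]
    have horth2 : mulA ((1 - δ) * α) * mulA (δ * β) = 0 := by
      rw [← mulA_mul]
      have : (1 - δ) * α * (δ * β) = (δ - δ * δ) * (α * β) := by ring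
      rw [this, hδδ, sub_self, zero_mul, mulA_zero]
    have e1 : tateRes (repartitionsOf (0 : Divisor K F)) (mulA α) (mulA β)
        = tateRes (repartitionsOf (0 : Divisor K F)) (mulA (δ * α)) (mulA (δ * β))
          + tateRes (repartitionsOf (0 : Divisor K F)) (mulA ((1 - δ) * α))
              (mulA ((1 - δ) * β)) := by
      conv_lhs => rw [hα, mulA_add]
      rw [tateRes_add_left (nearStab_mulA _) (nearStab_mulA _) (nearStab_mulA _)
        (mulA_commute _ _) (mulA_commute _ _)]
      conv_lhs => rw [hβ, mulA_add]
      rw [tateRes_add_right (nearStab_mulA _) (nearStab_mulA _) (nearStab_mulA _)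
        (mulA_commute _ _) (mulA_commute _ _),
        tateRes_add_right (nearStab_mulA _) (nearStab_mulA _) (nearStab_mulA _)
        (mulA_commute _ _) (mulA_commute _ _),
        tg_tateRes_eq_zero_of_mul_eq_zero _ horth1, tg_tateRes_eq_zero_of_mul_eq_zero _ horth2]
      ring
    have hval : ∀ (γ : ↥(repartitions K F)) (w : Place K F),
        (((1 - δ) * γ : ↥(repartitions K F)) : Place K F → F) w
          = if w = v₀ then 0 else (γ : Place K F → F) w := by
      intro γ w
      have h1 : (((1 - δ) * γ : ↥(repartitions K F)) : Place K F → F) w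
          = (1 - (δ : Place K F → F) w) * (γ : Place K F → F) w := rfl
      rw [h1]
      by_cases hw : w = v₀
      · subst hw
        simp [hδ, lq_single_apply_self]
      · simp [hδ, lq_single_apply_ne _ _ hw, hw]
    have e2 := ih ((1 - δ) * α) ((1 - δ) * β) (by
      intro w hw
      rw [hval, hval]
      by_cases hw0 : w = v₀
      · simp [hw0, zero_mem]
      · simp only [hw0, if_false]
        exact h w (by simp [hw0, hw]))
    rw [e1, tg_tateRes_single, e2, Finset.sum_insert hv₀]
    congr 1
    refine Finset.sum_congr rfl fun w hw => ?_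
    have hne : w ≠ v₀ := fun h => hv₀ (h ▸ hw)
    rw [hval, hval, if_neg hne, if_neg hne]

/-- the global residue is the sum of the local residues -/
theorem tateRes_eq_sum [RRBase K F] (α : ↥(repartitions K F)) (g : F) (S : Finset (Place K F))
    (hS : ∀ v, v ∉ S → (α : Place K F → F) v ∈ v.toValuationSubring ∧ g ∈ v.toValuationSubring) :
    tateRes (repartitionsOf (0 : Divisor K F)) (mulA α) (mulA (constRep K g))
      = ∑ v ∈ S, resAt v ((α : Place K F → F) v) g :=
  tateRes_mulA_eq_sum S α (constRep K g) hS

/-- **the residue theorem** -/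
theorem sum_resAt_eq_zero [RRHyp K F] (h g : F) (S : Finset (Place K F))
    (hS : ∀ v, v ∉ S → h ∈ v.toValuationSubring ∧ g ∈ v.toValuationSubring) :
    ∑ v ∈ S, resAt v h g = 0 := by
  rw [← tateRes_const_const (K := K) h g]
  exact (tateRes_eq_sum (constRep K h) g S hS).symm

end Fermat.Agent.RRlib

end
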