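/-
Riemann–Roch library (item 65), Part III, piece TC1 (helper25): the local residue
`resAt v f g = res_v (f dg)` (Tate's residue on `V = F`, `A = O_v`), and the residue of a Kähler
differential at a place.  Blueprint: NOTES/RR_blueprint.md, Part III.
Helper lemmas are prefixed `tl_`.
-/
import Mathlib
import Fermat.Agent.RRlib.Defs
import Fermat.Agent.RRlib.Basic
import Fermat.Agent.RRlib.TateDefs
import Fermat.Agent.RRlib.TateCurveDefs
import Fermat.Agent.RRlib.TateRes
import Fermat.Agent.RRlib.TateResB4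
import Fermat.Agent.S24lib.FFBasic
import Fermat.Prelude.Def_AlgebraicCurve_CanonicalDivisor

set_option autoImplicit false

noncomputable section

namespace Fermat.Agent.RRlib

open AlgebraicCurve KaehlerDifferential Fermat.Agent.S24lib

variable {K F : Type*} [Field K] [Field F] [Algebra K F]

/-! ### the filtration by pole order at `v` -/

/-- subtracting the leading term: if `ord x ≥ -(n+1)` then `x - c t^{-(n+1)}` has
`ord ≥ -n` for a suitable constant `c`. -/
theorem tl_step [RRBase K F] (v : Place K F) {t : F} (ht : v.ord t = 1) (n : ℤ) {x : F}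
    (hx : x = 0 ∨ -(n + 1) ≤ v.ord x) :
    ∃ c : K, x - c • t ^ (-(n + 1)) = 0 ∨ -n ≤ v.ord (x - c • t ^ (-(n + 1))) := by
  have ht0 : t ≠ 0 := by
    rintro rfl
    simp at ht
  have hp0 : t ^ (n + 1) ≠ 0 := zpow_ne_zero _ ht0
  have hq0 : t ^ (-(n + 1)) ≠ 0 := zpow_ne_zero _ ht0
  have hqord : v.ord (t ^ (-(n + 1))) = -(n + 1) := by
    rw [v.ord_zpow, ht, mul_one]
  have hb : x * t ^ (n + 1) ∈ v.toValuationSubring := by
    rcases hx with h | h
    · rw [h, zero_mul]; exact zero_mem _
    · rw [ffMem_iff_ord_nonneg]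
      by_cases hx0 : x = 0
      · rw [hx0, zero_mul]; simp
      · rw [v.ord_mul hx0 hp0, v.ord_zpow, ht, mul_one]
        omega
  obtain ⟨c, hc⟩ := RRBase.residue_surjective (K := K) v
    (IsLocalRing.residue v.toValuationSubring ⟨x * t ^ (n + 1), hb⟩)
  refine ⟨c, ?_⟩
  have hmem : (⟨x * t ^ (n + 1), hb⟩ - algebraMap K v.toValuationSubring c :
      v.toValuationSubring) ∈ IsLocalRing.maximalIdeal v.toValuationSubring := by
    rw [← Ideal.Quotient.eq_zero_iff_mem]
    have : (Ideal.Quotient.mk (IsLocalRing.maximalIdeal v.toValuationSubring))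
        (⟨x * t ^ (n + 1), hb⟩ - algebraMap K v.toValuationSubring c)
        = IsLocalRing.residue v.toValuationSubring ⟨x * t ^ (n + 1), hb⟩
          - algebraMap K v.ResidueField c := by
      rw [map_sub]; rfl
    rw [this, hc]
    exact sub_self _
  have hrew : x - c • t ^ (-(n + 1))
      = (x * t ^ (n + 1) - algebraMap K F c) * t ^ (-(n + 1)) := by
    rw [sub_mul, mul_assoc, ← zpow_add₀ ht0, Algebra.smul_def]
    simp
  by_cases hz : x * t ^ (n + 1) - algebraMap K F c = 0
  · left
    rw [hrew, hz, zero_mul]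
  · right
    rw [hrew, v.ord_mul hz hq0, hqord]
    have hz' : (⟨x * t ^ (n + 1), hb⟩ - algebraMap K v.toValuationSubring c :
        v.toValuationSubring) ≠ 0 := by
      intro h0
      apply hz
      have := congrArg (Subtype.val) h0
      simpa using this
    have hpos := ffOrd_pos_of_mem_maximalIdeal v hmem hz'
    have hcoe : ((⟨x * t ^ (n + 1), hb⟩ - algebraMap K v.toValuationSubring c :
        v.toValuationSubring) : F) = x * t ^ (n + 1) - algebraMap K F c := by
      simp
    rw [hcoe] at hpos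
    omega

/-- the span of `t⁻¹, …, t⁻ⁿ` -/
def tl_polar (K : Type*) {F : Type*} [Field K] [Field F] [Algebra K F] (t : F) (n : ℕ) :
    Submodule K F :=
  Submodule.span K (Set.range fun i : Fin n => t ^ (-((i : ℕ) + 1 : ℤ)))

theorem tl_polar_finite (t : F) (n : ℕ) : FiniteDimensional K (tl_polar K t n) :=
  FiniteDimensional.span_of_finite K (Set.finite_range _)

theorem tl_polar_mono (t : F) {m n : ℕ} (h : m ≤ n) : tl_polar K t m ≤ tl_polar K t n := by
  refine Submodule.span_mono ?_
  rintro _ ⟨i, rfl⟩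
  exact ⟨⟨i, lt_of_lt_of_le i.2 h⟩, rfl⟩

theorem tl_mem_polar (t : F) (n : ℕ) : t ^ (-((n : ℤ) + 1)) ∈ tl_polar K t (n + 1) :=
  Submodule.subset_span ⟨⟨n, Nat.lt_succ_self n⟩, rfl⟩

/-- `{ord ≥ -n} ⊆ O_v + span(t⁻¹, …, t⁻ⁿ)` -/
theorem tl_decomp [RRBase K F] (v : Place K F) {t : F} (ht : v.ord t = 1) (n : ℕ) :
    ∀ x : F, (x = 0 ∨ -(n : ℤ) ≤ v.ord x) → x ∈ placeSub v ⊔ tl_polar K t n := by
  induction n with
  | zero =>
    intro x hx
    refine Submodule.mem_sup_left ?_
    rw [mem_placeSub]
    rcases hx with rfl | hx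
    · exact zero_mem _
    · exact ffMem_of_ord_nonneg v (by simpa using hx)
  | succ n ih =>
    intro x hx
    obtain ⟨c, hc⟩ := tl_step v ht (n : ℤ) (x := x) (by push_cast at hx; exact hx)
    have h1 := ih _ hc
    have h2 : c • t ^ (-((n : ℤ) + 1)) ∈ placeSub v ⊔ tl_polar K t (n + 1) :=
      Submodule.mem_sup_right (Submodule.smul_mem _ c (tl_mem_polar t n))
    have h3 : x - c • t ^ (-((n : ℤ) + 1)) ∈ placeSub v ⊔ tl_polar K t (n + 1) :=
      (sup_le_sup_left (tl_polar_mono t (Nat.le_succ n)) _) h1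
    have := Submodule.add_mem _ h3 h2
    rwa [sub_add_cancel] at this

theorem tl_exists_uniformizer (v : Place K F) : ∃ t : F, v.ord t = 1 := by
  obtain ⟨π, hπ⟩ := ffExistsIrreducible v
  exact ⟨π, v.ord_coe_irreducible hπ⟩

theorem nearStab_mulF [RRBase K F] (v : Place K F) (f : F) :
    NearStab (placeSub v) (mulF K f) := by
  obtain ⟨t, ht⟩ := tl_exists_uniformizer v
  refine ⟨tl_polar K t (-v.ord f).toNat, tl_polar_finite t _, ?_⟩
  rintro _ ⟨x, hx, rfl⟩
  apply tl_decomp v ht
  rw [mulF_apply]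
  by_cases h0 : f * x = 0
  · exact Or.inl h0
  right
  have hf0 : f ≠ 0 := left_ne_zero_of_mul h0
  have hx0 : x ≠ 0 := right_ne_zero_of_mul h0
  have hxo : 0 ≤ v.ord x := ffOrd_nonneg_of_mem v hx
  rw [v.ord_mul hf0 hx0]
  have := Int.self_le_toNat (-v.ord f)
  omega

/-! ### algebra of the multiplication operators -/

theorem tl_mulF_add (f g : F) : mulF K (f + g) = mulF K f + mulF K g := by
  ext x; simp [add_mul]

theorem tl_mulF_smul (c : K) (f : F) : mulF K (c • f) = c • mulF K f := by
  ext x; simp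

theorem tl_mulF_mul (f g : F) : mulF K (f * g) = mulF K f * mulF K g := by
  ext x; simp [mul_assoc]

theorem tl_mulF_one : mulF K (1 : F) = 1 := by
  ext x; simp

theorem tl_mulF_commute (f g : F) : Commute (mulF K f) (mulF K g) := by
  show mulF K f * mulF K g = mulF K g * mulF K f
  rw [← tl_mulF_mul, ← tl_mulF_mul, mul_comm]

/-! ### bilinearity, Leibniz, vanishing -/

theorem resAt_add_left [RRBase K F] (v : Place K F) (f₁ f₂ g : F) :
    resAt v (f₁ + f₂) g = resAt v f₁ g + resAt v f₂ g := by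
  rw [resAt, tl_mulF_add]
  exact tateRes_add_left (nearStab_mulF v f₁) (nearStab_mulF v f₂) (nearStab_mulF v g)
    (tl_mulF_commute f₁ g) (tl_mulF_commute f₂ g)

theorem resAt_smul_left [RRBase K F] (v : Place K F) (c : K) (f g : F) :
    resAt v (c • f) g = c * resAt v f g := by
  rw [resAt, tl_mulF_smul]
  exact tateRes_smul_left c (nearStab_mulF v f) (nearStab_mulF v g) (tl_mulF_commute f g)

theorem resAt_add_right [RRBase K F] (v : Place K F) (f g₁ g₂ : F) :
    resAt v f (g₁ + g₂) = resAt v f g₁ + resAt v f g₂ := by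
  rw [resAt, tl_mulF_add]
  exact tateRes_add_right (nearStab_mulF v f) (nearStab_mulF v g₁) (nearStab_mulF v g₂)
    (tl_mulF_commute f g₁) (tl_mulF_commute f g₂)

theorem resAt_smul_right [RRBase K F] (v : Place K F) (c : K) (f g : F) :
    resAt v f (c • g) = c * resAt v f g := by
  rw [resAt, tl_mulF_smul]
  exact tateRes_smul_right c (nearStab_mulF v f) (nearStab_mulF v g) (tl_mulF_commute f g)

/-- Leibniz -/
theorem resAt_mul_right [RRBase K F] (v : Place K F) (f g h : F) :
    resAt v f (g * h) = resAt v (f * g) h + resAt v (f * h) g := by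
  rw [resAt, resAt, resAt, tl_mulF_mul, tl_mulF_mul, tl_mulF_mul]
  exact tateRes_mul_right (nearStab_mulF v f) (nearStab_mulF v g) (nearStab_mulF v h)
    (tl_mulF_commute f g) (tl_mulF_commute f h) (tl_mulF_commute g h)

theorem resAt_eq_zero_of_mem [RRBase K F] (v : Place K F) {f g : F}
    (hf : f ∈ v.toValuationSubring) (hg : g ∈ v.toValuationSubring) : resAt v f g = 0 :=
  tateRes_eq_zero_of_mapsTo (A := placeSub v)
    (fun _ ha => v.toValuationSubring.mul_mem _ _ hf ha)
    (fun _ ha => v.toValuationSubring.mul_mem _ _ hg ha) (tl_mulF_commute f g)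

theorem resAt_one_right [RRBase K F] (v : Place K F) (f : F) : resAt v f 1 = 0 := by
  have h := resAt_mul_right v f 1 1
  rw [mul_one, mul_one] at h
  exact left_eq_add.mp h

/-! ### `res_v (dt / t) = 1` -/

/-- `O_v = t O_v + K` -/
theorem tl_mem_decomp [RRBase K F] (v : Place K F) {t : F} (ht : v.ord t = 1) {x : F}
    (hx : x ∈ v.toValuationSubring) :
    ∃ c : K, ∃ y ∈ v.toValuationSubring, x = t * y + algebraMap K F c := by
  have ht0 : t ≠ 0 := by
    rintro rfl
    simp at ht
  have hx' : x = 0 ∨ -((-1 : ℤ) + 1) ≤ v.ord x := by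
    right
    have := ffOrd_nonneg_of_mem v hx
    omega
  obtain ⟨c, hc⟩ := tl_step v ht (-1) hx'
  simp only [neg_add_cancel, neg_zero, zpow_zero, neg_neg] at hc
  refine ⟨c, (x - c • (1 : F)) / t, ?_, ?_⟩
  · rcases hc with h | h
    · rw [h, zero_div]; exact zero_mem _
    · by_cases h0 : x - c • (1 : F) = 0
      · rw [h0, zero_div]; exact zero_mem _
      · rw [ffMem_iff_ord_nonneg, div_eq_mul_inv, v.ord_mul h0 (inv_ne_zero ht0), v.ord_inv, ht]
        omega
  · rw [mul_div_cancel₀ _ ht0, Algebra.smul_def, mul_one]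
    ring

theorem tl_one_not_mem [RRBase K F] (v : Place K F) {t : F} (ht : v.ord t = 1) {y : F}
    (hy : y ∈ v.toValuationSubring) : t * y ≠ 1 := by
  have ht0 : t ≠ 0 := by
    rintro rfl
    simp at ht
  intro h
  have hy0 : y ≠ 0 := by
    rintro rfl
    simp at h
  have h1 := v.ord_mul ht0 hy0
  rw [h, v.ord_one, ht] at h1
  have := ffOrd_nonneg_of_mem v hy
  omega

/-- `res_v (dt / t) = 1` -/
theorem resAt_inv_self [RRBase K F] (v : Place K F) {t : F} (ht : v.ord t = 1) :
    resAt v t⁻¹ t = 1 := by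
  have ht0 : t ≠ 0 := by
    rintro rfl
    simp at ht
  have htm : t ∈ v.toValuationSubring := ffMem_of_ord_nonneg v (by omega)
  have h1 : mulF K t * mulF K t⁻¹ = 1 := by
    rw [← tl_mulF_mul, mul_inv_cancel₀ ht0, tl_mulF_one]
  have h2 : mulF K t⁻¹ * mulF K t = 1 := by
    rw [← tl_mulF_mul, inv_mul_cancel₀ ht0, tl_mulF_one]
  have hstab : ∀ a ∈ placeSub v, mulF K t a ∈ placeSub v :=
    fun a ha => v.toValuationSubring.mul_mem _ _ htm ha
  have hfin : AlmostLE (placeSub v) ((placeSub v).map (mulF K t)) := by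
    refine ⟨Submodule.span K {(1 : F)}, FiniteDimensional.span_singleton K 1, ?_⟩
    intro x hx
    obtain ⟨c, y, hy, rfl⟩ := tl_mem_decomp v ht hx
    refine Submodule.add_mem_sup ⟨y, hy, rfl⟩ ?_
    rw [Algebra.algebraMap_eq_smul_one]
    exact Submodule.smul_mem _ c (Submodule.mem_span_singleton_self 1)
  obtain ⟨hq, hres⟩ := tateRes_inv_self h1 h2 hstab hfin
  rw [resAt, hres]
  have hone : (1 : F) ∈ placeSub v := one_mem v.toValuationSubring
  have key : Module.finrank K (↥(placeSub v) ⧸
      ((placeSub v).map (mulF K t)).submoduleOf (placeSub v)) = 1 := by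
    rw [finrank_eq_one_iff_of_nonzero'
      (Submodule.Quotient.mk (⟨1, hone⟩ : ↥(placeSub v)))]
    · intro w
      obtain ⟨⟨x, hx⟩, rfl⟩ := Submodule.Quotient.mk_surjective _ w
      obtain ⟨c, y, hy, hxy⟩ := tl_mem_decomp v ht hx
      refine ⟨c, ?_⟩
      rw [← Submodule.Quotient.mk_smul, Submodule.Quotient.eq]
      show c • (1 : F) - x ∈ (placeSub v).map (mulF K t)
      refine ⟨-y, neg_mem (S := Submodule K F) hy, ?_⟩
      show t * (-y) = c • (1 : F) - x
      rw [hxy, Algebra.smul_def, mul_one]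
      ring
    · intro h0
      rw [Submodule.Quotient.mk_eq_zero] at h0
      obtain ⟨y, hy, hy1⟩ := (show (1 : F) ∈ (placeSub v).map (mulF K t) from h0)
      exact tl_one_not_mem v ht hy hy1
  rw [key, Nat.cast_one]

/-! ### the residue of a Kähler differential -/

/-- `F →ₗ[K] K` with the `F`-module structure `(a • φ)(x) = φ(a x)` -/
def TLDual (K F : Type*) [Field K] [Field F] [Algebra K F] : Type _ := F →ₗ[K] K

namespace TLDual

instance instAddCommGroup : AddCommGroup (TLDual K F) :=
  inferInstanceAs (AddCommGroup (F →ₗ[K] K))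

instance instModuleBase : Module K (TLDual K F) := inferInstanceAs (Module K (F →ₗ[K] K))

/-- the underlying linear form -/
def toLin : TLDual K F ≃ₗ[K] (F →ₗ[K] K) := LinearEquiv.refl K _

/-- a linear form as an element of `TLDual` -/
def ofLin : (F →ₗ[K] K) ≃ₗ[K] TLDual K F := LinearEquiv.refl K _

@[simp] theorem toLin_ofLin (φ : F →ₗ[K] K) : toLin (ofLin φ) = φ := rfl

@[simp] theorem ofLin_toLin (φ : TLDual K F) : ofLin (toLin φ) = φ := rfl

theorem ext_toLin {φ ψ : TLDual K F} (h : ∀ x, toLin φ x = toLin ψ x) : φ = ψ :=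
  LinearMap.ext h

instance instModuleF : Module F (TLDual K F) where
  smul a φ := ofLin (toLin φ ∘ₗ LinearMap.mulLeft K a)
  one_smul φ := ext_toLin fun x => by
    show toLin φ (1 * x) = toLin φ x
    rw [one_mul]
  mul_smul a b φ := ext_toLin fun x => by
    show toLin φ (a * b * x) = toLin φ (b * (a * x))
    rw [mul_comm a b, mul_assoc]
  smul_zero a := ext_toLin fun x => rfl
  smul_add a φ ψ := ext_toLin fun x => rfl
  add_smul a b φ := ext_toLin fun x => by
    show toLin φ ((a + b) * x) = toLin φ (a * x) + toLin φ (b * x)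
    rw [add_mul, map_add]
  zero_smul φ := ext_toLin fun x => by
    show toLin φ (0 * x) = 0
    rw [zero_mul, map_zero]

theorem toLin_smul (a : F) (φ : TLDual K F) (x : F) : toLin (a • φ) x = toLin φ (a * x) := rfl

theorem toLin_add (φ ψ : TLDual K F) (x : F) : toLin (φ + ψ) x = toLin φ x + toLin ψ x := rfl

instance instIsScalarTower : IsScalarTower K F (TLDual K F) where
  smul_assoc c a φ := ext_toLin fun x => by
    show toLin φ (c • a * x) = c • toLin φ (a * x)
    rw [smul_mul_assoc, map_smul]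

/-- evaluation at `1` -/
def evalOne : TLDual K F →ₗ[K] K := LinearMap.applyₗ (1 : F) ∘ₗ toLin.toLinearMap

theorem evalOne_apply (φ : TLDual K F) : evalOne φ = toLin φ 1 := rfl

end TLDual

/-- `g ↦ (f ↦ res_v (f dg))` as a `K`-derivation of `F` -/
def tl_resDer [RRBase K F] (v : Place K F) : Derivation K F (TLDual K F) where
  toLinearMap :=
    { toFun := fun g => TLDual.ofLin
        { toFun := fun f => resAt v f g
          map_add' := fun f₁ f₂ => resAt_add_left v f₁ f₂ g
          map_smul' := fun c f => resAt_smul_left v c f g }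
      map_add' := fun g₁ g₂ => TLDual.ext_toLin fun f => resAt_add_right v f g₁ g₂
      map_smul' := fun c g => TLDual.ext_toLin fun f => resAt_smul_right v c f g }
  map_one_eq_zero' := TLDual.ext_toLin fun f => resAt_one_right v f
  leibniz' := fun a b => TLDual.ext_toLin fun f => by
    show resAt v f (a * b) = resAt v (a * f) b + resAt v (b * f) a
    rw [resAt_mul_right, mul_comm a f, mul_comm b f]

theorem tl_resDer_apply [RRBase K F] (v : Place K F) (g f : F) :
    TLDual.toLin (tl_resDer v g) f = resAt v f g := rfl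

/-- the residue of a Kähler differential at `v` -/
theorem exists_resDiff [RRBase K F] (v : Place K F) :
    ∃ L : Ω[F⁄K] →ₗ[K] K, ∀ f g : F, L (f • D K F g) = resAt v f g := by
  refine ⟨TLDual.evalOne ∘ₗ (tl_resDer v).liftKaehlerDifferential.restrictScalars K, ?_⟩
  intro f g
  rw [LinearMap.comp_apply, LinearMap.restrictScalars_apply, map_smul,
    Derivation.liftKaehlerDifferential_comp_D, TLDual.evalOne_apply, TLDual.toLin_smul,
    mul_one, tl_resDer_apply]

def resDiff [RRBase K F] (v : Place K F) : Ω[F⁄K] →ₗ[K] K := (exists_resDiff v).choose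

theorem resDiff_smul_D [RRBase K F] (v : Place K F) (f g : F) :
    resDiff v (f • D K F g) = resAt v f g := (exists_resDiff v).choose_spec f g

/-- the coordinate differential is `dt` for a uniformizer `t` -/
theorem tl_dCoord (v : Place K F) : ∃ t : F, v.ord t = 1 ∧ v.dCoord = D K F t :=
  ⟨_, v.ord_coe_irreducible
    (IsDiscreteValuationRing.exists_irreducible v.toValuationSubring).choose_spec, rfl⟩

theorem resDiff_eq_zero_of_ordDifferential_nonneg [RRBase K F] (v : Place K F)
    [v.DCoordGenerates] [Nontrivial Ω[F⁄K]] {η : Ω[F⁄K]} (h : 0 ≤ v.ordDifferential η) :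
    resDiff v η = 0 := by
  obtain ⟨t, ht, hd⟩ := tl_dCoord v
  rw [← v.differentialCoeff_smul_dCoord η, hd, resDiff_smul_D]
  exact resAt_eq_zero_of_mem v (ffMem_of_ord_nonneg v h) (ffMem_of_ord_nonneg v (by omega))

theorem resDiff_ne_zero_of_ordDifferential [RRBase K F] (v : Place K F)
    [v.DCoordGenerates] [Nontrivial Ω[F⁄K]] {η : Ω[F⁄K]} (h : v.ordDifferential η = -1) :
    resDiff v η ≠ 0 := by
  obtain ⟨t, ht, hd⟩ := tl_dCoord v
  have ht0 : t ≠ 0 := by
    rintro rfl
    simp at ht
  have htm : t ∈ v.toValuationSubring := ffMem_of_ord_nonneg v (by omega)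
  set a : F := v.differentialCoeff η with ha
  have hord : v.ord a = -1 := h
  have ha0 : a ≠ 0 := by
    intro h0
    rw [h0, v.ord_zero] at hord
    omega
  rw [← v.differentialCoeff_smul_dCoord η, hd, resDiff_smul_D, ← ha]
  -- `a = c t⁻¹ + a₀`
  have hx : a = 0 ∨ -((0 : ℤ) + 1) ≤ v.ord a := Or.inr (by omega)
  obtain ⟨c, hc⟩ := tl_step v ht 0 hx
  simp only [zero_add, zpow_neg, zpow_one, neg_zero] at hc
  have hmem : a - c • t⁻¹ ∈ v.toValuationSubring := by
    rcases hc with h0 | h0
    · rw [h0]; exact zero_mem _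
    · exact ffMem_of_ord_nonneg v h0
  have hc0 : c ≠ 0 := by
    rintro rfl
    rw [zero_smul, sub_zero] at hmem
    have := ffOrd_nonneg_of_mem v hmem
    omega
  have hsplit : a = c • t⁻¹ + (a - c • t⁻¹) := by ring
  rw [hsplit, resAt_add_left, resAt_smul_left, resAt_inv_self v ht,
    resAt_eq_zero_of_mem v hmem htm, mul_one, add_zero]
  exact hc0

end Fermat.Agent.RRlib

end
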