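/-
Riemann–Roch library (item 65), piece TC3: Kähler canonical divisors are canonical divisors in
Weil's sense (helper16).  The corollary `genus K F = genusFF K F` is in KaehlerGenus.lean.
-/
import Mathlib
import Fermat.Agent.RRlib.Basic
import Fermat.Agent.RRlib.LocalQuot
import Fermat.Agent.RRlib.TateRes
import Fermat.Agent.RRlib.TateLocal
import Fermat.Agent.RRlib.TateGlobal
import Fermat.Prelude.Def_AlgebraicCurve_CanonicalDivisor

set_option autoImplicit false

noncomputable section

namespace Fermat.Agent.RRlib

open AlgebraicCurve KaehlerDifferential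

variable {K F : Type*} [Field K] [Field F] [Algebra K F]

/-- the Weil differential attached to `h dg`: `α ↦ Res (α h dg)` -/
def kl_weil [RRBase K F] (h g : F) : Module.Dual K ↥(repartitions K F) where
  toFun α := tateRes (repartitionsOf (0 : Divisor K F)) (mulA (α * constRep K h))
    (mulA (constRep K g))
  map_add' α β := by
    rw [add_mul, mulA_add]
    exact tateRes_add_left (nearStab_mulA _) (nearStab_mulA _) (nearStab_mulA _)
      (mulA_commute _ _) (mulA_commute _ _)
  map_smul' c α := by
    have : mulA (c • α * constRep K h) = c • mulA (α * constRep K h) := by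
      ext γ w
      show ((c • α * constRep K h) * γ : ↥(repartitions K F)).1 w
        = (c • ((α * constRep K h) * γ) : ↥(repartitions K F)).1 w
      rw [smul_mul_assoc, smul_mul_assoc]
    rw [this, tateRes_smul_left c (nearStab_mulA _) (nearStab_mulA _) (mulA_commute _ _)]
    rfl

theorem kl_weil_apply [RRBase K F] (h g : F) (α : ↥(repartitions K F)) :
    kl_weil h g α = tateRes (repartitionsOf (0 : Divisor K F)) (mulA (α * constRep K h))
      (mulA (constRep K g)) := rfl

/-- a finite set of places outside of which `α h` and `g` are integral -/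
theorem kl_exists_finset [RRBase K F] (α : ↥(repartitions K F)) (h g : F) :
    ∃ S : Finset (Place K F), ∀ v, v ∉ S →
      ((α * constRep K h : ↥(repartitions K F)) : Place K F → F) v ∈ v.toValuationSubring ∧
        g ∈ v.toValuationSubring := by
  classical
  have h1 := finite_poles (K := K) (α * constRep K h)
  have h2 := finite_poles (K := K) (constRep K g)
  refine ⟨h1.toFinset ∪ h2.toFinset, fun v hv => ?_⟩
  simp only [Finset.mem_union, Set.Finite.mem_toFinset, Set.mem_ofPred_eq, not_or, not_lt] at hv
  exact ⟨Fermat.Agent.S24lib.ffMem_of_ord_nonneg v hv.1,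
    Fermat.Agent.S24lib.ffMem_of_ord_nonneg v hv.2⟩

/-- `Res (α h dg)` as a sum of local residues of the Kähler differential `η = h dg` -/
theorem kl_weil_eq_sum [RRBase K F] (h g : F) (α : ↥(repartitions K F)) (S : Finset (Place K F))
    (hS : ∀ v, v ∉ S →
      ((α * constRep K h : ↥(repartitions K F)) : Place K F → F) v ∈ v.toValuationSubring ∧
        g ∈ v.toValuationSubring) :
    kl_weil h g α = ∑ v ∈ S, resDiff v (((α : Place K F → F) v) • (h • D K F g)) := by
  rw [kl_weil_apply, tateRes_eq_sum _ g S hS]
  refine Finset.sum_congr rfl fun v _ => ?_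
  rw [smul_smul, resDiff_smul_D]
  rfl

theorem kl_ordDifferential_smul (v : Place K F) [v.DCoordGenerates] [Nontrivial Ω[F⁄K]]
    {η : Ω[F⁄K]} (hη : η ≠ 0) {c : F} (hc : c ≠ 0) :
    v.ordDifferential (c • η) = v.ord c + v.ordDifferential η := by
  refine v.ordDifferential_smul hc ?_
  intro h0
  apply hη
  rw [← v.differentialCoeff_smul_dCoord η, h0, zero_smul]

/-- local vanishing -/
theorem kl_resDiff_eq_zero [RRBase K F] (v : Place K F) [v.DCoordGenerates]
    [Nontrivial Ω[F⁄K]] {η : Ω[F⁄K]} (hη : η ≠ 0) {c : F}
    (hc : c = 0 ∨ -v.ordDifferential η ≤ v.ord c) : resDiff v (c • η) = 0 := by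
  rcases eq_or_ne c 0 with rfl | hc0
  · rw [zero_smul, map_zero]
  · apply resDiff_eq_zero_of_ordDifferential_nonneg
    rw [kl_ordDifferential_smul v hη hc0]
    rcases hc with h | h
    · exact absurd h hc0
    · omega

theorem kl_exists_ord_eq (v : Place K F) (n : ℤ) : ∃ x : F, x ≠ 0 ∧ v.ord x = n := by
  obtain ⟨π, hπ⟩ := IsDiscreteValuationRing.exists_irreducible v.toValuationSubring
  have hπ0 : (π : F) ≠ 0 := by
    intro h
    have := v.ord_coe_irreducible hπ
    rw [h, v.ord_zero] at this
    omega
  refine ⟨(π : F) ^ n, zpow_ne_zero n hπ0, ?_⟩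
  rw [v.ord_zpow, v.ord_coe_irreducible hπ, mul_one]

/-- **Kähler canonical divisors are canonical in Weil's sense.** -/
theorem isCanonicalDivisor_of_kaehler [RRHyp K F] [Nontrivial Ω[F⁄K]]
    (hgen : ∀ v : Place K F, v.DCoordGenerates) {η : Ω[F⁄K]} (hη : η ≠ 0) (W : Divisor K F)
    (hW : ∀ v : Place K F, W v = v.ordDifferential η) : IsCanonicalDivisor W := by
  classical
  -- write η = h dg
  obtain ⟨v₀⟩ := RRBase.nonempty_place (K := K) (F := F)
  have := hgen v₀
  obtain ⟨h, hh⟩ := v₀.exists_eq_smul_dCoord η
  obtain ⟨g, hg⟩ : ∃ g : F, v₀.dCoord = D K F g := ⟨_, rfl⟩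
  rw [hg] at hh
  -- the Weil differential
  set ω : Module.Dual K ↥(repartitions K F) := kl_weil h g with hω
  have hsum : ∀ (α : ↥(repartitions K F)) (S : Finset (Place K F)),
      (∀ v, v ∉ S →
        ((α * constRep K h : ↥(repartitions K F)) : Place K F → F) v ∈ v.toValuationSubring ∧
          g ∈ v.toValuationSubring) →
      ω α = ∑ v ∈ S, resDiff v (((α : Place K F → F) v) • η) := by
    intro α S hS
    rw [hω, kl_weil_eq_sum h g α S hS, hh]
  -- vanishing on A(D) for D ≤ W
  have hvan : ∀ D : Divisor K F, D ≤ W → VanishesOn ω D := by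
    intro D hD α hα
    obtain ⟨S, hS⟩ := kl_exists_finset α h g
    rw [hsum α S hS]
    refine Finset.sum_eq_zero fun v _ => ?_
    have := hgen v
    apply kl_resDiff_eq_zero v hη
    rcases (mem_repartitionsOf_iff.mp hα) v with h0 | h1
    · exact Or.inl h0
    · right
      have := Finsupp.le_def.mp hD v
      rw [← hW v]
      omega
  -- non-vanishing
  have hnon : ∀ D : Divisor K F, VanishesOn ω D → D ≤ W := by
    intro D hD
    rw [Finsupp.le_def]
    intro v₁
    by_contra hcon
    rw [not_le] at hcon
    have := hgen v₁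
    obtain ⟨x, hx0, hx⟩ := kl_exists_ord_eq v₁ (-(W v₁) - 1)
    have hα : lq_single v₁ x ∈ repartitionsOf D := by
      rw [mem_repartitionsOf_iff]
      intro w
      by_cases hw : w = v₁
      · subst hw
        right
        rw [lq_single_apply_self, hx]
        omega
      · left
        exact lq_single_apply_ne _ _ hw
    have h0 := hD _ hα
    obtain ⟨S, hS⟩ := kl_exists_finset (lq_single v₁ x) h g
    have hS' : ∀ v, v ∉ insert v₁ S →
        ((lq_single v₁ x * constRep K h : ↥(repartitions K F)) : Place K F → F) v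
          ∈ v.toValuationSubring ∧ g ∈ v.toValuationSubring :=
      fun v hv => hS v (fun hv' => hv (Finset.mem_insert_of_mem hv'))
    rw [hsum _ _ hS', Finset.sum_eq_single v₁] at h0
    · rw [lq_single_apply_self] at h0
      refine resDiff_ne_zero_of_ordDifferential v₁ ?_ h0
      rw [kl_ordDifferential_smul v₁ hη hx0, hx, ← hW v₁]
      omega
    · intro w _ hw
      rw [lq_single_apply_ne _ _ hw, zero_smul, map_zero]
    · intro hv₁
      exact absurd (Finset.mem_insert_self v₁ S) hv₁
  refine ⟨ω, ⟨?_, W, hvan W le_rfl⟩, ?_, fun D => ⟨hnon D, hvan D⟩⟩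
  · -- vanishing on F
    intro α hα
    obtain ⟨f, rfl⟩ := exists_constRep_of_mem_principal hα
    rw [hω, kl_weil_apply]
    have : constRep K f * constRep K h = constRep K (f * h) := by
      apply Subtype.ext
      funext w
      rfl
    rw [this]
    exact tateRes_const_const (f * h) g
  · -- ω ≠ 0
    intro h0
    have hall : VanishesOn ω (W + Finsupp.single v₀ 1) := by
      intro α _
      rw [h0]
      rfl
    have := Finsupp.le_def.mp (hnon _ hall) v₀
    rw [Finsupp.add_apply, Finsupp.single_eq_same] at this
    omega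

end Fermat.Agent.RRlib

end
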