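/-
Riemann–Roch library (item 65), piece W1: Weil differentials, basic facts (helper1).
-/
import Mathlib
import Fermat.Agent.RRlib.Defs
import Fermat.Agent.RRlib.Basic
import Fermat.Agent.RRlib.LFinite
import Fermat.Agent.RRlib.H1Finite

set_option autoImplicit false

noncomputable section

namespace Fermat.Agent.RRlib

open AlgebraicCurve

variable {K F : Type*} [Field K] [Field F] [Algebra K F]

/-! ### the `F`-action on functionals -/

@[simp] theorem fmul_zero_left (ω : Module.Dual K ↥(repartitions K F)) : fmul (0 : F) ω = 0 := by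
  ext α
  simp [fmul_apply]

@[simp] theorem fmul_zero_right (f : F) : fmul f (0 : Module.Dual K ↥(repartitions K F)) = 0 := by
  ext α
  simp [fmul_apply]

@[simp] theorem fmul_one_left (ω : Module.Dual K ↥(repartitions K F)) : fmul (1 : F) ω = ω := by
  ext α
  simp [fmul_apply]

theorem fmul_fmul (f g : F) (ω : Module.Dual K ↥(repartitions K F)) :
    fmul f (fmul g ω) = fmul (g * f) ω := by
  ext α
  simp [fmul_apply, smul_smul]

theorem fmul_add_left (f g : F) (ω : Module.Dual K ↥(repartitions K F)) :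
    fmul (f + g) ω = fmul f ω + fmul g ω := by
  ext α
  simp [fmul_apply, add_smul]

theorem fmul_add_right (f : F) (ω₁ ω₂ : Module.Dual K ↥(repartitions K F)) :
    fmul f (ω₁ + ω₂) = fmul f ω₁ + fmul f ω₂ := by
  ext α
  simp [fmul_apply]

theorem fmul_ksmul_left (c : K) (f : F) (ω : Module.Dual K ↥(repartitions K F)) :
    fmul (c • f) ω = c • fmul f ω := by
  ext α
  simp only [fmul_apply, LinearMap.smul_apply]
  rw [smul_assoc, map_smul]

theorem fmul_inv_cancel {f : F} (hf : f ≠ 0) (ω : Module.Dual K ↥(repartitions K F)) :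
    fmul f⁻¹ (fmul f ω) = ω := by
  rw [fmul_fmul, mul_inv_cancel₀ hf, fmul_one_left]

theorem fmul_eq_zero_iff [RRBase K F] (f : F) (ω : Module.Dual K ↥(repartitions K F)) :
    fmul f ω = 0 ↔ f = 0 ∨ ω = 0 := by
  constructor
  · intro h
    by_cases hf : f = 0
    · exact Or.inl hf
    · right
      rw [← fmul_inv_cancel hf ω, h, fmul_zero_right]
  · rintro (rfl | rfl)
    · exact fmul_zero_left ω
    · exact fmul_zero_right f

/-! ### vanishing -/

theorem VanishesOn.mono {ω : Module.Dual K ↥(repartitions K F)} {D D' : Divisor K F}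
    (h : VanishesOn ω D') (hD : D ≤ D') : VanishesOn ω D :=
  fun α hα => h α (repartitionsOf_mono hD hα)

theorem fmul_vanishesOn_iff [RRBase K F] {f : F} (hf : f ≠ 0)
    (ω : Module.Dual K ↥(repartitions K F)) (D : Divisor K F) :
    VanishesOn (fmul f ω) (D + divOf (K := K) f) ↔ VanishesOn ω D := by
  constructor
  · intro h β hβ
    have hα : f⁻¹ • β ∈ repartitionsOf (D + divOf (K := K) f) := by
      rw [← smul_mem_repartitionsOf_iff hf, smul_smul, mul_inv_cancel₀ hf, one_smul]
      exact hβ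
    have := h _ hα
    rwa [fmul_apply, smul_smul, mul_inv_cancel₀ hf, one_smul] at this
  · intro h α hα
    rw [fmul_apply]
    exact h _ ((smul_mem_repartitionsOf_iff hf D α).mpr hα)

theorem fmul_vanishes_principal (f : F) {ω : Module.Dual K ↥(repartitions K F)}
    (hω : ∀ α ∈ principalRepartitions K F, ω α = 0) :
    ∀ α ∈ principalRepartitions K F, fmul f ω α = 0 := by
  intro α hα
  obtain ⟨g, hg⟩ := mem_principalRepartitions_iff.mp hα
  rw [fmul_apply]
  apply hω
  refine mem_principalRepartitions_iff.mpr ⟨f * g, ?_⟩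
  funext v
  rw [coe_smul_repartitions, hg]

theorem fmul_mem_weilDiff [RRBase K F] (f : F) {ω : Module.Dual K ↥(repartitions K F)}
    (hω : ω ∈ weilDiff K F) : fmul f ω ∈ weilDiff K F := by
  rcases eq_or_ne f 0 with rfl | hf
  · rw [fmul_zero_left]
    exact Submodule.zero_mem _
  obtain ⟨h1, D, hD⟩ := hω
  exact ⟨fmul_vanishes_principal f h1, D + divOf (K := K) f, (fmul_vanishesOn_iff hf ω D).mpr hD⟩

/-- `f ∈ L(W − D)` and `ω ∈ Ω(W)` give `f ω ∈ Ω(D)`. -/
theorem fmul_mem_weilDiffOf [RRBase K F] {f : F} {ω : Module.Dual K ↥(repartitions K F)}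
    {W D : Divisor K F} (hω : ω ∈ weilDiffOf W) (hf : f ∈ riemannRochSpace (W - D)) :
    fmul f ω ∈ weilDiffOf D := by
  rcases eq_or_ne f 0 with rfl | hf0
  · rw [fmul_zero_left]
    exact Submodule.zero_mem _
  refine ⟨fmul_vanishes_principal f hω.1, ?_⟩
  have h1 : VanishesOn (fmul f ω) (W + divOf (K := K) f) := (fmul_vanishesOn_iff hf0 ω W).mpr hω.2
  refine h1.mono ?_
  have h2 := (mem_riemannRochSpace_iff_divOf hf0 (W - D)).mp hf
  rw [Finsupp.le_def] at h2 ⊢
  intro v
  have := h2 v
  simp only [Finsupp.add_apply, Finsupp.sub_apply, Finsupp.zero_apply] at this ⊢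
  omega

/-! ### `Ω(D)` is the dual of `H¹(D)` -/

theorem weilDiffOf_eq_dualAnnihilator (D : Divisor K F) :
    weilDiffOf D = (repartitionsOf D ⊔ principalRepartitions K F).dualAnnihilator := by
  ext ω
  rw [Submodule.dualAnnihilator_sup_eq, Submodule.mem_inf, Submodule.mem_dualAnnihilator,
    Submodule.mem_dualAnnihilator]
  exact ⟨fun h => ⟨h.2, h.1⟩, fun h => ⟨h.2, h.1⟩⟩

/-- `Ω(D) ≅ H¹(D)^*`. -/
def weilDiffOfEquiv (D : Divisor K F) : Module.Dual K (H1 D) ≃ₗ[K] weilDiffOf D :=
  (Submodule.dualQuotEquivDualAnnihilator (repartitionsOf D ⊔ principalRepartitions K F)).trans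
    (LinearEquiv.ofEq _ _ (weilDiffOf_eq_dualAnnihilator D).symm)

theorem finrank_weilDiffOf [RRHyp K F] (D : Divisor K F) :
    Module.Finite K (weilDiffOf D) ∧ Module.finrank K (weilDiffOf D) = idx D := by
  have : Module.Finite K (H1 D) := finite_H1 D
  refine ⟨Module.Finite.equiv (weilDiffOfEquiv D), ?_⟩
  rw [← (weilDiffOfEquiv D).finrank_eq, Subspace.dual_finrank_eq]
  rfl

end Fermat.Agent.RRlib

end
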