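/-
Riemann–Roch library (item 65), piece W2: the Weil differentials form a one-dimensional
`F`-vector space (helper1).
-/
import Mathlib
import Fermat.Agent.RRlib.Defs
import Fermat.Agent.RRlib.Basic
import Fermat.Agent.RRlib.LFinite
import Fermat.Agent.RRlib.H1Finite
import Fermat.Agent.RRlib.WeilBasic

set_option autoImplicit false

noncomputable section

namespace Fermat.Agent.RRlib

open AlgebraicCurve

variable {K F : Type*} [Field K] [Field F] [Algebra K F]

theorem mem_weilDiff_iff_exists_weilDiffOf {ω : Module.Dual K ↥(repartitions K F)} :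
    ω ∈ weilDiff K F ↔ ∃ D : Divisor K F, ω ∈ weilDiffOf D :=
  ⟨fun ⟨h, D, hD⟩ => ⟨D, h, hD⟩, fun ⟨D, h⟩ => weilDiffOf_le_weilDiff D h⟩

/-- the `K`-linear map `F → A^*`, `f ↦ f ω` -/
def fmulLin (ω : Module.Dual K ↥(repartitions K F)) :
    F →ₗ[K] Module.Dual K ↥(repartitions K F) where
  toFun f := fmul f ω
  map_add' _ _ := fmul_add_left _ _ _
  map_smul' _ _ := fmul_ksmul_left _ _ _

@[simp] theorem fmulLin_apply (ω : Module.Dual K ↥(repartitions K F)) (f : F) :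
    fmulLin ω f = fmul f ω := rfl

theorem fmulLin_injective [RRBase K F] {ω : Module.Dual K ↥(repartitions K F)} (h0 : ω ≠ 0) :
    Function.Injective (fmulLin ω) := by
  refine (injective_iff_map_eq_zero (fmulLin ω)).mpr ?_
  intro f hf
  rw [fmulLin_apply] at hf
  rcases (fmul_eq_zero_iff f ω).mp hf with h | h
  · exact h
  · exact absurd h h0

/-- the image of `L(W − D)` under `f ↦ f ω` lies in `Ω(D)` -/
theorem map_fmulLin_le [RRBase K F] {ω : Module.Dual K ↥(repartitions K F)} {W : Divisor K F}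
    (hω : ω ∈ weilDiffOf W) (D : Divisor K F) :
    (riemannRochSpace (W - D)).map (fmulLin ω) ≤ weilDiffOf D := by
  rintro _ ⟨f, hf, rfl⟩
  exact fmul_mem_weilDiffOf hω hf

theorem finrank_map_fmulLin [RRBase K F] {ω : Module.Dual K ↥(repartitions K F)} (h0 : ω ≠ 0)
    (D : Divisor K F) :
    Module.finrank K ↥((riemannRochSpace D).map (fmulLin ω)) = ell D :=
  (Submodule.equivMapOfInjective (fmulLin ω) (fmulLin_injective h0)
    (riemannRochSpace D)).finrank_eq.symm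

/-- `i(D) = g − 1 − deg D` for `deg D < 0`. -/
theorem idx_of_degree_neg [RRHyp K F] {D : Divisor K F} (h : Divisor.degree D < 0) :
    (idx D : ℤ) = genusFF K F - 1 - Divisor.degree D := by
  have h1 := ell_sub_idx D
  rw [ell_eq_zero_of_degree_neg h] at h1
  push_cast at h1
  omega

theorem degree_smul_single [RRBase K F] (P : Place K F) (n : ℤ) :
    Divisor.degree (Finsupp.single P n) = n := by
  rw [Divisor.degree_single, deg_eq_one]
  simp

theorem exists_weilDiff_ne_zero [RRHyp K F] :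
    ∃ ω ∈ weilDiff K F, ω ≠ 0 := by
  obtain ⟨P⟩ := RRBase.nonempty_place (K := K) (F := F)
  set D : Divisor K F := Finsupp.single P (-2) with hD
  have hdeg : Divisor.degree D = -2 := degree_smul_single P (-2)
  have hidx := idx_of_degree_neg (D := D) (by rw [hdeg]; norm_num)
  obtain ⟨hfin, hrank⟩ := finrank_weilDiffOf D
  have hpos : 0 < Module.finrank K ↥(weilDiffOf D) := by
    rw [hrank]
    have : (0 : ℤ) < idx D := by rw [hidx, hdeg]; omega
    exact_mod_cast this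
  have hnt : Nontrivial ↥(weilDiffOf D) := Module.finrank_pos_iff.mp hpos
  obtain ⟨ω, hω⟩ := exists_ne (0 : ↥(weilDiffOf D))
  exact ⟨ω, weilDiffOf_le_weilDiff D ω.2, fun h => hω (Subtype.ext h)⟩

/-- two nonzero Weil differentials have a common nonzero multiple -/
theorem exists_fmul_eq_fmul [RRHyp K F] {ω₁ ω₂ : Module.Dual K ↥(repartitions K F)}
    {W₁ W₂ : Divisor K F} (h₁ : ω₁ ∈ weilDiffOf W₁) (h₁0 : ω₁ ≠ 0)
    (h₂ : ω₂ ∈ weilDiffOf W₂) (h₂0 : ω₂ ≠ 0) :
    ∃ f₁ f₂ : F, f₁ ≠ 0 ∧ f₂ ≠ 0 ∧ fmul f₁ ω₁ = fmul f₂ ω₂ := by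
  obtain ⟨P⟩ := RRBase.nonempty_place (K := K) (F := F)
  -- the degree
  set g : ℤ := (genusFF K F : ℤ) with hg
  set n : ℤ := max 1 (3 * g - 2 - Divisor.degree W₁ - Divisor.degree W₂) with hn
  have hn1 : 1 ≤ n := le_max_left _ _
  have hn2 : 3 * g - 2 - Divisor.degree W₁ - Divisor.degree W₂ ≤ n := le_max_right _ _
  set D : Divisor K F := Finsupp.single P (-n) with hD
  have hdeg : Divisor.degree D = -n := degree_smul_single P (-n)
  have hidx := idx_of_degree_neg (D := D) (by rw [hdeg]; omega)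
  obtain ⟨hfin, hrank⟩ := finrank_weilDiffOf D
  have hf1 : Module.Finite K ↥(riemannRochSpace (W₁ - D)) := finite_riemannRochSpace _
  have hf2 : Module.Finite K ↥(riemannRochSpace (W₂ - D)) := finite_riemannRochSpace _
  -- the two images
  set s₁ : Submodule K (Module.Dual K ↥(repartitions K F)) :=
    (riemannRochSpace (W₁ - D)).map (fmulLin ω₁) with hs₁
  set s₂ : Submodule K (Module.Dual K ↥(repartitions K F)) :=
    (riemannRochSpace (W₂ - D)).map (fmulLin ω₂) with hs₂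
  have hle₁ : s₁ ≤ weilDiffOf D := map_fmulLin_le h₁ D
  have hle₂ : s₂ ≤ weilDiffOf D := map_fmulLin_le h₂ D
  have hfs₁ : Module.Finite K ↥s₁ := Submodule.finiteDimensional_of_le hle₁
  have hfs₂ : Module.Finite K ↥s₂ := Submodule.finiteDimensional_of_le hle₂
  have hr1 : Module.finrank K ↥s₁ = ell (W₁ - D) := finrank_map_fmulLin h₁0 _
  have hr2 : Module.finrank K ↥s₂ = ell (W₂ - D) := finrank_map_fmulLin h₂0 _
  have hR1 := riemann_inequality (W₁ - D)
  have hR2 := riemann_inequality (W₂ - D)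
  rw [map_sub, hdeg] at hR1 hR2
  have hsum := Submodule.finrank_sup_add_finrank_inf_eq s₁ s₂
  have hle : Module.finrank K ↥(s₁ ⊔ s₂) ≤ Module.finrank K ↥(weilDiffOf D) :=
    Submodule.finrank_mono (sup_le hle₁ hle₂)
  have hpos : 0 < Module.finrank K ↥(s₁ ⊓ s₂) := by
    have e1 : (Module.finrank K ↥(s₁ ⊔ s₂) : ℤ) + Module.finrank K ↥(s₁ ⊓ s₂)
        = ell (W₁ - D) + ell (W₂ - D) := by
      rw [← hr1, ← hr2]
      exact_mod_cast hsum
    have e2 : (Module.finrank K ↥(s₁ ⊔ s₂) : ℤ) ≤ idx D := by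
      rw [← hrank]
      exact_mod_cast hle
    have : (0 : ℤ) < Module.finrank K ↥(s₁ ⊓ s₂) := by
      rw [hidx, hdeg] at e2
      omega
    exact_mod_cast this
  have hnt : Nontrivial ↥(s₁ ⊓ s₂) := Module.finrank_pos_iff.mp hpos
  obtain ⟨x, hx⟩ := exists_ne (0 : ↥(s₁ ⊓ s₂))
  obtain ⟨⟨f₁, -, hf₁⟩, ⟨f₂, -, hf₂⟩⟩ := Submodule.mem_inf.mp x.2
  have hx0 : (x : Module.Dual K ↥(repartitions K F)) ≠ 0 := fun h => hx (Subtype.ext h)
  have e₁ : fmul f₁ ω₁ = (x : Module.Dual K ↥(repartitions K F)) := hf₁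
  have e₂ : fmul f₂ ω₂ = (x : Module.Dual K ↥(repartitions K F)) := hf₂
  refine ⟨f₁, f₂, ?_, ?_, e₁.trans e₂.symm⟩
  · intro h
    rw [h, fmul_zero_left] at e₁
    exact hx0 e₁.symm
  · intro h
    rw [h, fmul_zero_left] at e₂
    exact hx0 e₂.symm

/-- the space of Weil differentials is one-dimensional over `F` -/
theorem exists_eq_fmul [RRHyp K F] {ω₁ ω₂ : Module.Dual K ↥(repartitions K F)}
    (h₁ : ω₁ ∈ weilDiff K F) (h₁0 : ω₁ ≠ 0) (h₂ : ω₂ ∈ weilDiff K F) :
    ∃ f : F, ω₂ = fmul f ω₁ := by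
  rcases eq_or_ne ω₂ 0 with rfl | h₂0
  · exact ⟨0, (fmul_zero_left ω₁).symm⟩
  obtain ⟨W₁, hW₁⟩ := mem_weilDiff_iff_exists_weilDiffOf.mp h₁
  obtain ⟨W₂, hW₂⟩ := mem_weilDiff_iff_exists_weilDiffOf.mp h₂
  obtain ⟨f₁, f₂, hf₁, hf₂, h⟩ := exists_fmul_eq_fmul hW₁ h₁0 hW₂ h₂0
  refine ⟨f₁ * f₂⁻¹, ?_⟩
  rw [← fmul_fmul, h, fmul_inv_cancel hf₂]

end Fermat.Agent.RRlib

end
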