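/-
Riemann–Roch library (item 65), piece W3: the divisor of a Weil differential (helper1).
-/
import Mathlib
import Fermat.Agent.RRlib.Defs
import Fermat.Agent.RRlib.Basic
import Fermat.Agent.RRlib.LFinite
import Fermat.Agent.RRlib.H1Finite
import Fermat.Agent.RRlib.WeilBasic
import Fermat.Agent.RRlib.WeilDim

set_option autoImplicit false

noncomputable section

namespace Fermat.Agent.RRlib

open AlgebraicCurve

variable {K F : Type*} [Field K] [Field F] [Algebra K F]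

theorem VanishesOn.sup {ω : Module.Dual K ↥(repartitions K F)} {D₁ D₂ : Divisor K F}
    (h₁ : VanishesOn ω D₁) (h₂ : VanishesOn ω D₂) : VanishesOn ω (D₁ ⊔ D₂) := by
  intro α hα
  rw [repartitionsOf_sup] at hα
  obtain ⟨a, ha, b, hb, rfl⟩ := Submodule.mem_sup.mp hα
  rw [map_add, h₁ a ha, h₂ b hb, add_zero]

/-- a nonzero Weil differential vanishing on `A(D)` forces `i(D) > 0` -/
theorem idx_pos_of_vanishesOn [RRHyp K F] {ω : Module.Dual K ↥(repartitions K F)}
    (hω : ω ∈ weilDiff K F) (h0 : ω ≠ 0) {D : Divisor K F} (hD : VanishesOn ω D) :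
    0 < idx D := by
  obtain ⟨hfin, hrank⟩ := finrank_weilDiffOf D
  rw [← hrank]
  have hnt : Nontrivial ↥(weilDiffOf D) :=
    ⟨⟨⟨ω, hω.1, hD⟩, 0, fun h => h0 (congrArg Subtype.val h)⟩⟩
  exact (Module.finrank_pos_iff (R := K) (M := ↥(weilDiffOf D))).mpr hnt

theorem exists_div_weilDiff [RRHyp K F] {ω : Module.Dual K ↥(repartitions K F)}
    (hω : ω ∈ weilDiff K F) (h0 : ω ≠ 0) :
    ∃ W : Divisor K F, ∀ D : Divisor K F, VanishesOn ω D ↔ D ≤ W := by
  obtain ⟨c, hc⟩ := exists_forall_idx_eq_zero (K := K) (F := F)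
  obtain ⟨D₀, hD₀⟩ := hω.2
  -- the degrees of the divisors on which `ω` vanishes are bounded
  have hbdd : ∃ b : ℤ, ∀ z : ℤ, (∃ D : Divisor K F, VanishesOn ω D ∧ Divisor.degree D = z) →
      z ≤ b := by
    refine ⟨c, ?_⟩
    rintro z ⟨D, hD, rfl⟩
    by_contra hlt
    have := idx_pos_of_vanishesOn hω h0 hD
    rw [hc D (le_of_lt (not_le.mp hlt))] at this
    exact lt_irrefl _ this
  obtain ⟨m, ⟨W, hW, hWm⟩, hmax⟩ := Int.exists_greatest_of_bdd hbdd ⟨_, D₀, hD₀, rfl⟩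
  refine ⟨W, fun D => ⟨fun hD => ?_, fun hD => hW.mono hD⟩⟩
  have hsup : VanishesOn ω (D ⊔ W) := hD.sup hW
  have hle : Divisor.degree (D ⊔ W) ≤ Divisor.degree W := by
    rw [hWm]
    exact hmax _ ⟨_, hsup, rfl⟩
  have heq : W = D ⊔ W := eq_of_le_of_degree_le le_sup_right hle
  rw [heq]
  exact le_sup_left

theorem exists_isCanonicalDivisor [RRHyp K F] : ∃ W : Divisor K F, IsCanonicalDivisor W := by
  obtain ⟨ω, hω, h0⟩ := exists_weilDiff_ne_zero (K := K) (F := F)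
  obtain ⟨W, hW⟩ := exists_div_weilDiff hω h0
  exact ⟨W, ω, hω, h0, hW⟩

end Fermat.Agent.RRlib

end
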