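/-
Riemann–Roch library (item 65), Part III, complement: existence of the divisor of a Kähler
differential (`HasCanonicalDivisor`) from the Riemann–Roch hypotheses, and "the differential of
a regular function is regular" (helper16).
-/
import Mathlib
import Fermat.Agent.RRlib.WeilDiv
import Fermat.Agent.RRlib.KaehlerLink

set_option autoImplicit false

noncomputable section

namespace Fermat.Agent.RRlib

open AlgebraicCurve KaehlerDifferential

variable {K F : Type*} [Field K] [Field F] [Algebra K F]

/-- the differential of a function regular at `v` is regular at `v` -/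
theorem ordDifferential_D_nonneg_of_mem [RRBase K F] (v : Place K F) [v.DCoordGenerates]
    [Nontrivial Ω[F⁄K]] {g : F} (hg : g ∈ v.toValuationSubring) :
    0 ≤ v.ordDifferential (D K F g) := by
  by_contra hcon
  rw [not_le] at hcon
  have hne : D K F g ≠ 0 := by
    intro h0
    rw [h0, Place.ordDifferential, v.differentialCoeff_zero, v.ord_zero] at hcon
    exact lt_irrefl _ hcon
  obtain ⟨x, hx0, hx⟩ := kl_exists_ord_eq v (-(v.ordDifferential (D K F g)) - 1)
  have hxmem : x ∈ v.toValuationSubring :=
    Fermat.Agent.S24lib.ffMem_of_ord_nonneg v (by omega)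
  have h1 : resDiff v (x • D K F g) = 0 := by
    rw [resDiff_smul_D]
    exact resAt_eq_zero_of_mem v hxmem hg
  refine resDiff_ne_zero_of_ordDifferential v ?_ h1
  rw [kl_ordDifferential_smul v hne hx0, hx]
  omega

/-- the Weil differential attached to `h dg` vanishes on `A(D)` if `D ≤ div (h dg)` pointwise -/
theorem kl_weil_vanishesOn [RRBase K F] [Nontrivial Ω[F⁄K]]
    (hgen : ∀ v : Place K F, v.DCoordGenerates) (h g : F) (hη : h • D K F g ≠ 0)
    (E : Divisor K F) (hE : ∀ v : Place K F, E v ≤ v.ordDifferential (h • D K F g)) :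
    VanishesOn (kl_weil h g) E := by
  intro α hα
  obtain ⟨S, hS⟩ := kl_exists_finset α h g
  rw [kl_weil_eq_sum h g α S hS]
  refine Finset.sum_eq_zero fun v _ => ?_
  have := hgen v
  apply kl_resDiff_eq_zero v hη
  rcases (mem_repartitionsOf_iff.mp hα) v with h0 | h1
  · exact Or.inl h0
  · right
    have := hE v
    omega

/-- the value of the Weil differential attached to `h dg` on a repartition supported at `v` -/
theorem kl_weil_single [RRBase K F] (h g : F) (v : Place K F) (x : F) :
    kl_weil h g (lq_single v x) = resDiff v (x • (h • D K F g)) := by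
  classical
  obtain ⟨S, hS⟩ := kl_exists_finset (lq_single v x) h g
  have hS' : ∀ w, w ∉ insert v S →
      ((lq_single v x * constRep K h : ↥(repartitions K F)) : Place K F → F) w
        ∈ w.toValuationSubring ∧ g ∈ w.toValuationSubring :=
    fun w hw => hS w (fun hw' => hw (Finset.mem_insert_of_mem hw'))
  rw [kl_weil_eq_sum h g _ _ hS', Finset.sum_eq_single v]
  · rw [lq_single_apply_self]
  · intro w _ hw
    rw [lq_single_apply_ne _ _ hw, zero_smul, map_zero]
  · intro hv
    exact absurd (Finset.mem_insert_self v S) hv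

theorem kl_weil_principal [RRHyp K F] (h g : F) :
    ∀ α ∈ principalRepartitions K F, kl_weil h g α = 0 := by
  intro α hα
  obtain ⟨f, rfl⟩ := exists_constRep_of_mem_principal hα
  rw [kl_weil_apply]
  have : constRep K f * constRep K h = constRep K (f * h) := by
    apply Subtype.ext
    funext w
    rfl
  rw [this]
  exact tateRes_const_const (f * h) g

/-- **Existence of the divisor of a Kähler differential.** -/
theorem exists_canonicalDivisor [RRHyp K F] [Nontrivial Ω[F⁄K]]
    (hgen : ∀ v : Place K F, v.DCoordGenerates) {η : Ω[F⁄K]} (hη : η ≠ 0) :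
    ∃ W : Divisor K F, ∀ v : Place K F, W v = v.ordDifferential η := by
  classical
  obtain ⟨v₀⟩ := RRBase.nonempty_place (K := K) (F := F)
  have := hgen v₀
  obtain ⟨h, hh⟩ := v₀.exists_eq_smul_dCoord η
  obtain ⟨g, hg⟩ : ∃ g : F, v₀.dCoord = D K F g := ⟨_, rfl⟩
  rw [hg] at hh
  subst hh
  have hh0 : h ≠ 0 := by
    intro h0
    apply hη
    rw [h0, zero_smul]
  have hdg : D K F g ≠ 0 := by
    intro h0
    apply hη
    rw [h0, smul_zero]
  -- outside a finite set, `h dg` is regular
  have hfin1 := finite_poles (K := K) (constRep K g)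
  set S₀ : Finset (Place K F) := hfin1.toFinset ∪ (divOf (K := K) h).support with hS₀
  have hreg : ∀ v, v ∉ S₀ → 0 ≤ v.ordDifferential (h • D K F g) := by
    intro v hv
    rw [hS₀, Finset.mem_union, not_or, Set.Finite.mem_toFinset, Set.mem_ofPred_eq, not_lt,
      Finsupp.mem_support_iff, not_not, divOf_apply hh0] at hv
    have := hgen v
    rw [kl_ordDifferential_smul v hdg hh0, hv.2, zero_add]
    exact ordDifferential_D_nonneg_of_mem v (Fermat.Agent.S24lib.ffMem_of_ord_nonneg v hv.1)
  -- a lower bound divisor
  set D₀ : Divisor K F := Finsupp.onFinset S₀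
    (fun v => if v ∈ S₀ then min 0 (v.ordDifferential (h • D K F g)) else 0)
    (fun v hv => by
      by_contra hcon
      exact hv (if_neg hcon)) with hD₀
  have hD₀le : ∀ v, D₀ v ≤ v.ordDifferential (h • D K F g) := by
    intro v
    rw [hD₀, Finsupp.onFinset_apply]
    split_ifs with hv
    · exact min_le_right _ _
    · exact hreg v hv
  set ω : Module.Dual K ↥(repartitions K F) := kl_weil (K := K) h g with hω
  have hωmem : ω ∈ weilDiff K F :=
    ⟨kl_weil_principal h g, D₀, kl_weil_vanishesOn hgen h g hη D₀ hD₀le⟩
  have hsingle : ∀ v : Place K F, ∃ x : F, v.ord x = -(v.ordDifferential (h • D K F g)) - 1 ∧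
      ω (lq_single v x) ≠ 0 := by
    intro v
    have := hgen v
    obtain ⟨x, hx0, hx⟩ := kl_exists_ord_eq v (-(v.ordDifferential (h • D K F g)) - 1)
    refine ⟨x, hx, ?_⟩
    rw [hω, kl_weil_single]
    apply resDiff_ne_zero_of_ordDifferential
    rw [kl_ordDifferential_smul v hη hx0, hx]
    omega
  have hω0 : ω ≠ 0 := by
    intro h0
    obtain ⟨x, _, hx⟩ := hsingle v₀
    apply hx
    rw [h0]
    rfl
  obtain ⟨W, hW⟩ := exists_div_weilDiff hωmem hω0
  refine ⟨W, fun v => le_antisymm ?_ ?_⟩
  · -- W v ≤ ord: otherwise the repartition `x` at `v` lies in A(W) but ω does not vanish on it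
    by_contra hcon
    rw [not_le] at hcon
    obtain ⟨x, hx, hne⟩ := hsingle v
    apply hne
    apply (hW W).mpr le_rfl
    rw [mem_repartitionsOf_iff]
    intro w
    by_cases hw : w = v
    · subst hw
      right
      rw [lq_single_apply_self, hx]
      omega
    · left
      exact lq_single_apply_ne _ _ hw
  · -- ord ≤ W v
    set D₁ : Divisor K F :=
      D₀ + Finsupp.single v (v.ordDifferential (h • D K F g) - D₀ v) with hD₁
    have hD₁v : D₁ v = v.ordDifferential (h • D K F g) := by
      rw [hD₁, Finsupp.add_apply, Finsupp.single_eq_same]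
      ring
    have hD₁le : ∀ w, D₁ w ≤ w.ordDifferential (h • D K F g) := by
      intro w
      by_cases hw : w = v
      · subst hw
        rw [hD₁v]
      · rw [hD₁, Finsupp.add_apply, Finsupp.single_apply, if_neg (fun h' => hw h'.symm),
          add_zero]
        exact hD₀le w
    have := (hW D₁).mp (kl_weil_vanishesOn hgen h g hη D₁ hD₁le)
    have := Finsupp.le_def.mp this v
    rwa [hD₁v] at this

/-- `HasCanonicalDivisor` follows from the Riemann–Roch hypotheses. -/
theorem hasCanonicalDivisor_of_rrHyp [RRHyp K F] [Nontrivial Ω[F⁄K]]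
    (hgen : ∀ v : Place K F, v.DCoordGenerates) :
    HasCanonicalDivisor (K := K) (F := F) :=
  ⟨fun _ hη => exists_canonicalDivisor hgen hη⟩

end Fermat.Agent.RRlib

end
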