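/-
RR library / generic function-field block in ANY characteristic (helper12):
for a function field `F / K` (`K` algebraically closed) with a separating element `x`
(`FFSep K x`) the Kähler differentials are as expected:
* `dt ≠ 0` for every uniformizer `t` (Tate residue `res (dt / t) = 1`),
* `v.DCoordGenerates` for every place, `Ω[F/K] ≠ 0`,
* `HasCanonicalDivisor`, and `genus K F = genusFF K F`.
-/
import Mathlib
import Fermat.Agent.RRlib.InstSep
import Fermat.Agent.RRlib.KaehlerExists
import Fermat.Agent.RRlib.KaehlerGenus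

set_option autoImplicit false

noncomputable section

namespace Fermat.Agent.RRlib

open AlgebraicCurve Fermat.Agent.S24lib Fermat.Agent.FFlib IntermediateField KaehlerDifferential

variable {K F : Type*} [Field K] [Field F] [Algebra K F]

/-- The differential of a uniformizer does not vanish (any characteristic):
`res_v (dt / t) = 1`. -/
theorem D_ne_zero_of_ord_eq_one [RRBase K F] (v : Place K F) {t : F} (ht : v.ord t = 1) :
    D K F t ≠ 0 := by
  intro h0
  have h1 := resDiff_smul_D v t⁻¹ t
  rw [h0, smul_zero, map_zero, resAt_inv_self v ht] at h1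
  exact zero_ne_one h1

/-- `Ω[F/K] ≠ 0` as soon as the elementary hypotheses hold. -/
theorem nontrivial_kaehler_of_rrBase [RRBase K F] : Nontrivial Ω[F⁄K] := by
  obtain ⟨v⟩ := RRBase.nonempty_place (K := K) (F := F)
  obtain ⟨t, ht⟩ := tl_exists_uniformizer v
  exact ⟨D K F t, 0, D_ne_zero_of_ord_eq_one v ht⟩

section

variable [IsAlgClosed K] {x : F} [h : FFSep K x]

include h in
/-- `Ω[F/K] = F · dt` for every `t` with `dt ≠ 0`. -/
theorem fsSpan_D_eq_top_of_ne_zero {t : F} (ht : D K F t ≠ 0) :
    Submodule.span F {D K F t} = ⊤ := by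
  have hsep : FFSep K t := FFSep.of_D_ne_zero (x := x) ht
  exact fsSpan_D_eq_top (K := K) (x := t)

include h in
/-- The coordinate differential at any place generates `Ω[F/K]` (any characteristic). -/
theorem fsDCoordGenerates (v : Place K F) : v.DCoordGenerates := by
  have : RRBase K F := rrBase_of_ffSep x
  obtain ⟨t, ht, hd⟩ := tl_dCoord v
  exact ⟨by rw [hd]; exact fsSpan_D_eq_top_of_ne_zero (x := x) (D_ne_zero_of_ord_eq_one v ht)⟩

omit [IsAlgClosed K] in
include h in
/-- `Ω[F/K] ≠ 0`. -/
theorem fsNontrivial_kaehler : Nontrivial Ω[F⁄K] :=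
  ⟨D K F x, 0, fsD_ne_zero (K := K) (x := x)⟩

include h in
/-- `HasCanonicalDivisor` in any characteristic. -/
theorem fsHasCanonicalDivisor : HasCanonicalDivisor (K := K) (F := F) := by
  have : RRHyp K F := rrHyp_of_ffSep x
  have : Nontrivial Ω[F⁄K] := fsNontrivial_kaehler (K := K) (x := x)
  exact hasCanonicalDivisor_of_rrHyp (fsDCoordGenerates (x := x))

include h in
/-- The Kähler genus is the Riemann–Roch genus (any characteristic). -/
theorem fsGenus_eq_genusFF [HasCanonicalDivisor (K := K) (F := F)] :
    genus K F = genusFF K F := by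
  have : RRHyp K F := rrHyp_of_ffSep x
  have : Nontrivial Ω[F⁄K] := fsNontrivial_kaehler (K := K) (x := x)
  exact genus_eq_genusFF (fsDCoordGenerates (x := x))

include h in
/-- The degree of the divisor of a nonzero differential is `2g - 2` (any characteristic). -/
theorem fsDegree_canonical [HasCanonicalDivisor (K := K) (F := F)] {η : Ω[F⁄K]} (hη : η ≠ 0) :
    Divisor.degree (canonicalDivisorOf hη) = 2 * (genusFF K F : ℤ) - 2 := by
  have : RRHyp K F := rrHyp_of_ffSep x
  have : Nontrivial Ω[F⁄K] := fsNontrivial_kaehler (K := K) (x := x)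
  exact degree_canonicalDivisorOf (fsDCoordGenerates (x := x)) hη

end

end Fermat.Agent.RRlib

end
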