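/-
Generic function-field block in ANY characteristic (helper12): Hurwitz.

Local: for a place `v` and `u ≠ 0` with `m = ord_v u`:
* `hw_ordDifferential_D_eq` : `ord_v (du) = m - 1` if `m ≠ 0` in `K` (tame case);
* `hw_ordDifferential_D_ge` : `ord_v (du) ≥ m - 1` if `du ≠ 0`.
Global, for a separating `x` (`FFSep K x`), `n = [F : K(x)]`, `r_c` = number of places over
`x = c`, `r_∞` = number of poles of `x`, `W` = divisor of a nonzero differential:
* `fsHurwitz_le` : `Σ_{c ∈ C} (n - r_c) - n - r_∞ ≤ deg W` for every finite `C`;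
* `fsHurwitz_eq_of_tame` : equality if all ramification is tame and `C` contains the branch
  points;
* the same with `deg W` replaced by `2 genusFF - 2`.
-/
import Mathlib
import Fermat.Agent.RRlib.InstSepKaehler

set_option autoImplicit false

noncomputable section

namespace Fermat.Agent.RRlib

open AlgebraicCurve Fermat.Agent.S24lib Fermat.Agent.FFlib IntermediateField KaehlerDifferential

variable {K F : Type*} [Field K] [Field F] [Algebra K F]

/-- strict ultrametric inequality -/
lemma hw_ord_add_eq_of_lt (v : Place K F) {f g : F} (hf : f ≠ 0) (_hg : g ≠ 0)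
    (h : v.ord f < v.ord g) : v.ord (f + g) = v.ord f := by
  have hfg : f + g ≠ 0 := by
    intro h0
    have : g = -f := eq_neg_of_add_eq_zero_right h0
    rw [this, ffOrd_neg] at h
    exact lt_irrefl _ h
  have h1 : v.ord f ≤ v.ord (f + g) := ffOrd_add_ge v hfg (Or.inr le_rfl) (Or.inr h.le)
  by_contra hne
  have h2 : v.ord f + 1 ≤ v.ord (f + g) := by omega
  have h3 : v.ord f + 1 ≤ v.ord ((f + g) + -g) :=
    ffOrd_add_ge v (by rwa [add_neg_cancel_right]) (Or.inr h2)
      (Or.inr (by rw [ffOrd_neg]; omega))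
  rw [add_neg_cancel_right] at h3
  omega

/-- If `x - c` vanishes at `v` then `x` has no pole at `v`. -/
lemma hw_ord_nonneg_of_center (v : Place K F) {x : F} {c : K}
    (hc : 0 < v.ord (x - algebraMap K F c)) : 0 ≤ v.ord x := by
  rcases eq_or_ne x 0 with rfl | hx0
  · rw [v.ord_zero]
  have key : (0 : ℤ) ≤ v.ord ((x - algebraMap K F c) + algebraMap K F c) :=
    ffOrd_add_ge v (by rwa [sub_add_cancel]) (Or.inr hc.le) (Or.inr (ffOrd_algebraMap v c).ge)
  rwa [sub_add_cancel] at key

/-- The value of `x` at a place is unique. -/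
lemma hw_center_unique (v : Place K F) {x : F} {c c' : K}
    (hc : 0 < v.ord (x - algebraMap K F c)) (hc' : 0 < v.ord (x - algebraMap K F c')) :
    c = c' := by
  by_contra hne
  have hsub : (x - algebraMap K F c') + -(x - algebraMap K F c) = algebraMap K F (c - c') := by
    rw [map_sub]; ring
  have h0 : algebraMap K F (c - c') ≠ 0 := by
    rw [Ne, map_eq_zero, sub_eq_zero]
    exact hne
  have key : (1 : ℤ) ≤ v.ord ((x - algebraMap K F c') + -(x - algebraMap K F c)) :=
    ffOrd_add_ge v (by rw [hsub]; exact h0) (Or.inr hc') (Or.inr (by rw [ffOrd_neg]; exact hc))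
  rw [hsub, ffOrd_algebraMap] at key
  omega

section Local

variable [RRBase K F] (v : Place K F) [v.DCoordGenerates] [Nontrivial Ω[F⁄K]]

/-- The local coefficient of `du`: `du = (w m t^(m-1) + t^m a) dt` with `w` a unit and `a`
regular at `v`. -/
lemma hw_exists_coeff {u : F} (hu : u ≠ 0) :
    ∃ t w a : F, v.ord t = 1 ∧ w ≠ 0 ∧ v.ord w = 0 ∧ (a = 0 ∨ 0 ≤ v.ord a) ∧
      v.differentialCoeff (D K F u)
        = w * (((v.ord u : ℤ) : F) * t ^ (v.ord u - 1)) + t ^ (v.ord u) * a := by
  obtain ⟨t, ht, hd⟩ := tl_dCoord v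
  have ht0 : t ≠ 0 := by
    rintro rfl
    simp at ht
  set m := v.ord u with hm
  set w := u * t ^ (-m) with hw
  have hwo : v.ord w = 0 := by
    rw [hw, v.ord_mul hu (zpow_ne_zero _ ht0), v.ord_zpow, ht, ← hm]
    ring
  have hu_eq : u = w * t ^ m := by
    rw [hw, mul_assoc, ← zpow_add₀ ht0, neg_add_cancel, zpow_zero, mul_one]
  set a := v.differentialCoeff (D K F w) with ha
  have haD : D K F w = a • D K F t := by
    rw [← hd]
    exact (v.differentialCoeff_smul_dCoord _).symm
  have hao : 0 ≤ v.ord a :=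
    ordDifferential_D_nonneg_of_mem v (ffMem_of_ord_nonneg v hwo.ge)
  have hw0 : w ≠ 0 := mul_ne_zero hu (zpow_ne_zero _ ht0)
  refine ⟨t, w, a, ht, hw0, hwo, Or.inr hao, ?_⟩
  apply v.differentialCoeff_unique
  rw [hd]
  conv_lhs => rw [hu_eq]
  rw [Derivation.leibniz, Derivation.leibniz_zpow, haD, ← Int.cast_smul_eq_zsmul F,
    smul_smul, smul_smul, smul_smul, ← add_smul]
  congr 1
  ring

/-- **Hurwitz, tame case**: `ord_v (du) = ord_v u - 1` if `ord_v u ≠ 0` in `K`. -/
theorem hw_ordDifferential_D_eq {u : F} (hm : ((v.ord u : ℤ) : K) ≠ 0) :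
    v.ordDifferential (D K F u) = v.ord u - 1 := by
  have hu : u ≠ 0 := by
    rintro rfl
    rw [v.ord_zero] at hm
    exact hm Int.cast_zero
  obtain ⟨t, w, a, ht, hw0, hwo, hao, hc⟩ := hw_exists_coeff v hu
  have ht0 : t ≠ 0 := by
    rintro rfl
    simp at ht
  have hmF : ((v.ord u : ℤ) : F) ≠ 0 := by
    have : ((v.ord u : ℤ) : F) = algebraMap K F ((v.ord u : ℤ) : K) := (map_intCast _ _).symm
    rw [this, Ne, map_eq_zero]
    exact hm
  have hmo : v.ord ((v.ord u : ℤ) : F) = 0 := by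
    have : ((v.ord u : ℤ) : F) = algebraMap K F ((v.ord u : ℤ) : K) := (map_intCast _ _).symm
    rw [this, ffOrd_algebraMap]
  have h1 : w * (((v.ord u : ℤ) : F) * t ^ (v.ord u - 1)) ≠ 0 :=
    mul_ne_zero hw0 (mul_ne_zero hmF (zpow_ne_zero _ ht0))
  have h1o : v.ord (w * (((v.ord u : ℤ) : F) * t ^ (v.ord u - 1))) = v.ord u - 1 := by
    rw [v.ord_mul hw0 (mul_ne_zero hmF (zpow_ne_zero _ ht0)),
      v.ord_mul hmF (zpow_ne_zero _ ht0), v.ord_zpow, ht, hwo, hmo]
    ring
  rw [Place.ordDifferential, hc]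
  rcases eq_or_ne a 0 with rfl | ha0
  · rw [mul_zero, add_zero, h1o]
  · have hao' : 0 ≤ v.ord a := hao.resolve_left ha0
    have h2 : t ^ (v.ord u) * a ≠ 0 := mul_ne_zero (zpow_ne_zero _ ht0) ha0
    have h2o : v.ord (t ^ (v.ord u) * a) = v.ord u + v.ord a := by
      rw [v.ord_mul (zpow_ne_zero _ ht0) ha0, v.ord_zpow, ht]
      ring
    rw [hw_ord_add_eq_of_lt v h1 h2 (by rw [h1o, h2o]; omega), h1o]

/-- **Hurwitz, general case**: `ord_v (du) ≥ ord_v u - 1` if `du ≠ 0`. -/
theorem hw_ordDifferential_D_ge {u : F} (hdu : D K F u ≠ 0) :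
    v.ord u - 1 ≤ v.ordDifferential (D K F u) := by
  by_cases hm : ((v.ord u : ℤ) : K) = 0
  · have hu : u ≠ 0 := by
      rintro rfl
      exact hdu (map_zero _)
    obtain ⟨t, w, a, ht, hw0, hwo, hao, hc⟩ := hw_exists_coeff v hu
    have ht0 : t ≠ 0 := by
      rintro rfl
      simp at ht
    have hmF : ((v.ord u : ℤ) : F) = 0 := by
      have : ((v.ord u : ℤ) : F) = algebraMap K F ((v.ord u : ℤ) : K) := (map_intCast _ _).symm
      rw [this, hm, map_zero]
    rw [hmF, zero_mul, mul_zero, zero_add] at hc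
    have ha0 : a ≠ 0 := by
      rintro rfl
      rw [mul_zero] at hc
      apply hdu
      rw [← v.differentialCoeff_smul_dCoord (D K F u), hc, zero_smul]
    have hao' : 0 ≤ v.ord a := hao.resolve_left ha0
    rw [Place.ordDifferential, hc, v.ord_mul (zpow_ne_zero _ ht0) ha0, v.ord_zpow, ht]
    omega
  · rw [hw_ordDifferential_D_eq v hm]

end Local

section Global

variable [IsAlgClosed K] {x : F} [h : FFSep K x]

include h in
/-- **Hurwitz genus inequality** (any characteristic): for a separating `x`, every finite set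
`C` of finite branch values and the divisor `W` of a nonzero differential,
`Σ_{c ∈ C} (n - r_c) - n - r_∞ ≤ deg W`. -/
theorem fsHurwitz_le (C : Finset K) {ω : Ω[F⁄K]} (hω : ω ≠ 0) (W : Divisor K F)
    (hW : ∀ v : Place K F, W v = v.ordDifferential ω) :
    ∑ c ∈ C, ((Module.finrank K⟮x⟯ F : ℤ)
          - (Nat.card {v : Place K F // 0 < v.ord (x - algebraMap K F c)} : ℤ))
        - (Module.finrank K⟮x⟯ F : ℤ) - (Nat.card {v : Place K F // 0 < v.ord x⁻¹} : ℤ)
      ≤ Divisor.degree W := by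
  classical
  have hbase : RRBase K F := rrBase_of_ffSep x
  have hnt : Nontrivial Ω[F⁄K] := fsNontrivial_kaehler (K := K) (x := x)
  have hgen : ∀ v : Place K F, v.DCoordGenerates := fsDCoordGenerates (x := x)
  have hxt : Transcendental K x := h.trans
  have hdx : D K F x ≠ 0 := fsD_ne_zero (K := K) (x := x)
  -- ω = g • dx
  obtain ⟨g, hg⟩ : ∃ g : F, g • D K F x = ω := by
    have : ω ∈ Submodule.span F {D K F x} := by
      rw [fsSpan_D_eq_top (K := K) (x := x)]; exact Submodule.mem_top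
    exact Submodule.mem_span_singleton.1 this
  have hg0 : g ≠ 0 := by
    rintro rfl
    exact hω (by rw [← hg, zero_smul])
  obtain ⟨E, hE, hEdeg⟩ := fsExists_principal (K := K) (x := x) g
  have hD' : ∀ v, (W - E) v = v.ordDifferential (D K F x) := by
    intro v
    have := hgen v
    rw [Finsupp.sub_apply, hW v, hE v, ← hg, kl_ordDifferential_smul v hdx hg0]
    ring
  have hdeg : Divisor.degree W = Divisor.degree (W - E) := by rw [map_sub, hEdeg, sub_zero]
  rw [hdeg]
  obtain ⟨P, hP, hPsum⟩ := fsExists_poles (K := K) (x := x)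
  choose Z hZ hZsum using fun c : K => fsExists_zeros (K := K) (x := x) c
  have hval_pole : ∀ v ∈ P, v.ord x - 1 ≤ (W - E) v := by
    intro v _
    have := hgen v
    rw [hD' v]
    exact hw_ordDifferential_D_ge v hdx
  have hval_zero : ∀ c, ∀ v ∈ Z c, v.ord (x - algebraMap K F c) - 1 ≤ (W - E) v := by
    intro c v _
    have := hgen v
    rw [hD' v]
    have hd : D K F (x - algebraMap K F c) = D K F x := by
      rw [map_sub, Derivation.map_algebraMap, sub_zero]
    rw [← hd]
    exact hw_ordDifferential_D_ge v (by rw [hd]; exact hdx)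
  have hval_nonneg : ∀ v : Place K F, ¬ v.ord x < 0 → 0 ≤ (W - E) v := by
    intro v hv
    have := hgen v
    rw [hD' v]
    exact ordDifferential_D_nonneg_of_mem v (ffMem_of_ord_nonneg v (not_lt.1 hv))
  -- the index set
  set s : Finset (Place K F) := (W - E).support ∪ (P ∪ C.biUnion Z) with hs
  rw [fsDegree_eq_sum (x := x) (W - E) s Finset.subset_union_left]
  have hdisjPZ : Disjoint P (C.biUnion Z) := by
    rw [Finset.disjoint_left]
    intro v hvP hvZ
    obtain ⟨c, -, hvc⟩ := Finset.mem_biUnion.1 hvZ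
    have h1 := (hP v).1 hvP
    have h2 := hw_ord_nonneg_of_center v ((hZ c v).1 hvc)
    omega
  have hdisjZ : (C : Set K).PairwiseDisjoint Z := by
    intro c _ c' _ hne
    rw [Function.onFun, Finset.disjoint_left]
    intro v hv hv'
    exact hne (hw_center_unique v ((hZ c v).1 hv) ((hZ c' v).1 hv'))
  have hsub : P ∪ C.biUnion Z ⊆ s := Finset.subset_union_right
  have hrest : ∀ v ∈ s, v ∉ P ∪ C.biUnion Z → 0 ≤ (W - E) v := by
    intro v _ hv
    apply hval_nonneg v
    intro hlt
    exact hv (Finset.mem_union_left _ ((hP v).2 hlt))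
  have h1 : ∑ v ∈ P ∪ C.biUnion Z, (W - E) v ≤ ∑ v ∈ s, (W - E) v :=
    Finset.sum_le_sum_of_subset_of_nonneg hsub hrest
  refine le_trans ?_ h1
  rw [Finset.sum_union hdisjPZ, Finset.sum_biUnion hdisjZ]
  have hpole : - (Module.finrank K⟮x⟯ F : ℤ) - (P.card : ℤ) ≤ ∑ v ∈ P, (W - E) v := by
    have : ∑ v ∈ P, (v.ord x - 1) ≤ ∑ v ∈ P, (W - E) v := Finset.sum_le_sum hval_pole
    rw [Finset.sum_sub_distrib, hPsum] at this
    simpa using this
  have hzero : ∀ c, (Module.finrank K⟮x⟯ F : ℤ) - ((Z c).card : ℤ) ≤ ∑ v ∈ Z c, (W - E) v := by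
    intro c
    have : ∑ v ∈ Z c, (v.ord (x - algebraMap K F c) - 1) ≤ ∑ v ∈ Z c, (W - E) v :=
      Finset.sum_le_sum (hval_zero c)
    rw [Finset.sum_sub_distrib, hZsum c] at this
    simpa using this
  have hcardZ : ∀ c, Nat.card {v : Place K F // 0 < v.ord (x - algebraMap K F c)}
      = (Z c).card := fun c => Nat.subtype_card (Z c) (hZ c)
  have hcardP : Nat.card {v : Place K F // 0 < v.ord x⁻¹} = P.card :=
    Nat.subtype_card P (fun v => by rw [hP v, v.ord_inv]; omega)
  simp only [hcardZ, hcardP]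
  have hsumZ : ∑ c ∈ C, ((Module.finrank K⟮x⟯ F : ℤ) - ((Z c).card : ℤ))
      ≤ ∑ c ∈ C, ∑ v ∈ Z c, (W - E) v := Finset.sum_le_sum (fun c _ => hzero c)
  linarith

include h in
/-- **Hurwitz genus inequality**, in terms of the genus:
`Σ_{c ∈ C} (n - r_c) - n - r_∞ ≤ 2 g - 2`. -/
theorem fsHurwitz_genus_le (C : Finset K) :
    ∑ c ∈ C, ((Module.finrank K⟮x⟯ F : ℤ)
          - (Nat.card {v : Place K F // 0 < v.ord (x - algebraMap K F c)} : ℤ))
        - (Module.finrank K⟮x⟯ F : ℤ) - (Nat.card {v : Place K F // 0 < v.ord x⁻¹} : ℤ)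
      ≤ 2 * (genusFF K F : ℤ) - 2 := by
  have hcan : HasCanonicalDivisor (K := K) (F := F) := fsHasCanonicalDivisor (x := x)
  have hdx : D K F x ≠ 0 := fsD_ne_zero (K := K) (x := x)
  rw [← fsDegree_canonical (x := x) hdx]
  exact fsHurwitz_le (x := x) C hdx _ (canonicalDivisorOf_apply hdx)

include h in
/-- **Riemann–Hurwitz formula, tame case** (any characteristic; no local parametrisations
needed): if all ramification indices of `x` are nonzero in `K` and `C` contains all finite
branch values, then `deg W = Σ_{c ∈ C} (n - r_c) - n - r_∞`. -/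
theorem fsHurwitz_eq_of_tame (C : Finset K)
    (hC : ∀ c : K, c ∉ C →
      Nat.card {v : Place K F // 0 < v.ord (x - algebraMap K F c)} = Module.finrank K⟮x⟯ F)
    (htame : ∀ (v : Place K F) (c : K), 0 < v.ord (x - algebraMap K F c) →
      ((v.ord (x - algebraMap K F c) : ℤ) : K) ≠ 0)
    (htame' : ∀ v : Place K F, v.ord x < 0 → ((v.ord x : ℤ) : K) ≠ 0)
    {ω : Ω[F⁄K]} (hω : ω ≠ 0) (W : Divisor K F)
    (hW : ∀ v : Place K F, W v = v.ordDifferential ω) :
    Divisor.degree W
      = ∑ c ∈ C, ((Module.finrank K⟮x⟯ F : ℤ)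
            - (Nat.card {v : Place K F // 0 < v.ord (x - algebraMap K F c)} : ℤ))
        - (Module.finrank K⟮x⟯ F : ℤ) - (Nat.card {v : Place K F // 0 < v.ord x⁻¹} : ℤ) := by
  classical
  have hbase : RRBase K F := rrBase_of_ffSep x
  have hnt : Nontrivial Ω[F⁄K] := fsNontrivial_kaehler (K := K) (x := x)
  have hgen : ∀ v : Place K F, v.DCoordGenerates := fsDCoordGenerates (x := x)
  have hxt : Transcendental K x := h.trans
  have hdx : D K F x ≠ 0 := fsD_ne_zero (K := K) (x := x)
  obtain ⟨g, hg⟩ : ∃ g : F, g • D K F x = ω := by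
    have : ω ∈ Submodule.span F {D K F x} := by
      rw [fsSpan_D_eq_top (K := K) (x := x)]; exact Submodule.mem_top
    exact Submodule.mem_span_singleton.1 this
  have hg0 : g ≠ 0 := by
    rintro rfl
    exact hω (by rw [← hg, zero_smul])
  obtain ⟨E, hE, hEdeg⟩ := fsExists_principal (K := K) (x := x) g
  have hD' : ∀ v, (W - E) v = v.ordDifferential (D K F x) := by
    intro v
    have := hgen v
    rw [Finsupp.sub_apply, hW v, hE v, ← hg, kl_ordDifferential_smul v hdx hg0]
    ring
  have hdeg : Divisor.degree W = Divisor.degree (W - E) := by rw [map_sub, hEdeg, sub_zero]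
  rw [hdeg]
  obtain ⟨P, hP, hPsum⟩ := fsExists_poles (K := K) (x := x)
  choose Z hZ hZsum using fun c : K => fsExists_zeros (K := K) (x := x) c
  have hval_pole : ∀ v ∈ P, (W - E) v = v.ord x - 1 := by
    intro v hv
    have := hgen v
    rw [hD' v]
    exact hw_ordDifferential_D_eq v (htame' v ((hP v).1 hv))
  have hval_zero : ∀ c, ∀ v ∈ Z c, (W - E) v = v.ord (x - algebraMap K F c) - 1 := by
    intro c v hv
    have := hgen v
    rw [hD' v]
    have hd : D K F (x - algebraMap K F c) = D K F x := by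
      rw [map_sub, Derivation.map_algebraMap, sub_zero]
    rw [← hd]
    exact hw_ordDifferential_D_eq v (htame v c ((hZ c v).1 hv))
  have hcen : ∀ v : Place K F, ¬ v.ord x < 0 → ∃ c : K, v ∈ Z c := by
    intro v hv
    obtain ⟨c, hc⟩ := ffExists_center v hxt (not_lt.1 hv)
    exact ⟨c, (hZ c v).2 hc⟩
  let cen : Place K F → K := fun v => if hv : v.ord x < 0 then 0 else (hcen v hv).choose
  have hcen_mem : ∀ v, ¬ v.ord x < 0 → v ∈ Z (cen v) := by
    intro v hv
    simp only [cen, dif_neg hv]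
    exact (hcen v hv).choose_spec
  let C' : Finset K := C ∪ (W - E).support.image cen
  have hsupp : (W - E).support ⊆ P ∪ C'.biUnion Z := by
    intro v hv
    by_cases hvx : v.ord x < 0
    · exact Finset.mem_union_left _ ((hP v).2 hvx)
    · refine Finset.mem_union_right _ (Finset.mem_biUnion.2 ⟨cen v, ?_, hcen_mem v hvx⟩)
      exact Finset.mem_union_right _ (Finset.mem_image_of_mem cen hv)
  rw [fsDegree_eq_sum (x := x) (W - E) _ hsupp]
  have hdisjPZ : Disjoint P (C'.biUnion Z) := by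
    rw [Finset.disjoint_left]
    intro v hvP hvZ
    obtain ⟨c, -, hvc⟩ := Finset.mem_biUnion.1 hvZ
    have h1 := (hP v).1 hvP
    have h2 := hw_ord_nonneg_of_center v ((hZ c v).1 hvc)
    omega
  have hdisjZ : (C' : Set K).PairwiseDisjoint Z := by
    intro c _ c' _ hne
    rw [Function.onFun, Finset.disjoint_left]
    intro v hv hv'
    exact hne (hw_center_unique v ((hZ c v).1 hv) ((hZ c' v).1 hv'))
  rw [Finset.sum_union hdisjPZ, Finset.sum_biUnion hdisjZ]
  have hpole : ∑ v ∈ P, (W - E) v = - (Module.finrank K⟮x⟯ F : ℤ) - (P.card : ℤ) := by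
    rw [Finset.sum_congr rfl hval_pole, Finset.sum_sub_distrib, hPsum]
    simp
  have hzero : ∀ c, ∑ v ∈ Z c, (W - E) v = (Module.finrank K⟮x⟯ F : ℤ) - ((Z c).card : ℤ) := by
    intro c
    rw [Finset.sum_congr rfl (hval_zero c), Finset.sum_sub_distrib, hZsum c]
    simp
  have hcardZ : ∀ c, Nat.card {v : Place K F // 0 < v.ord (x - algebraMap K F c)}
      = (Z c).card := fun c => Nat.subtype_card (Z c) (hZ c)
  have hcardP : Nat.card {v : Place K F // 0 < v.ord x⁻¹} = P.card :=
    Nat.subtype_card P (fun v => by rw [hP v, v.ord_inv]; omega)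
  rw [hpole, Finset.sum_congr rfl (fun c _ => hzero c), hcardP]
  have hsub : ∑ c ∈ C', ((Module.finrank K⟮x⟯ F : ℤ) - ((Z c).card : ℤ))
      = ∑ c ∈ C, ((Module.finrank K⟮x⟯ F : ℤ) - ((Z c).card : ℤ)) := by
    symm
    apply Finset.sum_subset Finset.subset_union_left
    intro c _ hc
    rw [← hcardZ c, hC c hc, sub_self]
  rw [hsub]
  simp only [hcardZ]
  ring

include h in
/-- **Riemann–Hurwitz formula in characteristic zero** (no local parametrisations needed). -/
theorem fsHurwitz_eq [CharZero K] (C : Finset K)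
    (hC : ∀ c : K, c ∉ C →
      Nat.card {v : Place K F // 0 < v.ord (x - algebraMap K F c)} = Module.finrank K⟮x⟯ F)
    {ω : Ω[F⁄K]} (hω : ω ≠ 0) (W : Divisor K F)
    (hW : ∀ v : Place K F, W v = v.ordDifferential ω) :
    Divisor.degree W
      = ∑ c ∈ C, ((Module.finrank K⟮x⟯ F : ℤ)
            - (Nat.card {v : Place K F // 0 < v.ord (x - algebraMap K F c)} : ℤ))
        - (Module.finrank K⟮x⟯ F : ℤ) - (Nat.card {v : Place K F // 0 < v.ord x⁻¹} : ℤ) :=
  fsHurwitz_eq_of_tame (x := x) C hC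
    (fun _ _ hv => Int.cast_ne_zero.2 hv.ne') (fun _ hv => Int.cast_ne_zero.2 hv.ne) hω W hW

end Global

end Fermat.Agent.RRlib

end
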