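/-
Generic function-field block in ANY characteristic (helper12): the RELATIVE Hurwitz genus
inequality for an extension `F' / F` of function fields over an algebraically closed field `K`,
in the language of the Prelude (`Place.restrict`, `Place.ramificationIndex`, `Place.fiber`,
`Divisor.pullback`, `FundamentalIdentity`).

* `hw_rel_local` : chain rule at a place `w` of `F'`, `v = w.restrict F`, `e = e(w|v)`:
    `e * ord_v (dx) + (e - 1) ≤ ord_w (dx)`;
* `fsHurwitz_rel_le` : `n (2 g - 2) + Σ_{P ∈ T} (n - #fiber P) ≤ 2 g' - 2`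
  for every finite set `T` of places of `F` (`n = [F' : F]`).
-/
import Mathlib
import Fermat.Agent.RRlib.Hurwitz
import Fermat.Prelude.Def_AlgebraicCurve_DivisorPushPull

set_option autoImplicit false

noncomputable section

namespace Fermat.Agent.RRlib

open AlgebraicCurve Fermat.Agent.S24lib Fermat.Agent.FFlib IntermediateField KaehlerDifferential

variable {K F F' : Type*} [Field K] [Field F] [Field F']
  [Algebra K F] [Algebra K F'] [Algebra F F'] [IsScalarTower K F F'] [Algebra.IsIntegral F F']

/-- **Chain rule** (any characteristic): for a place `w` of `F'` over `v = w|_F` with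
ramification index `e`, and `x ∈ F` with `dx ≠ 0` in `Ω[F'/K]`:
`e * ord_v (dx) + (e - 1) ≤ ord_w (dx)`. -/
theorem hw_rel_local [RRBase K F] [RRBase K F'] (w : Place K F')
    [(w.restrict F).DCoordGenerates] [w.DCoordGenerates]
    [Nontrivial Ω[F⁄K]] [Nontrivial Ω[F'⁄K]] {x : F}
    (hx : D K F' (algebraMap F F' x) ≠ 0) :
    (w.ramificationIndex F : ℤ) * (w.restrict F).ordDifferential (D K F x)
        + ((w.ramificationIndex F : ℤ) - 1)
      ≤ w.ordDifferential (D K F' (algebraMap F F' x)) := by
  set v := w.restrict F with hv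
  obtain ⟨t, ht, hd⟩ := tl_dCoord v
  set a := v.differentialCoeff (D K F x) with ha
  have h1 : D K F x = a • D K F t := by
    rw [← hd]
    exact (v.differentialCoeff_smul_dCoord _).symm
  -- transport to `F'`
  have h2 : D K F' (algebraMap F F' x) = algebraMap F F' a • D K F' (algebraMap F F' t) := by
    have := congrArg (KaehlerDifferential.map K K F F') h1
    rw [map_D, map_smul, map_D, algebra_compatible_smul F' a] at this
    exact this
  have ha' : algebraMap F F' a ≠ 0 := by
    intro h0
    rw [h0, zero_smul] at h2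
    exact hx h2
  have ht' : D K F' (algebraMap F F' t) ≠ 0 := by
    intro h0
    rw [h0, smul_zero] at h2
    exact hx h2
  have hordt : w.ord (algebraMap F F' t) = (w.ramificationIndex F : ℤ) := by
    rw [w.ord_restrict t, ← hv, ht, mul_one]
  have horda : w.ord (algebraMap F F' a)
      = (w.ramificationIndex F : ℤ) * v.ordDifferential (D K F x) := by
    rw [w.ord_restrict a]
    rfl
  have h3 := hw_ordDifferential_D_ge w ht'
  rw [hordt] at h3
  rw [h2, kl_ordDifferential_smul w ht' ha', horda]
  linarith

section Global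

variable [IsAlgClosed K] {x : F} [h : FFSep K x] [h' : FFSep K (algebraMap F F' x)]
  [HasPrincipalDivisors K F'] [FundamentalIdentity K F F']

include h h' in
/-- **Relative Hurwitz genus inequality** (any characteristic):
`n (2 g_F - 2) + Σ_{P ∈ T} (n - #fiber P) ≤ 2 g_{F'} - 2`. -/
theorem fsHurwitz_rel_le (T : Finset (Place K F)) :
    (Module.finrank F F' : ℤ) * (2 * (genusFF K F : ℤ) - 2)
        + ∑ P ∈ T, ((Module.finrank F F' : ℤ) - ((P.fiber F').card : ℤ))
      ≤ 2 * (genusFF K F' : ℤ) - 2 := by
  classical
  have hb : RRBase K F := rrBase_of_ffSep x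
  have hb' : RRBase K F' := rrBase_of_ffSep (algebraMap F F' x)
  have hnt : Nontrivial Ω[F⁄K] := fsNontrivial_kaehler (K := K) (x := x)
  have hnt' : Nontrivial Ω[F'⁄K] := fsNontrivial_kaehler (K := K) (x := algebraMap F F' x)
  have hgen : ∀ v : Place K F, v.DCoordGenerates := fsDCoordGenerates (x := x)
  have hgen' : ∀ w : Place K F', w.DCoordGenerates :=
    fsDCoordGenerates (x := algebraMap F F' x)
  have hcan : HasCanonicalDivisor (K := K) (F := F) := fsHasCanonicalDivisor (x := x)
  have hcan' : HasCanonicalDivisor (K := K) (F := F') :=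
    fsHasCanonicalDivisor (x := algebraMap F F' x)
  have hdx : D K F x ≠ 0 := fsD_ne_zero (K := K) (x := x)
  have hdx' : D K F' (algebraMap F F' x) ≠ 0 := fsD_ne_zero (K := K) (x := algebraMap F F' x)
  rw [← fsDegree_canonical (x := x) hdx, ← fsDegree_canonical (x := algebraMap F F' x) hdx']
  set W := canonicalDivisorOf hdx with hW
  set W' := canonicalDivisorOf hdx' with hW'
  -- pointwise inequality
  have hloc : ∀ w : Place K F', Divisor.pullback F' W w + ((w.ramificationIndex F : ℤ) - 1)
      ≤ W' w := by
    intro w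
    have := hgen (w.restrict F)
    have := hgen' w
    rw [Divisor.pullback_apply, canonicalDivisorOf_apply, canonicalDivisorOf_apply]
    exact hw_rel_local w hdx'
  have hepos : ∀ w : Place K F', (0 : ℤ) ≤ (w.ramificationIndex F : ℤ) - 1 := by
    intro w
    have := w.ramificationIndex_pos (F := F)
    omega
  -- the divisor `R = W' - π^* W`
  set R : Divisor K F' := W' - Divisor.pullback F' W with hR
  have hRge : ∀ w : Place K F', ((w.ramificationIndex F : ℤ) - 1) ≤ R w := by
    intro w
    rw [hR, Finsupp.sub_apply]
    have := hloc w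
    linarith
  have hdegW' : Divisor.degree W' = (Module.finrank F F' : ℤ) * Divisor.degree W
      + Divisor.degree R := by
    rw [hR, map_sub, Divisor.degree_pullback]
    ring
  rw [hdegW']
  -- lower bound for `deg R`
  set S : Finset (Place K F') := T.biUnion (fun P => P.fiber F') with hS
  have hdegR : Divisor.degree R = ∑ w ∈ R.support ∪ S, R w :=
    fsDegree_eq_sum (x := algebraMap F F' x) R _ Finset.subset_union_left
  have h1 : ∑ w ∈ S, ((w.ramificationIndex F : ℤ) - 1) ≤ ∑ w ∈ R.support ∪ S, R w := by
    calc ∑ w ∈ S, ((w.ramificationIndex F : ℤ) - 1)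
        ≤ ∑ w ∈ S, R w := Finset.sum_le_sum (fun w _ => hRge w)
      _ ≤ ∑ w ∈ R.support ∪ S, R w :=
          Finset.sum_le_sum_of_subset_of_nonneg Finset.subset_union_right
            (fun w _ _ => le_trans (hepos w) (hRge w))
  have hdisj : (T : Set (Place K F)).PairwiseDisjoint (fun P => P.fiber F') := by
    intro P _ P' _ hne
    rw [Function.onFun, Finset.disjoint_left]
    intro w hw hw'
    exact hne ((Place.mem_fiber.1 hw).symm.trans (Place.mem_fiber.1 hw'))
  have h2 : ∑ w ∈ S, ((w.ramificationIndex F : ℤ) - 1)
      = ∑ P ∈ T, ((Module.finrank F F' : ℤ) - ((P.fiber F').card : ℤ)) := by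
    rw [hS, Finset.sum_biUnion hdisj]
    refine Finset.sum_congr rfl fun P _ => ?_
    have hFI := FundamentalIdentity.sum_ramificationIndex_mul_deg (K := K) (F := F) (F' := F') P
    have hdeg1 : ∀ w ∈ P.fiber F', (w.ramificationIndex F : ℤ) * (w.deg : ℤ)
        = (w.ramificationIndex F : ℤ) := by
      intro w _
      rw [ffDeg_eq_one w h'.trans, Nat.cast_one, mul_one]
    rw [Finset.sum_congr rfl hdeg1, ffDeg_eq_one P h.trans, Nat.cast_one, mul_one] at hFI
    rw [Finset.sum_sub_distrib, hFI]
    simp
  rw [hdegR]
  linarith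

end Global

end Fermat.Agent.RRlib

end
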