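/-
Riemann–Roch library (item 65), piece I0a (helper12): the `RRBase` hypotheses hold for a function
field in one variable over an algebraically closed field of characteristic zero
(`FFData K x`: `x` transcendental, `F` finite over `K(x)`, `CharZero K`).
-/
import Mathlib
import Fermat.Agent.RRlib.Defs
import Fermat.Agent.S24lib.FFPrincipal

set_option autoImplicit false

noncomputable section

namespace Fermat.Agent.RRlib

open AlgebraicCurve Fermat.Agent.S24lib

variable {K F : Type*} [Field K] [Field F] [Algebra K F]

/-- `RRBase` from `FFData`. -/
theorem rrBase_of_ffData [IsAlgClosed K] (x : F) [h : FFData K x] : RRBase K F where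
  residue_surjective v := ffResidue_surjective v h.trans
  principal f _ := ffExists_principal (x := x) f
  const_of_forall_ord_nonneg f hf := ffConst_of_forall_ord_nonneg (x := x) f hf
  nonempty_place := ffNonempty_place (x := x)

end Fermat.Agent.RRlib

end
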