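/-
Riemann–Roch library (item 65), piece W4: duality `i(D) = ℓ(W − D)` and the Riemann–Roch theorem
(helper27).  Blueprint: NOTES/RR_blueprint.md, signatures: NOTES/RR_signatures.lean.txt.
-/
import Mathlib
import Fermat.Agent.RRlib.Defs
import Fermat.Agent.RRlib.Basic
import Fermat.Agent.RRlib.LFinite
import Fermat.Agent.RRlib.H1Finite
import Fermat.Agent.RRlib.WeilBasic
import Fermat.Agent.RRlib.WeilDim
import Fermat.Agent.RRlib.WeilDiv

set_option autoImplicit false

noncomputable section

namespace Fermat.Agent.RRlib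

open AlgebraicCurve

variable {K F : Type*} [Field K] [Field F] [Algebra K F]

/-! ### `fmul` is `K`-linear in the function -/

theorem dual_fmul_add (f g : F) (ω : Module.Dual K ↥(repartitions K F)) :
    fmul (f + g) ω = fmul f ω + fmul g ω := by
  apply LinearMap.ext
  intro α
  rw [LinearMap.add_apply, fmul_apply, fmul_apply, fmul_apply, add_smul, map_add]

theorem dual_fmul_ksmul (c : K) (f : F) (ω : Module.Dual K ↥(repartitions K F)) :
    fmul (c • f) ω = c • fmul f ω := by
  apply LinearMap.ext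
  intro α
  rw [LinearMap.smul_apply, fmul_apply, fmul_apply, smul_assoc, map_smul]

theorem dual_fmul_zero (ω : Module.Dual K ↥(repartitions K F)) :
    fmul (0 : F) ω = 0 := by
  apply LinearMap.ext
  intro α
  rw [fmul_apply, zero_smul, map_zero, LinearMap.zero_apply]

/-- `f ↦ f • ω` as a `K`-linear map `F → Hom_K(A, K)`. -/
def dual_fmulHom (ω : Module.Dual K ↥(repartitions K F)) :
    F →ₗ[K] Module.Dual K ↥(repartitions K F) where
  toFun f := fmul f ω
  map_add' f g := dual_fmul_add f g ω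
  map_smul' c f := dual_fmul_ksmul c f ω

@[simp] theorem dual_fmulHom_apply (ω : Module.Dual K ↥(repartitions K F)) (f : F) :
    dual_fmulHom ω f = fmul f ω := rfl

/-! ### the divisor of `f • ω` -/

/-- if `ω` has divisor `W` then `f • ω` has divisor `W + (f)` -/
theorem dual_vanishesOn_fmul_iff [RRBase K F] {ω : Module.Dual K ↥(repartitions K F)}
    {W : Divisor K F} (hW : ∀ D : Divisor K F, VanishesOn ω D ↔ D ≤ W) {f : F} (hf : f ≠ 0)
    (D : Divisor K F) : VanishesOn (fmul f ω) D ↔ D ≤ W + divOf (K := K) f := by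
  have h := fmul_vanishesOn_iff (K := K) hf ω (D - divOf (K := K) f)
  rw [sub_add_cancel] at h
  rw [h, hW, sub_le_iff_le_add]

/-- for `f ≠ 0`: `f • ω ∈ Ω(D)` iff `f ∈ L(W − D)` -/
theorem dual_fmul_mem_weilDiffOf_iff [RRBase K F] {ω : Module.Dual K ↥(repartitions K F)}
    (hω : ω ∈ weilDiff K F) {W : Divisor K F}
    (hW : ∀ D : Divisor K F, VanishesOn ω D ↔ D ≤ W) {f : F} (hf : f ≠ 0)
    (D : Divisor K F) : fmul f ω ∈ weilDiffOf D ↔ f ∈ riemannRochSpace (W - D) := by
  rw [mem_riemannRochSpace_iff_divOf hf]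
  constructor
  · rintro ⟨-, h⟩
    have := (dual_vanishesOn_fmul_iff hW hf D).mp h
    have h2 : 0 ≤ W + divOf (K := K) f - D := sub_nonneg.mpr this
    rwa [show W - D + divOf (K := K) f = W + divOf (K := K) f - D from by abel]
  · intro h
    refine ⟨(fmul_mem_weilDiff f hω).1, (dual_vanishesOn_fmul_iff hW hf D).mpr ?_⟩
    rw [show W - D + divOf (K := K) f = W + divOf (K := K) f - D from by abel] at h
    exact sub_nonneg.mp h

/-- `L(W − D) ≃ Ω(D)`, `f ↦ f • ω`. -/
theorem dual_exists_linearEquiv [RRHyp K F] {W : Divisor K F} (hW : IsCanonicalDivisor W)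
    (D : Divisor K F) : Nonempty (↥(riemannRochSpace (W - D)) ≃ₗ[K] ↥(weilDiffOf D)) := by
  obtain ⟨ω, hω, hω0, hWω⟩ := hW
  have hmem : ∀ f : ↥(riemannRochSpace (W - D)), fmul (f : F) ω ∈ weilDiffOf D := by
    intro f
    rcases eq_or_ne (f : F) 0 with h0 | h0
    · rw [h0, dual_fmul_zero]
      exact Submodule.zero_mem _
    · exact (dual_fmul_mem_weilDiffOf_iff hω hWω h0 D).mpr f.2
  let φ : ↥(riemannRochSpace (W - D)) →ₗ[K] ↥(weilDiffOf D) :=
    LinearMap.codRestrict (weilDiffOf D)
      ((dual_fmulHom ω).comp (riemannRochSpace (W - D)).subtype) hmem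
  have hφ : ∀ f : ↥(riemannRochSpace (W - D)), ((φ f : ↥(weilDiffOf D)) :
      Module.Dual K ↥(repartitions K F)) = fmul (f : F) ω := fun f => rfl
  refine ⟨LinearEquiv.ofBijective φ ⟨?_, ?_⟩⟩
  · refine (injective_iff_map_eq_zero φ).mpr ?_
    intro f hf
    have h1 : fmul (f : F) ω = 0 := by
      rw [← hφ f, hf]
      rfl
    rcases (fmul_eq_zero_iff (K := K) (f : F) ω).mp h1 with h | h
    · exact Subtype.ext h
    · exact absurd h hω0
  · rintro ⟨η, hη⟩
    obtain ⟨f, hf⟩ := exists_eq_fmul hω hω0 (weilDiffOf_le_weilDiff D hη)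
    subst hf
    rcases eq_or_ne f 0 with h0 | h0
    · refine ⟨0, Subtype.ext ?_⟩
      rw [hφ]
      show fmul (0 : F) ω = fmul f ω
      rw [h0]
    · have hfL : f ∈ riemannRochSpace (W - D) :=
        (dual_fmul_mem_weilDiffOf_iff hω hWω h0 D).mp hη
      exact ⟨⟨f, hfL⟩, Subtype.ext (hφ _)⟩

/-! ## W4 -/

theorem idx_eq_ell_sub [RRHyp K F] {W : Divisor K F} (hW : IsCanonicalDivisor W)
    (D : Divisor K F) : idx D = ell (W - D) := by
  obtain ⟨e⟩ := dual_exists_linearEquiv hW D
  rw [← (finrank_weilDiffOf D).2, ell, e.finrank_eq]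

/-- **Riemann–Roch** -/
theorem riemann_roch [RRHyp K F] {W : Divisor K F} (hW : IsCanonicalDivisor W)
    (D : Divisor K F) :
    (ell D : ℤ) - ell (W - D) = Divisor.degree D + 1 - genusFF K F := by
  rw [← idx_eq_ell_sub hW D]
  exact ell_sub_idx D

theorem ell_canonical [RRHyp K F] {W : Divisor K F} (hW : IsCanonicalDivisor W) :
    ell W = genusFF K F := by
  have h := riemann_roch hW (0 : Divisor K F)
  rw [sub_zero, ell_zero, map_zero] at h
  have : (ell W : ℤ) = genusFF K F := by push_cast at h; linarith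
  exact_mod_cast this

theorem degree_canonical [RRHyp K F] {W : Divisor K F} (hW : IsCanonicalDivisor W) :
    Divisor.degree W = 2 * (genusFF K F : ℤ) - 2 := by
  have h := riemann_roch hW W
  rw [sub_self, ell_zero, ell_canonical hW] at h
  push_cast at h
  linarith

theorem ell_eq_of_degree_gt [RRHyp K F] {D : Divisor K F}
    (h : 2 * (genusFF K F : ℤ) - 2 < Divisor.degree D) :
    (ell D : ℤ) = Divisor.degree D + 1 - genusFF K F := by
  obtain ⟨W, hW⟩ := exists_isCanonicalDivisor (K := K) (F := F)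
  have hdeg : Divisor.degree (W - D) < 0 := by
    rw [map_sub, degree_canonical hW]
    linarith
  have h0 : ell (W - D) = 0 := by
    rw [ell, riemannRochSpace_eq_bot_of_degree_neg hdeg, finrank_bot]
  have hrr := riemann_roch hW D
  rw [h0] at hrr
  push_cast at hrr
  linarith

theorem isCanonicalDivisor_add_divOf [RRHyp K F] {W : Divisor K F} (hW : IsCanonicalDivisor W)
    {f : F} (hf : f ≠ 0) : IsCanonicalDivisor (W + divOf (K := K) f) := by
  obtain ⟨ω, hω, hω0, hWω⟩ := hW
  refine ⟨fmul f ω, fmul_mem_weilDiff f hω, ?_, fun D => dual_vanishesOn_fmul_iff hWω hf D⟩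
  intro h
  rcases (fmul_eq_zero_iff (K := K) f ω).mp h with h | h
  · exact hf h
  · exact hω0 h

theorem dual_divOf_mem_principal [RRBase K F] {f : F} (hf : f ≠ 0) :
    divOf (K := K) f ∈ Divisor.principal (K := K) (F := F) :=
  ⟨f, hf, fun v => divOf_apply hf v⟩

theorem isCanonicalDivisor_unique [RRHyp K F] {W W' : Divisor K F} (hW : IsCanonicalDivisor W)
    (hW' : IsCanonicalDivisor W') : W' - W ∈ Divisor.principal (K := K) (F := F) := by
  obtain ⟨ω, hω, hω0, hWω⟩ := hW
  obtain ⟨ω', hω', hω'0, hWω'⟩ := hW'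
  obtain ⟨f, hf⟩ := exists_eq_fmul hω hω0 hω'
  have hf0 : f ≠ 0 := by
    rintro rfl
    exact hω'0 (hf.trans (dual_fmul_zero ω))
  have hiff : ∀ D : Divisor K F, D ≤ W' ↔ D ≤ W + divOf (K := K) f := by
    intro D
    rw [← hWω' D, hf]
    exact dual_vanishesOn_fmul_iff hWω hf0 D
  have heq : W' = W + divOf (K := K) f :=
    le_antisymm ((hiff W').mp le_rfl) ((hiff _).mpr le_rfl)
  rw [heq, add_sub_cancel_left]
  exact dual_divOf_mem_principal hf0

/-- a divisor of degree `2g − 2` with `ℓ ≥ g` is canonical -/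
theorem isCanonicalDivisor_of_degree_of_ell [RRHyp K F] {W' : Divisor K F}
    (hd : Divisor.degree W' = 2 * (genusFF K F : ℤ) - 2) (hl : genusFF K F ≤ ell W') :
    IsCanonicalDivisor W' := by
  obtain ⟨W, hW⟩ := exists_isCanonicalDivisor (K := K) (F := F)
  have hrr := riemann_roch hW W'
  rw [hd] at hrr
  have hpos : 0 < ell (W - W') := by
    have : (0 : ℤ) < ell (W - W') := by
      have : (genusFF K F : ℤ) ≤ ell W' := by exact_mod_cast hl
      linarith
    exact_mod_cast this
  -- a nonzero element of `L(W − W')`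
  have hne : riemannRochSpace (W - W') ≠ ⊥ := by
    intro hbot
    rw [ell, hbot, finrank_bot] at hpos
    exact lt_irrefl _ hpos
  obtain ⟨f, hfL, hf0⟩ := Submodule.exists_mem_ne_zero_of_ne_bot hne
  have hge : 0 ≤ W - W' + divOf (K := K) f := (mem_riemannRochSpace_iff_divOf hf0 _).mp hfL
  have hdeg : Divisor.degree (W - W' + divOf (K := K) f) ≤ Divisor.degree (0 : Divisor K F) := by
    rw [map_add, map_sub, degree_divOf, degree_canonical hW, hd, map_zero]
    linarith
  have hzero : (0 : Divisor K F) = W - W' + divOf (K := K) f := eq_of_le_of_degree_le hge hdeg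
  have heq : W' = W + divOf (K := K) f := by
    have : W - W' + divOf (K := K) f + W' = W + divOf (K := K) f := by abel
    rw [← hzero, zero_add] at this
    exact this
  rw [heq]
  exact isCanonicalDivisor_add_divOf hW hf0

end Fermat.Agent.RRlib

end
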