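/-
Riemann–Roch library (item 65), piece TC3, corollaries: the degree of a Kähler canonical divisor
is `2g − 2` and the Prelude's `genus K F` equals `genusFF K F` (helper16).
-/
import Mathlib
import Fermat.Agent.RRlib.Duality
import Fermat.Agent.RRlib.KaehlerLink

set_option autoImplicit false

noncomputable section

namespace Fermat.Agent.RRlib

open AlgebraicCurve KaehlerDifferential

variable {K F : Type*} [Field K] [Field F] [Algebra K F]

/-- degree of a Kähler canonical divisor -/
theorem degree_canonicalDivisorOf [RRHyp K F] [HasCanonicalDivisor (K := K) (F := F)]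
    [Nontrivial Ω[F⁄K]] (hgen : ∀ v : Place K F, v.DCoordGenerates) {η : Ω[F⁄K]} (hη : η ≠ 0) :
    Divisor.degree (canonicalDivisorOf hη) = 2 * (genusFF K F : ℤ) - 2 :=
  degree_canonical (isCanonicalDivisor_of_kaehler hgen hη _ (canonicalDivisorOf_apply hη))

/-- **the two genera agree** -/
theorem genus_eq_genusFF [RRHyp K F] [HasCanonicalDivisor (K := K) (F := F)]
    [Nontrivial Ω[F⁄K]] (hgen : ∀ v : Place K F, v.DCoordGenerates) :
    genus K F = genusFF K F := by
  have hex : ∃ ω : Ω[F⁄K], ω ≠ 0 := exists_ne 0
  rw [genus, dif_pos hex, degree_canonicalDivisorOf hgen hex.choose_spec]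
  have : (2 * (genusFF K F : ℤ) - 2 + 2).toNat = 2 * genusFF K F := by omega
  rw [this]
  omega

end Fermat.Agent.RRlib

end
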