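/-
Riemann–Roch library (item 65), consumer wiring (helper16): the function field
`FF N = modularFunctionFieldBar N` of `X₀(N)` over `Kbar = AlgebraicClosure ℚ` satisfies the
Riemann–Roch hypotheses, has divisors of differentials, and its genus (in both senses) is the
classical genus formula `= dim S₂(Γ₀(N))`.
-/
import Mathlib
import Fermat.Agent.S24lib.Final
import Fermat.Agent.RRlib.Inst
import Fermat.Agent.RRlib.KaehlerExists
import Fermat.Agent.RRlib.KaehlerGenus

set_option autoImplicit false

noncomputable section

namespace Fermat.Agent.RRlib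

open AlgebraicCurve ModularCurve Fermat.Agent.S24lib KaehlerDifferential
open scoped MatrixGroups
open CongruenceSubgroup

variable (N : ℕ) [NeZero N]

/-- the Riemann–Roch hypotheses hold for the function field of `X₀(N)` over `ℚ̄` -/
theorem mod_rrHyp : RRHyp Kbar (FF N) := by
  have := fin_ffData N
  exact rrHyp_of_ffData (jF N)

/-- coordinate differentials generate -/
theorem mod_dCoordGenerates (v : Place Kbar (FF N)) : v.DCoordGenerates := by
  have := fin_ffData N
  exact ffDCoordGenerates (x := jF N) v

/-- `Ω ≠ 0` -/
theorem mod_nontrivial_kaehler : Nontrivial Ω[FF N⁄Kbar] := by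
  obtain ⟨ω, hω⟩ := fin_exists_differential N
  exact ⟨ω, 0, hω⟩

/-- divisors of differentials exist on `X₀(N)` -/
theorem mod_hasCanonicalDivisor : HasCanonicalDivisor (K := Kbar) (F := FF N) := by
  have := mod_rrHyp N
  have := mod_nontrivial_kaehler N
  exact hasCanonicalDivisor_of_rrHyp (mod_dCoordGenerates N)

/-- the Kähler genus of `X₀(N)` equals the Riemann–Roch genus `dim H¹(0)` -/
theorem mod_genus_eq_genusFF [HasCanonicalDivisor (K := Kbar) (F := FF N)] :
    genus Kbar (FF N) = genusFF Kbar (FF N) := by
  have := mod_rrHyp N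
  have := mod_nontrivial_kaehler N
  exact genus_eq_genusFF (mod_dCoordGenerates N)

/-- the Riemann–Roch genus of `X₀(N)` is the genus formula -/
theorem mod_genusFF : (genusFF Kbar (FF N) : ℚ) = genusFormula N := by
  have := mod_hasCanonicalDivisor N
  rw [← mod_genus_eq_genusFF]
  exact fin_genus N

/-- the Riemann–Roch genus of `X₀(N)` is `dim S₂(Γ₀(N))` -/
theorem mod_genusFF_eq_finrank :
    genusFF Kbar (FF N) = Module.finrank ℂ (CuspForm (Gamma0 N) 2) := by
  have h1 := mod_genusFF N
  have h2 := Fermat.Agent.S20.result N
  rw [← h2] at h1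
  exact_mod_cast h1

end Fermat.Agent.RRlib

end
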