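/-
RR library (item 65), piece C (helper20): corollaries of Riemann's inequality used by the consumers
(69 AJ, 67 S18).  Blueprint: NOTES/RR_blueprint.md.  Helper lemmas are prefixed `co_`.
-/
import Mathlib
import Fermat.Agent.RRlib.Defs
import Fermat.Agent.RRlib.Basic
import Fermat.Agent.RRlib.LFinite
import Fermat.Agent.RRlib.H1Finite

set_option autoImplicit false

noncomputable section

namespace Fermat.Agent.RRlib

open AlgebraicCurve

variable {K F : Type*} [Field K] [Field F] [Algebra K F]

theorem co_divOf_mem_principal [RRBase K F] {f : F} (hf : f ≠ 0) :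
    divOf (K := K) f ∈ Divisor.principal (K := K) (F := F) :=
  ⟨f, hf, fun v => divOf_apply hf v⟩

/-- `ℓ(D) > 0` gives an effective divisor linearly equivalent to `D` -/
theorem co_exists_effective_of_ell_pos [RRBase K F] {D : Divisor K F} (h : 0 < ell D) :
    ∃ E : Divisor K F, 0 ≤ E ∧ E - D ∈ Divisor.principal (K := K) (F := F) := by
  have hne : riemannRochSpace D ≠ ⊥ := by
    intro hbot
    rw [ell, hbot, finrank_bot] at h
    exact lt_irrefl _ h
  obtain ⟨f, hfmem, hf0⟩ := Submodule.exists_mem_ne_zero_of_ne_bot hne
  refine ⟨D + divOf (K := K) f, (mem_riemannRochSpace_iff_divOf (K := K) hf0 D).mp hfmem, ?_⟩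
  rw [add_sub_cancel_left]
  exact co_divOf_mem_principal hf0

theorem exists_effective_of_genus_le_degree [RRHyp K F] {D : Divisor K F}
    (h : (genusFF K F : ℤ) ≤ Divisor.degree D) :
    ∃ E : Divisor K F, 0 ≤ E ∧ E - D ∈ Divisor.principal (K := K) (F := F) := by
  apply co_exists_effective_of_ell_pos
  have := riemann_inequality (K := K) D
  have : (0 : ℤ) < ell D := by linarith
  exact_mod_cast this

/-- every class of degree `0` is `[E − g·P₀]` with `E ≥ 0` -/
theorem exists_effective_sub_smul [RRHyp K F] (P₀ : Place K F) {D : Divisor K F}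
    (hD : Divisor.degree D = 0) :
    ∃ E : Divisor K F, 0 ≤ E ∧ Divisor.degree E = genusFF K F ∧
      D - (E - (genusFF K F : ℤ) • Finsupp.single P₀ (1 : ℤ))
        ∈ Divisor.principal (K := K) (F := F) := by
  set G : Divisor K F := (genusFF K F : ℤ) • Finsupp.single P₀ (1 : ℤ) with hG
  have hGdeg : Divisor.degree G = genusFF K F := by
    rw [hG, map_zsmul, degree_single_one, smul_eq_mul, mul_one]
  have hdeg : (genusFF K F : ℤ) ≤ Divisor.degree (D + G) := by
    rw [map_add, hD, hGdeg, zero_add]
  obtain ⟨E, hE, hprin⟩ := exists_effective_of_genus_le_degree hdeg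
  refine ⟨E, hE, ?_, ?_⟩
  · obtain ⟨f, hf0, hf⟩ := hprin
    have hEeq : E = D + G + divOf (K := K) f := by
      ext v
      have := hf v
      rw [Finsupp.sub_apply] at this
      rw [Finsupp.add_apply, divOf_apply hf0, ← this]
      abel
    rw [hEeq, map_add, map_add, hD, hGdeg, degree_divOf]
    ring
  · have e : D - (E - G) = -(E - (D + G)) := by abel
    rw [e]
    exact AddSubgroup.neg_mem _ hprin

/-- a non-constant function with a single pole of order `≤ g + 1` at a given place -/
theorem exists_pole_only_at [RRHyp K F] (P : Place K F) :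
    ∃ f : F, f ∉ Set.range (algebraMap K F) ∧ (∀ v : Place K F, v ≠ P → 0 ≤ v.ord f) ∧
      -((genusFF K F : ℤ) + 1) ≤ P.ord f := by
  classical
  set D : Divisor K F := ((genusFF K F : ℤ) + 1) • Finsupp.single P (1 : ℤ) with hD
  have hDdeg : Divisor.degree D = (genusFF K F : ℤ) + 1 := by
    rw [hD, map_zsmul, degree_single_one, smul_eq_mul, mul_one]
  have hDP : D P = (genusFF K F : ℤ) + 1 := by
    simp [hD]
  have hDv : ∀ v : Place K F, v ≠ P → D v = 0 := by
    intro v hv
    simp [hD, hv]
  have hfin := finite_riemannRochSpace (K := K) D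
  have hell : 2 ≤ ell D := by
    have := riemann_inequality (K := K) D
    rw [hDdeg] at this
    have : (2 : ℤ) ≤ ell D := by linarith
    exact_mod_cast this
  -- the constants form a subspace of dimension ≤ 1
  set C : Submodule K F := LinearMap.range (Algebra.linearMap K F) with hC
  have hCrank : Module.finrank K C ≤ 1 := by
    have h1 := LinearMap.finrank_range_le (Algebra.linearMap K F)
    rwa [Module.finrank_self] at h1
  -- so `L(D)` is not contained in the constants
  have hnot : ¬ riemannRochSpace D ≤ C := by
    intro hle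
    have hCfin : Module.Finite K C := Module.Finite.range _
    have := Submodule.finrank_mono hle
    have h2 : ell D ≤ 1 := this.trans hCrank
    omega
  obtain ⟨f, hfD, hfC⟩ := SetLike.not_le_iff_exists.mp hnot
  have hf0 : f ≠ 0 := by
    rintro rfl
    exact hfC (zero_mem _)
  rw [mem_riemannRochSpace_iff] at hfD
  refine ⟨f, ?_, ?_, ?_⟩
  · rintro ⟨c, rfl⟩
    exact hfC ⟨c, rfl⟩
  · intro v hv
    have := (hfD v).resolve_left hf0
    rw [hDv v hv] at this
    simpa using this
  · have := (hfD P).resolve_left hf0
    rw [hDP] at this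
    exact this

end Fermat.Agent.RRlib

end
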